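import Fermat.Agent.CFT.Reciprocity.Places

/-!
# Frobenius elements of a number field at its places and the Artin function of a character
-/

set_option autoImplicit false
set_option linter.unusedSectionVars false

noncomputable section

namespace Fermat.Agent.CFT.Reciprocity

open Fermat.Agent.Arith
open IsDedekindDomain NumberField
open scoped Pointwise

variable {K : IntermediateField ℚ QBar} [NumberField K] {A : ValuationSubring QBar} {P : Prime K}

/-- Every place has a Frobenius element over `K`. -/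
theorem exists_isFrobOver (hA : LiesOver A P) : ∃ σ, IsFrobOver A P σ := by
  obtain ⟨ℓ, f, hℓ, hAℓ, hf, hN⟩ := exists_prime_pow hA
  let k := integralClosure ℤ QBar ⧸ centre A
  haveI := centre_isMaximal hAℓ hℓ
  letI : Field k := Ideal.Quotient.field (centre A)
  haveI : Fact ℓ.Prime := ⟨hℓ⟩
  haveI : CharP k ℓ := (CharP.charP_iff_prime_eq_zero hℓ).mpr (natCast_mk_centre_eq_zero hAℓ)
  have hbij : Function.Bijective (fun x : k => x ^ ℓ ^ f) := by
    refine ⟨fun a b h => iterateFrobenius_inj k ℓ f (by simpa [iterateFrobenius_def] using h),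
      fun z => ?_⟩
    obtain ⟨x, rfl⟩ := Ideal.Quotient.mk_surjective z
    obtain ⟨y, hy⟩ := IsAlgClosed.exists_pow_nat_eq (x : QBar) (pow_pos hℓ.pos f)
    refine ⟨Ideal.Quotient.mk _ ⟨y, IsIntegral.of_pow (pow_pos hℓ.pos f) (hy ▸ x.2)⟩, ?_⟩
    show (Ideal.Quotient.mk (centre A) _) ^ ℓ ^ f = _
    rw [← map_pow]
    exact congrArg _ (Subtype.ext hy)
  let R := fixedInts K
  let P₀ : Ideal R := (centre A).under R
  haveI : (centre A).LiesOver P₀ := ⟨rfl⟩
  have hres : ∀ r : R, ((r : integralClosure ℤ QBar) ^ ℓ ^ f - (r : integralClosure ℤ QBar)) ∈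
      centre A := fun r => by
    obtain ⟨x, hx⟩ := exists_toZBar_eq r
    haveI : P.asIdeal.IsMaximal := P.isMaximal
    letI := Ideal.Quotient.field P.asIdeal
    haveI : Finite (𝓞 K ⧸ P.asIdeal) := Ideal.finiteQuotientOfFreeOfNeBot _ P.ne_bot
    letI := Fintype.ofFinite (𝓞 K ⧸ P.asIdeal)
    have h : (Ideal.Quotient.mk P.asIdeal x) ^ ℓ ^ f = Ideal.Quotient.mk P.asIdeal x := by
      rw [← hN, Ideal.absNorm_apply, Submodule.cardQuot_apply, Nat.card_eq_fintype_card]
      exact FiniteField.pow_card _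
    rw [← map_pow, Ideal.Quotient.eq, ← liesOver_iff.1 hA, Ideal.mem_comap, map_sub, map_pow,
      hx] at h
    exact h
  let F₀ : k ≃+* k := RingEquiv.ofBijective (iterateFrobenius k ℓ f) (by
    rw [show ⇑(iterateFrobenius k ℓ f) = fun x : k => x ^ ℓ ^ f from
      funext fun x => iterateFrobenius_def ℓ f x]
    exact hbij)
  let F : k ≃ₐ[R ⧸ P₀] k := AlgEquiv.ofRingEquiv (f := F₀) fun r => by
    obtain ⟨x, rfl⟩ := Ideal.Quotient.mk_surjective r
    show (Ideal.Quotient.mk (centre A) (x : integralClosure ℤ QBar)) ^ ℓ ^ f =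
      Ideal.Quotient.mk (centre A) (x : integralClosure ℤ QBar)
    rw [← map_pow, Ideal.Quotient.eq]
    exact hres x
  obtain ⟨⟨σ, hσ⟩, hσF⟩ :=
    Ideal.Quotient.stabilizerHom_surjective_of_profinite (A := R) (G := K.fixingSubgroup) P₀
      (centre A) F
  refine ⟨σ, σ.2, hA, fun x hx => ?_⟩
  have h1 := DFunLike.congr_fun hσF (Ideal.Quotient.mk (centre A) ⟨x, hx⟩)
  have h2 : Ideal.Quotient.mk (centre A) (σ • ⟨x, hx⟩) =
      Ideal.Quotient.mk (centre A) (⟨x, hx⟩ ^ ℓ ^ f) := by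
    rw [map_pow]; exact h1
  rw [Ideal.Quotient.eq, mem_centre] at h2
  rw [hN]
  exact h2

theorem IsFrobOver.stabilizes {σ : GQ} (h : IsFrobOver A P σ) : σ • A = A := by
  obtain ⟨ℓ, f, hℓ, hAℓ, hf, hN⟩ := exists_prime_pow h.liesOver
  exact (congr_pow_of_integral hAℓ hℓ h.congr).1

theorem IsFrobOver.inv_mul_mem_inertia {σ τ : GQ} (h : IsFrobOver A P σ)
    (h' : IsFrobOver A P τ) : τ⁻¹ * σ ∈ A.inertiaSubgroupIn ℚ := by
  obtain ⟨ℓ, f, hℓ, hAℓ, hf, hN⟩ := exists_prime_pow h.liesOver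
  refine (mem_inertia_iff hAℓ hℓ).2 fun x hx => ?_
  have h1 := nonunits_sub (h.congr x hx) (h'.congr x hx)
  rw [sub_sub_sub_cancel_right] at h1
  have h2 := (smul_mem_nonunits_smul_iff (g := τ⁻¹)).2 h1
  rw [inv_smul_eq_iff.2 h'.stabilizes.symm, smul_sub] at h2
  simp only [AlgEquiv.smul_def] at h2
  rwa [← AlgEquiv.mul_apply, ← AlgEquiv.mul_apply, inv_mul_cancel, AlgEquiv.one_apply] at h2

theorem IsFrobOver.conj {σ g : GQ} (h : IsFrobOver A P σ) (hg : g ∈ K.fixingSubgroup) :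
    IsFrobOver (g • A) P (g * σ * g⁻¹) where
  fixes := mul_mem (mul_mem hg h.fixes) (inv_mem hg)
  liesOver := liesOver_smul h.liesOver hg
  congr x hx := by
    have h1 := h.congr (g⁻¹ x) (hx.map (g⁻¹ : GQ).toAlgHom.toRingHom.toIntAlgHom)
    rw [← smul_mem_nonunits_smul_iff (g := g), AlgEquiv.smul_def, map_sub, map_pow,
      ← AlgEquiv.mul_apply g g⁻¹, mul_inv_cancel, AlgEquiv.one_apply] at h1
    exact h1

variable {H : Type*} [CommGroup H] {χ : K.fixingSubgroup →* H}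

/-- The value of the character at the Frobenius elements of an unramified prime is well defined. -/
theorem IsUnramifiedAt.value_eq (hχ : IsUnramifiedAt χ P) {B : ValuationSubring QBar}
    {σ τ : K.fixingSubgroup} (hσ : IsFrobOver A P (σ : GQ)) (hτ : IsFrobOver B P (τ : GQ)) :
    χ σ = χ τ := by
  obtain ⟨g, hg, rfl⟩ := exists_smul_eq_of_liesOver hσ.liesOver hτ.liesOver
  have h1 := hσ.conj hg
  set γ : K.fixingSubgroup := ⟨g, hg⟩
  have hin : ((τ⁻¹ * (γ * σ * γ⁻¹) : K.fixingSubgroup) : GQ) ∈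
      (g • A).inertiaSubgroupIn ℚ := h1.inv_mul_mem_inertia hτ
  have h2 : χ (τ⁻¹ * (γ * σ * γ⁻¹)) = 1 := hχ _ h1.liesOver _ hin
  have h3 : χ (γ * σ * γ⁻¹) = χ σ := by
    rw [map_mul, map_mul, map_inv, mul_comm (χ γ), mul_inv_cancel_right]
  rw [map_mul, map_inv, h3] at h2
  exact (inv_mul_eq_one.1 h2).symm

/-- The Artin function exists. -/
theorem exists_isArtinFun (χ : K.fixingSubgroup →* H) (S : Finset (Prime K))
    (hS : ∀ P ∉ S, IsUnramifiedAt χ P) : ∃ v, IsArtinFun χ S v := by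
  choose A hA using fun P : Prime K => exists_liesOver P
  choose σ hσ using fun P : Prime K => exists_isFrobOver (hA P)
  exact ⟨fun P => χ ⟨σ P, (hσ P).fixes⟩, fun P hP B τ hτ =>
    (hS P hP).value_eq (σ := ⟨σ P, (hσ P).fixes⟩) (hσ P) hτ⟩

/-- A Frobenius at a prime number is a Frobenius over `K` at a prime of degree one. -/
theorem isFrobOver_of_isFrobeniusAt {ℓ : ℕ} (hℓ : ℓ.Prime) (hA : LiesOver A P)
    (hN : Ideal.absNorm P.asIdeal = ℓ) {σ : GQ} (hσK : σ ∈ K.fixingSubgroup)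
    (hσ : A.IsFrobeniusAt σ ℓ) : IsFrobOver A P σ := by
  obtain ⟨q, f, hq, hAq, hf, hN'⟩ := exists_prime_pow hA
  obtain rfl : q = ℓ :=
    ((Nat.prime_dvd_prime_iff_eq hq hℓ).1 (hN ▸ hN' ▸ dvd_pow_self q hf.ne'))
  exact ⟨hσK, hA, fun x hx => by rw [hN]; exact (isFrobeniusAt_iff hAq hℓ).1 hσ x hx⟩

end Fermat.Agent.CFT.Reciprocity
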