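import Fermat.Agent.CFT.Reciprocity.Defs
import Fermat.Agent.TwoAdic.Galois.Defs

/-!
# Reciprocity: the core statement and the form used for the class group of `ℚ(√-N)`

`ReciprocityCore`: for a character of `2`- or `3`-power order of a totally complex field, the
Frobenius product of an element congruent to `1` modulo `n ^ 3 P` at the ramified primes `P` is
trivial. `ArtinInput`: unramified characters of `ℚ(√-N)` factor through the class group. The form
for a cubic field is `TwoAdic.Selmer.HilbertSingleInput`.
-/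

set_option autoImplicit false

noncomputable section

namespace Fermat.Agent.CFT.Reciprocity

open Fermat.Agent.Arith
open IsDedekindDomain NumberField
open Fermat.Agent.TwoAdic (sqrtNeg GK)

/-- Artin reciprocity for cyclic extensions of `2`- or `3`-power degree of totally complex fields,
with congruence conditions at the ramified primes. -/
def ReciprocityCore : Prop :=
  ∀ (K : IntermediateField ℚ QBar) [NumberField K], IsTotallyComplexIn K →
    ∀ (p k : ℕ), (p = 2 ∨ p = 3) →
    ∀ χ : K.fixingSubgroup →* Multiplicative (ZMod (p ^ k)), IsFiniteLevelChar χ →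
    ∀ S : Finset (Prime K), (∀ P ∉ S, IsUnramifiedAt χ P) →
    ∀ v : Prime K → Multiplicative (ZMod (p ^ k)), IsArtinFun χ S v →
    ∀ y : K, y ≠ 0 →
      (∀ P ∈ S, P.valuation K (y - 1) < P.valuation K (((p ^ k : ℕ) : K) ^ 3)) →
      artinElem v y = 1

/-- The same for every number field and totally positive elements. -/
def ReciprocityPositive : Prop :=
  ∀ (K : IntermediateField ℚ QBar) [NumberField K],
    ∀ (p k : ℕ), (p = 2 ∨ p = 3) →
    ∀ χ : K.fixingSubgroup →* Multiplicative (ZMod (p ^ k)), IsFiniteLevelChar χ →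
    ∀ S : Finset (Prime K), (∀ P ∉ S, IsUnramifiedAt χ P) →
    ∀ v : Prime K → Multiplicative (ZMod (p ^ k)), IsArtinFun χ S v →
    ∀ y : K, y ≠ 0 → IsTotallyPositive y →
      (∀ P ∈ S, P.valuation K (y - 1) < P.valuation K (((p ^ k : ℕ) : K) ^ 6)) →
      artinElem v y = 1

/-- The field `ℚ(√-N)`. -/
abbrev quadField (N : ℕ) : IntermediateField ℚ QBar :=
  IntermediateField.adjoin ℚ {sqrtNeg N}

instance numberField_quadField (N : ℕ) : NumberField (quadField N) :=
  haveI : FiniteDimensional ℚ (quadField N) :=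
    IntermediateField.adjoin.finiteDimensional (Algebra.IsIntegral.isIntegral (sqrtNeg N))
  { to_finiteDimensional := inferInstance }

/-- Everywhere unramified characters of `2`- or `3`-power order of `ℚ(√-N)` factor through the
class group by Frobenius elements at primes of degree one. -/
def ArtinInput : Prop :=
  ∀ (N : ℕ), Squarefree N → N % 4 = 3 →
    ∀ (H : Type) [CommGroup H] [Finite H] (p k : ℕ), p.Prime → Nat.card H = p ^ k →
      (p = 2 ∨ p = 3) →
    ∀ χ : GK N →* H,
      (∃ L : IntermediateField ℚ QBar, FiniteDimensional ℚ L ∧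
        ∀ σ : GK N, (∀ x ∈ L, (σ : GQ) x = x) → χ σ = 1) →
      (∀ ℓ : ℕ, ℓ.Prime → ∀ A : ValuationSubring QBar, A.LiesOverPrime ℓ →
        ∀ σ : GK N, (σ : GQ) ∈ A.inertiaSubgroupIn ℚ → χ σ = 1) →
      ∃ f : ClassGroup (𝓞 (quadField N)) →* H,
        ∀ ℓ : ℕ, ℓ.Prime → ¬ ℓ ∣ 2 * N → ∀ A : ValuationSubring QBar, A.LiesOverPrime ℓ →
          ∀ σ : GK N, A.IsFrobeniusAt (σ : GQ) ℓ →
          ∀ P : nonZeroDivisors (Ideal (𝓞 (quadField N))),
            Ideal.absNorm (P : Ideal (𝓞 (quadField N))) = ℓ →
            (∀ x ∈ (P : Ideal (𝓞 (quadField N))),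
              (((x : quadField N) : quadField N) : QBar) ∈ A.nonunits) →
            f (ClassGroup.mk0 P) = χ σ

end Fermat.Agent.CFT.Reciprocity
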