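import Fermat.Agent.CFT.Reciprocity.ArtinElem
import Fermat.Agent.CFT.Reciprocity.Frobenius
import Fermat.Agent.CFT.Reciprocity.Statement
import Mathlib.GroupTheory.FiniteAbelian.Basic
import Mathlib.RingTheory.ClassGroup.Basic

/-!
# Unramified characters of `ℚ(√-N)` factor through the class group

Deduced from `ReciprocityCore`, the ground field being totally complex.
-/

set_option autoImplicit false
set_option linter.style.haveILetI false

noncomputable section

namespace Fermat.Agent.CFT.Reciprocity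

open Fermat.Agent.Arith
open IsDedekindDomain NumberField
open Fermat.Agent.TwoAdic (sqrtNeg sq_sqrtNeg GK)
open scoped nonZeroDivisors

variable {K : IntermediateField ℚ QBar} [NumberField K] {H : Type*} [CommGroup H]

/-- `artinIdeal` as a homomorphism on the nonzero ideals. -/
def artinIdealHom (v : Prime K → H) : (Ideal (𝓞 K))⁰ →* H where
  toFun I := artinIdeal v (I : Ideal (𝓞 K))
  map_one' := by
    rw [OneMemClass.coe_one, Ideal.one_eq_top, artinIdeal_top]
  map_mul' I J := artinIdeal_mul v (nonZeroDivisors.ne_zero I.2) (nonZeroDivisors.ne_zero J.2)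

/-- A function on the primes trivial on all elements factors through the class group. -/
theorem exists_classGroup_hom (v : Prime K → H)
    (h : ∀ x : K, x ≠ 0 → artinElem v x = 1) :
    ∃ f : ClassGroup (𝓞 K) →* H,
      ∀ I : (Ideal (𝓞 K))⁰, f (ClassGroup.mk0 I) = artinIdeal v (I : Ideal (𝓞 K)) := by
  have hprin : ∀ x : 𝓞 K, x ≠ 0 → artinIdeal v (Ideal.span {x}) = 1 := fun x hx => by
    rw [← artinElem_integral v hx]
    exact h _ (mt RingOfIntegers.coe_eq_zero_iff.1 hx)
  have hwd : ∀ I J : (Ideal (𝓞 K))⁰, ClassGroup.mk0 I = ClassGroup.mk0 J →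
      artinIdealHom v I = artinIdealHom v J := fun I J hIJ => by
    obtain ⟨x, y, hx, hy, hxy⟩ := ClassGroup.mk0_eq_mk0_iff.1 hIJ
    have h1 := congrArg (artinIdeal v) hxy
    rw [artinIdeal_mul v (by rwa [Ne, Ideal.span_singleton_eq_bot]) (nonZeroDivisors.ne_zero I.2),
      artinIdeal_mul v (by rwa [Ne, Ideal.span_singleton_eq_bot]) (nonZeroDivisors.ne_zero J.2),
      hprin x hx, hprin y hy, one_mul, one_mul] at h1
    exact h1
  choose s hs using ClassGroup.mk0_surjective (R := 𝓞 K)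
  refine ⟨MonoidHom.mk' (fun c => artinIdealHom v (s c)) fun c d => ?_, fun I => hwd _ _ (hs _)⟩
  rw [← map_mul]
  exact hwd _ _ (by rw [map_mul, hs, hs, hs])

/-- The core for a character with values in an arbitrary finite group of `2`- or `3`-power
order, unramified everywhere. -/
theorem artinElem_eq_one_of_unramified [Finite H] (hcore : ReciprocityCore)
    (hK : IsTotallyComplexIn K) {p k : ℕ} (hp : p = 2 ∨ p = 3) (hcard : Nat.card H = p ^ k)
    {χ : K.fixingSubgroup →* H} (hχ : IsFiniteLevelChar χ) (hur : ∀ P, IsUnramifiedAt χ P)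
    {v : Prime K → H} (hv : IsArtinFun χ ∅ v) {x : K} (hx : x ≠ 0) : artinElem v x = 1 := by
  obtain ⟨ι, _, n, hn, ⟨e⟩⟩ := CommGroup.equiv_prod_multiplicative_zmod_of_finite H
  refine e.injective (funext fun i => ?_)
  rw [map_one, Pi.one_apply]
  obtain ⟨j, -, hj⟩ : ∃ j, j ≤ k ∧ n i = p ^ j := by
    refine (Nat.dvd_prime_pow (by rcases hp with rfl | rfl <;> norm_num)).1 ?_
    rw [← hcard, Nat.card_congr e.toEquiv, Nat.card_pi]
    refine dvd_trans ?_ (Finset.dvd_prod_of_mem _ (Finset.mem_univ i))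
    rw [Nat.card_congr Multiplicative.toAdd, Nat.card_zmod]
  have main : ∀ m (proj : H →* Multiplicative (ZMod m)), m = p ^ j → proj (artinElem v x) = 1 := by
    rintro m proj rfl
    rw [artinElem_map]
    refine hcore K hK p j hp (proj.comp χ) ?_ ∅ (fun P _ A hA σ hσ => ?_) _ ?_ x hx
      (fun P hP => absurd hP (Finset.notMem_empty P))
    · exact let ⟨L, hL, hχ'⟩ := hχ; ⟨L, hL, fun σ hσ => by
        rw [MonoidHom.comp_apply, hχ' σ hσ, map_one]⟩
    · rw [MonoidHom.comp_apply, hur P A hA σ hσ, map_one]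
    · exact fun P hP A σ hσ => congrArg proj (hv P hP A σ hσ)
  exact main _ ((Pi.evalMonoidHom (fun i => Multiplicative (ZMod (n i))) i).comp e.toMonoidHom) hj

theorem isTotallyComplexIn_quadField {N : ℕ} (hN : 0 < N) : IsTotallyComplexIn (quadField N) := by
  refine fun φ => ⟨sqrtNeg N, IntermediateField.mem_adjoin_simple_self ℚ _, fun h0 => ?_⟩
  have h1 : (φ (sqrtNeg N) ^ 2).re = -(N : ℝ) := by
    rw [← map_pow, sq_sqrtNeg]
    simp
  rw [sq, Complex.mul_re, h0, mul_zero, sub_zero] at h1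
  have : (0 : ℝ) < N := Nat.cast_pos.2 hN
  nlinarith [mul_self_nonneg (φ (sqrtNeg N)).re]

theorem mem_GK_iff {N : ℕ} {σ : GQ} : σ ∈ GK N ↔ σ ∈ (quadField N).fixingSubgroup := by
  rw [GK, MulAction.mem_stabilizer_iff, IntermediateField.mem_fixingSubgroup_iff]
  refine ⟨fun h x hx => ?_, fun h => h _ (IntermediateField.mem_adjoin_simple_self ℚ _)⟩
  induction hx using IntermediateField.adjoin_induction with
  | mem y hy => rw [Set.mem_singleton_iff.1 hy]; exact h
  | algebraMap r => exact σ.commutes r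
  | add a b _ _ ha hb => rw [map_add, ha, hb]
  | inv a _ ha => rw [map_inv₀, ha]
  | mul a b _ _ ha hb => rw [map_mul, ha, hb]

/-- The class group form of reciprocity for `ℚ(√-N)`. -/
theorem artinInput_of_core (hcore : ReciprocityCore) : ArtinInput := by
  intro N hsf hN4 H _ _ p k _ hcard hp χ hfin hur
  set K := quadField N
  let ι : K.fixingSubgroup →* GK N :=
    Subgroup.inclusion (fun σ hσ => mem_GK_iff.2 hσ)
  let χ' : K.fixingSubgroup →* H := χ.comp ι
  have hfin' : IsFiniteLevelChar χ' :=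
    let ⟨L, hL, hχ⟩ := hfin
    ⟨L, hL, fun σ hσ => hχ (ι σ) hσ⟩
  have hur' : ∀ P, IsUnramifiedAt χ' P := fun P A hA σ hσ => by
    obtain ⟨ℓ, f, hℓ, hAℓ, -, -⟩ := exists_prime_pow hA
    exact hur ℓ hℓ A hAℓ (ι σ) hσ
  obtain ⟨v, hv⟩ := exists_isArtinFun χ' ∅ fun P _ => hur' P
  obtain ⟨f, hf⟩ := exists_classGroup_hom v fun x hx =>
    artinElem_eq_one_of_unramified hcore (isTotallyComplexIn_quadField (by omega)) hp hcard hfin'
      hur' hv hx
  refine ⟨f, fun ℓ hℓ _ A _ σ hσ P hP hPA => ?_⟩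
  have hprime : (P : Ideal (𝓞 K)).IsPrime :=
    Ideal.isPrime_of_irreducible_absNorm (by rw [hP]; exact hℓ.prime.irreducible)
  let Q : Prime K := ⟨(P : Ideal (𝓞 K)), hprime, nonZeroDivisors.ne_zero P.2⟩
  have hQ : LiesOver A Q := by
    refine liesOver_iff.2 (Q.isMaximal.eq_of_le (Ideal.IsPrime.comap _).ne_top fun x hx => ?_).symm
    rw [Ideal.mem_comap, mem_centre, coe_toZBar]
    exact hPA x hx
  rw [hf, show artinIdeal v (P : Ideal (𝓞 K)) = v Q from artinIdeal_prime v Q]
  exact hv Q (Finset.notMem_empty Q) A ⟨σ, mem_GK_iff.1 σ.2⟩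
    (isFrobOver_of_isFrobeniusAt hℓ hQ hP (mem_GK_iff.1 σ.2) hσ)

end Fermat.Agent.CFT.Reciprocity
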