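import Fermat.Agent.CFT.Reciprocity.Places
import Mathlib.RingTheory.DedekindDomain.Factorization

/-!
# Products over the primes with the orders of an element or of an ideal as exponents

`artinIdeal v I` is `∏ v P ^ ord_P I`; on principal ideals it agrees with `artinElem v`.
-/

set_option autoImplicit false

noncomputable section

namespace Fermat.Agent.CFT.Reciprocity

open Fermat.Agent.Arith
open IsDedekindDomain NumberField
open scoped nonZeroDivisors

variable {K : IntermediateField ℚ QBar} [NumberField K] {H : Type*} [CommGroup H]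

/-- `∏ v P ^ ord_P I`. -/
def artinIdeal (v : Prime K → H) (I : Ideal (𝓞 K)) : H :=
  ∏ᶠ P : Prime K, v P ^ FractionalIdeal.count K P (I : FractionalIdeal (𝓞 K)⁰ K)

theorem artinIdeal_mulSupport (v : Prime K → H) (I : Ideal (𝓞 K)) :
    Function.HasFiniteMulSupport
      fun P : Prime K => v P ^ FractionalIdeal.count K P (I : FractionalIdeal (𝓞 K)⁰ K) :=
  (Filter.eventually_cofinite.1
    (FractionalIdeal.finite_factors (I : FractionalIdeal (𝓞 K)⁰ K))).subset fun P hP h =>
      hP (by beta_reduce; rw [h, zpow_zero])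

theorem artinIdeal_mul (v : Prime K → H) {I J : Ideal (𝓞 K)} (hI : I ≠ ⊥) (hJ : J ≠ ⊥) :
    artinIdeal v (I * J) = artinIdeal v I * artinIdeal v J := by
  rw [artinIdeal, artinIdeal, artinIdeal,
    ← finprod_mul_distrib (artinIdeal_mulSupport v I) (artinIdeal_mulSupport v J)]
  refine finprod_congr fun P => ?_
  rw [FractionalIdeal.coeIdeal_mul, FractionalIdeal.count_mul K P
    (FractionalIdeal.coeIdeal_ne_zero.2 hI) (FractionalIdeal.coeIdeal_ne_zero.2 hJ), zpow_add]

theorem artinIdeal_top (v : Prime K → H) : artinIdeal v (⊤ : Ideal (𝓞 K)) = 1 :=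
  finprod_eq_one_of_forall_eq_one fun P => by
    rw [FractionalIdeal.coeIdeal_top, FractionalIdeal.count_one, zpow_zero]

theorem artinIdeal_pow (v : Prime K → H) {I : Ideal (𝓞 K)} (hI : I ≠ ⊥) (n : ℕ) :
    artinIdeal v (I ^ n) = artinIdeal v I ^ n := by
  induction n with
  | zero => rw [pow_zero, pow_zero, Ideal.one_eq_top, artinIdeal_top]
  | succ n ih => rw [pow_succ, pow_succ, artinIdeal_mul v (pow_ne_zero n hI) hI, ih]

theorem artinIdeal_prime (v : Prime K → H) (P : Prime K) : artinIdeal v P.asIdeal = v P := by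
  classical
  rw [artinIdeal, finprod_eq_single _ P fun Q hQ => by
    rw [FractionalIdeal.count_maximal_coprime K Q (Ne.symm hQ), zpow_zero]]
  rw [FractionalIdeal.count_self, zpow_one]

/-- The order of an algebraic integer at a prime is read off its valuation. -/
theorem count_span_singleton (P : Prime K) {x : 𝓞 K} (hx : x ≠ 0) :
    FractionalIdeal.count K P ((Ideal.span {x} : Ideal (𝓞 K)) : FractionalIdeal (𝓞 K)⁰ K) =
      -(WithZero.log (P.valuation K (x : K))) := by
  rw [FractionalIdeal.count_coe K P (by rwa [Ne, Ideal.zero_eq_bot, Ideal.span_singleton_eq_bot]),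
    show (x : K) = algebraMap (𝓞 K) K x from rfl, P.valuation_of_algebraMap,
    P.intValuation_if_neg hx, WithZero.log_exp, neg_neg]

theorem artinElem_integral (v : Prime K → H) {x : 𝓞 K} (hx : x ≠ 0) :
    artinElem v (x : K) = artinIdeal v (Ideal.span {x}) :=
  finprod_congr fun P => by rw [count_span_singleton P hx]

omit [CommGroup H] in
theorem exists_integral_mul (x : K) :
    ∃ a b : 𝓞 K, b ≠ 0 ∧ x * (b : K) = (a : K) := by
  obtain ⟨⟨a, b⟩, h⟩ := IsLocalization.surj (𝓞 K)⁰ x
  exact ⟨a, b, nonZeroDivisors.ne_zero b.2, h⟩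

theorem finite_valuation_ne_one {x : K} (hx : x ≠ 0) :
    {P : Prime K | P.valuation K x ≠ 1}.Finite := by
  have hint : ∀ a : 𝓞 K, a ≠ 0 → {P : Prime K | P.valuation K (a : K) ≠ 1}.Finite := fun a ha =>
    (Ideal.finite_factors (I := Ideal.span {a})
      (by rwa [Ne, Ideal.zero_eq_bot, Ideal.span_singleton_eq_bot])).subset fun P hP => by
        rw [Set.mem_setOf_eq, Ideal.dvd_iff_le, Ideal.span_le, Set.singleton_subset_iff,
          SetLike.mem_coe, ← P.valuation_lt_one_iff_mem (K := K)]
        exact lt_of_le_of_ne (P.valuation_le_one a) hP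
  obtain ⟨a, b, hb, h⟩ := exists_integral_mul x
  have ha : a ≠ 0 := fun h0 => by
    rw [h0, show ((0 : 𝓞 K) : K) = 0 from rfl, mul_eq_zero] at h
    exact h.elim hx fun hb' => hb (RingOfIntegers.coe_eq_zero_iff.1 hb')
  refine ((hint a ha).union (hint b hb)).subset fun P hP => ?_
  by_contra hc
  simp only [Set.mem_union, Set.mem_setOf_eq, not_or, not_not] at hc
  refine hP ?_
  have h' := congrArg (P.valuation K) h
  rwa [map_mul, hc.1, hc.2, mul_one] at h'

theorem artinElem_mulSupport (v : Prime K → H) (x : K) :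
    Function.HasFiniteMulSupport
      fun P : Prime K => v P ^ (-(WithZero.log (P.valuation K x)) : ℤ) := by
  by_cases hx : x = 0
  · exact Set.finite_empty.subset fun P hP => hP (by
      beta_reduce; rw [hx, map_zero, WithZero.log_zero, neg_zero, zpow_zero])
  · exact (finite_valuation_ne_one hx).subset fun P hP h => hP (by
      beta_reduce; rw [h, WithZero.log_one, neg_zero, zpow_zero])

theorem artinElem_mul (v : Prime K → H) {x y : K} (hx : x ≠ 0) (hy : y ≠ 0) :
    artinElem v (x * y) = artinElem v x * artinElem v y := by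
  rw [artinElem, artinElem, artinElem,
    ← finprod_mul_distrib (artinElem_mulSupport v x) (artinElem_mulSupport v y)]
  refine finprod_congr fun P => ?_
  rw [map_mul, WithZero.log_mul ((map_ne_zero _).2 hx) ((map_ne_zero _).2 hy), neg_add, zpow_add]

theorem artinElem_one (v : Prime K → H) : artinElem v 1 = 1 :=
  finprod_eq_one_of_forall_eq_one fun P => by
    rw [map_one, WithZero.log_one, neg_zero, zpow_zero]

theorem artinElem_inv (v : Prime K → H) (x : K) : artinElem v x⁻¹ = (artinElem v x)⁻¹ := by
  rw [artinElem, artinElem, ← finprod_inv_distrib]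
  refine finprod_congr fun P => ?_
  rw [map_inv₀, WithZero.log_inv, ← zpow_neg]

theorem artinElem_div (v : Prime K → H) {x y : K} (hx : x ≠ 0) (hy : y ≠ 0) :
    artinElem v (x / y) = artinElem v x / artinElem v y := by
  rw [div_eq_mul_inv, artinElem_mul v hx (inv_ne_zero hy), artinElem_inv, ← div_eq_mul_inv]

theorem artinElem_map {G : Type*} [CommGroup G] (f : H →* G) (v : Prime K → H) (x : K) :
    f (artinElem v x) = artinElem (fun P => f (v P)) x := by
  rw [artinElem, MonoidHom.map_finprod f (artinElem_mulSupport v x)]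
  exact finprod_congr fun P => map_zpow f _ _

/-- Only one prime contributes. -/
theorem artinElem_eq_single (v : Prime K → H) (x : K) (P₀ : Prime K)
    (h : ∀ P ≠ P₀, v P ^ (-(WithZero.log (P.valuation K x)) : ℤ) = 1) :
    artinElem v x = v P₀ ^ (-(WithZero.log (P₀.valuation K x)) : ℤ) :=
  finprod_eq_single _ P₀ h

end Fermat.Agent.CFT.Reciprocity
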