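import Fermat.Agent.CFT.Idele.CycChar

/-!
# Auxiliary primes for a given prime

For a prime `l` and `p ∈ {2, 3}` there are auxiliary primes `q` with a logarithm killing `-1` in
which `l` has as large a `p`-power order as wished: prime divisors of
`(l ^ p ^ j - 1) / (l ^ p ^ (j - 1) - 1)`.
-/

set_option autoImplicit false

noncomputable section

namespace Fermat.Agent.CFT.Reciprocity

open Fermat.Agent.Arith Fermat.Agent.CFT.Idele

/-- A prime modulo which `l` has order exactly `p ^ j`. -/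
theorem exists_prime_orderOf_eq {p : ℕ} (hp : p = 2 ∨ p = 3) {l : ℕ} (hl : 2 ≤ l) (j : ℕ) :
    ∃ q : ℕ, q.Prime ∧ orderOf (l : ZMod q) = p ^ (j + 2) := by
  have hpp : p.Prime := by rcases hp with rfl | rfl <;> norm_num
  haveI : Fact p.Prime := ⟨hpp⟩
  set a := l ^ p ^ (j + 1) with ha
  have ha2 : 2 ≤ a := hl.trans (Nat.le_self_pow (pow_ne_zero _ hpp.ne_zero) l)
  set N := ∑ i ∈ Finset.range p, a ^ i with hN
  have hsq : ¬ p ^ 2 ∣ N := by
    intro h
    rw [← ZMod.natCast_eq_zero_iff, hN, Nat.cast_sum] at h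
    rcases hp with rfl | rfl
    · obtain ⟨b, hb⟩ : ∃ b : ℕ, a = b ^ 2 := ⟨l ^ 2 ^ j, by rw [ha, ← pow_mul, pow_succ]⟩
      simp only [Finset.sum_range_succ, Finset.sum_range_zero, pow_zero, pow_one, hb, Nat.cast_pow,
        Nat.cast_one, zero_add] at h
      exact (show ∀ x : ZMod (2 ^ 2), 1 + x ^ 2 ≠ 0 by decide) _ h
    · simp only [Finset.sum_range_succ, Finset.sum_range_zero, pow_zero, pow_one, Nat.cast_pow,
        Nat.cast_one, zero_add] at h
      exact (show ∀ x : ZMod (3 ^ 2), 1 + x + x ^ 2 ≠ 0 by decide) _ h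
  have hlt : p < N := by
    calc p = ∑ i ∈ Finset.range p, 1 := by simp
      _ < N := Finset.sum_lt_sum (fun i _ => Nat.one_le_pow _ _ (by omega))
          ⟨1, Finset.mem_range.2 hpp.one_lt, by rw [pow_one]; omega⟩
  obtain ⟨q, hq, hqN, hqp⟩ : ∃ q, q.Prime ∧ q ∣ N ∧ q ≠ p := by
    by_contra hne
    push Not at hne
    have hpow := Nat.eq_prime_pow_of_unique_prime_dvd (p := p) (by omega : N ≠ 0)
      fun {d} hd hdN => hne d hd hdN
    have h1 : N.primeFactorsList.length ≤ 1 := by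
      by_contra h2
      exact hsq (hpow ▸ pow_dvd_pow p (by omega))
    have := Nat.pow_le_pow_right hpp.pos h1
    rw [pow_one, ← hpow] at this
    omega
  haveI : Fact q.Prime := ⟨hq⟩
  have hN0 : ∑ i ∈ Finset.range p, (a : ZMod q) ^ i = 0 := by
    rw [← (ZMod.natCast_eq_zero_iff N q).2 hqN, hN, Nat.cast_sum]
    simp only [Nat.cast_pow]
  have hap : (a : ZMod q) ^ p = 1 := by
    have := geom_sum_mul (a : ZMod q) p
    rw [hN0, zero_mul] at this
    exact (sub_eq_zero.1 this.symm)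
  refine ⟨q, hq, orderOf_eq_prime_pow (p := p) (n := j + 1) (fun h1 => ?_) ?_⟩
  · rw [← Nat.cast_pow, ← ha] at h1
    rw [Finset.sum_congr rfl fun i _ => by rw [h1, one_pow], Finset.sum_const, Finset.card_range,
      nsmul_one, ZMod.natCast_eq_zero_iff] at hN0
    exact hqp ((Nat.prime_dvd_prime_iff_eq hq hpp).1 hN0)
  · rw [pow_succ, pow_mul, ← Nat.cast_pow, ← ha]
    exact hap

/-- A logarithm modulo `q` onto `ℤ/d`, killing exactly the `(q - 1)/d`-torsion. -/
theorem exists_log {q d m : ℕ} [Fact q.Prime] (h : q - 1 = d * m) :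
    ∃ f : (ZMod q)ˣ →* Multiplicative (ZMod d), Function.Surjective f ∧
      ∀ y, f y = 1 ↔ y ^ m = 1 := by
  have hq1 : q - 1 ≠ 0 := Nat.sub_ne_zero_of_lt (Fact.out : q.Prime).one_lt
  haveI : NeZero (q - 1) := ⟨hq1⟩
  have hm : 0 < m := Nat.pos_of_ne_zero fun h0 => hq1 (by rw [h, h0, mul_zero])
  have hdvd : d ∣ q - 1 := Dvd.intro m h.symm
  have hc : Nat.card (ZMod q)ˣ = Nat.card (Multiplicative (ZMod (q - 1))) := by
    rw [Nat.card_congr Multiplicative.toAdd, Nat.card_zmod, Nat.card_eq_fintype_card,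
      ZMod.card_units]
  let e := mulEquivOfCyclicCardEq hc
  let c : Multiplicative (ZMod (q - 1)) →* Multiplicative (ZMod d) :=
    AddMonoidHom.toMultiplicative (ZMod.castHom hdvd (ZMod d)).toAddMonoidHom
  have hsurj : Function.Surjective c := fun x => by
    obtain ⟨y, hy⟩ := ZMod.ringHom_surjective (ZMod.castHom hdvd (ZMod d)) x.toAdd
    exact ⟨Multiplicative.ofAdd y, congrArg Multiplicative.ofAdd hy⟩
  refine ⟨c.comp e.toMonoidHom, hsurj.comp e.surjective, fun y => ?_⟩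
  set z : ZMod (q - 1) := Multiplicative.toAdd (e y)
  have h1 : (c.comp e.toMonoidHom) y = 1 ↔ d ∣ z.val := by
    rw [← ZMod.natCast_eq_zero_iff, ← map_natCast (ZMod.castHom hdvd (ZMod d)),
      ZMod.natCast_zmod_val]
    exact Iff.rfl
  have h2 : y ^ m = 1 ↔ d * m ∣ z.val * m := by
    rw [← map_eq_one_iff e e.injective, map_pow, ← h, ← ZMod.natCast_eq_zero_iff, Nat.cast_mul,
      ZMod.natCast_zmod_val, mul_comm, ← nsmul_eq_mul]
    exact Iff.rfl
  rw [h1, h2, Nat.mul_dvd_mul_iff_right hm]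

/-- Auxiliary primes in which a given prime has large order, with `-1` in the kernel. -/
theorem exists_aux_log {p : ℕ} (hp : p = 2 ∨ p = 3) {l : Nat.Primes} (J : ℕ)
    (S : Finset Nat.Primes) :
    ∃ (t : ℕ) (a : Aux (p ^ t)), a.q ∉ S ∧ a.log (-1) = 1 ∧
      ∃ h : l ≠ a.q, p ^ J ∣ orderOf (a.log (a.unitOf (a.not_dvd_of_ne h))) := by
  have hpp : p.Prime := by rcases hp with rfl | rfl <;> norm_num
  obtain ⟨q, hq, hord⟩ := exists_prime_orderOf_eq hp l.2.two_le
    (J + S.sup fun r : Nat.Primes => (r : ℕ))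
  set j := J + (S.sup fun r : Nat.Primes => (r : ℕ)) + 2
  haveI : Fact q.Prime := ⟨hq⟩
  have hl0 : ((l : ℕ) : ZMod q) ≠ 0 := fun h0 => by
    rw [h0, orderOf_zero] at hord
    exact pow_ne_zero _ hpp.ne_zero hord.symm
  have hdvd : p ^ j ∣ q - 1 := hord ▸ ZMod.orderOf_dvd_card_sub_one hl0
  have hq1 : q - 1 ≠ 0 := Nat.sub_ne_zero_of_lt hq.one_lt
  set T := (q - 1).factorization p
  set r := (q - 1) / p ^ T
  have hr : q - 1 = p ^ T * r := (Nat.ordProj_mul_ordCompl_eq_self _ _).symm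
  have hrp : p.Coprime r := Nat.coprime_ordCompl hpp hq1
  have hjT : j ≤ T := (hpp.pow_dvd_iff_le_factorization hq1).1 hdvd
  have hqodd : 2 ∣ q - 1 := by
    have h2 : q ≠ 2 := fun h => by
      subst h
      have h3 : (1 : ℕ) < p ^ j := Nat.one_lt_pow (by omega) hpp.one_lt
      exact absurd (Nat.le_of_dvd one_pos hdvd) (by omega)
    exact Nat.Prime.even_sub_one hq h2 |>.two_dvd
  set e : ℕ := if p = 2 then 1 else 0
  set m := p ^ e * r with hm
  have he : e ≤ 1 := by simp only [e]; split_ifs <;> simp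
  have hqm : q - 1 = p ^ (T - e) * m := by
    rw [hm, ← mul_assoc, ← pow_add, Nat.sub_add_cancel (he.trans (by omega)), hr]
  have hm2 : 2 ∣ m := by
    rcases hp with rfl | rfl
    · rw [hm, show e = 1 from if_pos rfl, pow_one]; exact dvd_mul_right _ _
    · rw [hm, show e = 0 from if_neg (by norm_num), pow_zero, one_mul]
      refine (Nat.Coprime.dvd_of_dvd_mul_left ?_ (hr ▸ hqodd))
      exact Nat.Coprime.pow_right _ (by norm_num)
  obtain ⟨f, hf, hfker⟩ := exists_log hqm
  set a : Aux (p ^ (T - e)) := ⟨⟨q, hq⟩, f, hf⟩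
  have hlq : l ≠ a.q := fun h => hl0 (by rw [h]; exact ZMod.natCast_self q)
  refine ⟨T - e, a, fun hS => ?_, ?_, hlq, ?_⟩
  · have h1 : q ≤ S.sup fun r : Nat.Primes => (r : ℕ) :=
      Finset.le_sup (f := fun r : Nat.Primes => (r : ℕ)) hS
    have h2 := Nat.lt_pow_self (n := j) hpp.one_lt
    have h3 := Nat.le_of_dvd (by omega) hdvd
    omega
  · show f (-1) = 1
    rw [hfker]
    obtain ⟨c, hc⟩ := hm2
    rw [hc, pow_mul, neg_one_sq, one_pow]
  · set u := a.unitOf (a.not_dvd_of_ne hlq) with hu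
    set i := orderOf (a.log u)
    have h1 : u ^ (i * m) = 1 := by
      rw [pow_mul]
      exact (hfker _).1 (by rw [map_pow]; exact pow_orderOf_eq_one (a.log u))
    have h2 : p ^ j ∣ i * m := by
      refine hord ▸ orderOf_dvd_of_pow_eq_one ?_
      have := congrArg Units.val h1
      rwa [Units.val_pow_eq_pow_val, Units.val_one, hu, Aux.coe_unitOf] at this
    rw [hm, ← mul_assoc] at h2
    have h3 := (Nat.Coprime.pow_left j hrp).dvd_of_dvd_mul_right h2
    rw [show j = j - e + e by omega, pow_add] at h3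
    exact (pow_dvd_pow p (by omega)).trans (Nat.dvd_of_mul_dvd_mul_right (pow_pos hpp.pos _) h3)

end Fermat.Agent.CFT.Reciprocity
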