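import Fermat.Agent.CFT.Form.LocalCarry

/-!
# The pairing of characters with invariant elements by carry cocycles

`carryCls χ x` is the class of the carry cocycle modulo coboundaries. It is additive in both
variables, unchanged when the modulus of the character is scaled, and zero on norms from the kernel.
Under the step axioms on a `p`-group a homomorphism killing the classes of a surjective character
computes them.
-/

set_option autoImplicit false
set_option linter.unusedSectionVars false
set_option linter.style.haveILetI false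

noncomputable section

namespace Fermat.Agent.CFT.Reciprocity

open groupCohomology Fermat.Agent.CFT.Idele Fermat.Agent.CFT.Form

variable {G A : Type*} [Group G] [AddCommGroup A] [DistribMulAction G A]

/-- Multiplication by `d` from `ℤ/n` to `ℤ/N` for `N = d n`. -/
def scaleHom {N n : ℕ} (d : ℕ) (h : N = d * n) : ZMod n →+ ZMod N :=
  ZMod.lift n ⟨zmultiplesHom (ZMod N) (d : ZMod N), by
    rw [zmultiplesHom_apply, natCast_zsmul, nsmul_eq_mul, ← Nat.cast_mul, mul_comm, ← h,
      ZMod.natCast_self]⟩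

theorem scaleHom_natCast {N n : ℕ} (d : ℕ) (h : N = d * n) (a : ℕ) :
    scaleHom d h (a : ZMod n) = ((d * a : ℕ) : ZMod N) := by
  rw [← Int.cast_natCast (R := ZMod n) a, scaleHom, ZMod.lift_coe]
  simp [mul_comm]

theorem val_scaleHom {N n : ℕ} [NeZero N] [NeZero n] (d : ℕ) (h : N = d * n) (a : ZMod n) :
    (scaleHom d h a).val = d * a.val := by
  conv_lhs => rw [← ZMod.natCast_zmod_val a]
  rw [scaleHom_natCast, ZMod.val_natCast, Nat.mod_eq_of_lt]
  rcases Nat.eq_zero_or_pos d with rfl | hd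
  · simp [NeZero.ne N] at h
  rw [h]
  exact Nat.mul_lt_mul_of_pos_left (ZMod.val_lt a) hd

theorem scaleHom_injective {N n : ℕ} [NeZero N] [NeZero n] (d : ℕ) (h : N = d * n) :
    Function.Injective (scaleHom d h) := fun a b e => by
  have := congrArg ZMod.val e
  rw [val_scaleHom, val_scaleHom] at this
  refine ZMod.val_injective _ (Nat.eq_of_mul_eq_mul_left (Nat.pos_of_ne_zero fun hd => ?_) this)
  simp [hd, NeZero.ne N] at h

/-- A character composed with `scaleHom`. -/
def scaleChar {N n : ℕ} (d : ℕ) (h : N = d * n) (χ : G →* Multiplicative (ZMod n)) :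
    G →* Multiplicative (ZMod N) :=
  (AddMonoidHom.toMultiplicative (scaleHom d h)).comp χ

theorem scaleChar_apply {N n : ℕ} (d : ℕ) (h : N = d * n) (χ : G →* Multiplicative (ZMod n)) (g : G) :
    Multiplicative.toAdd (scaleChar d h χ g) = scaleHom d h (Multiplicative.toAdd (χ g)) := rfl

variable {n : ℕ} [NeZero n]

theorem carryN_scale {N : ℕ} [NeZero N] (d : ℕ) (h : N = d * n)
    (χ : G →* Multiplicative (ZMod n)) (x : A) : carryN (scaleChar d h χ) x = carryN χ x := by
  have hd : 0 < d := Nat.pos_of_ne_zero fun hd => NeZero.ne N (by rw [h, hd, zero_mul])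
  funext gh
  simp only [carryN, chiVal, scaleChar_apply, val_scaleHom, ← mul_add, h,
    Nat.mul_div_mul_left _ _ hd]

theorem carryN_add (χ : G →* Multiplicative (ZMod n)) (x y : A) :
    carryN χ (x + y) = carryN χ x + carryN χ y := funext fun _ => smul_add _ _ _

theorem carryN_one (x : A) : carryN (1 : G →* Multiplicative (ZMod n)) x = 0 := by
  funext gh; simp [carryN, chiVal]

/-- Additivity in the character, up to a coboundary. -/
theorem isCoboundary₂_carryN_mul (χ χ' : G →* Multiplicative (ZMod n)) {x : A}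
    (hx : ∀ g : G, g • x = x) :
    IsCoboundary₂ (carryN χ x + carryN χ' x - carryN (χ * χ') x) := by
  have hn : 0 < n := NeZero.pos n
  refine ⟨fun g => ((chiVal χ g + chiVal χ' g) / n : ℕ) • x, fun g h => ?_⟩
  have hm : ∀ g, chiVal (χ * χ') g = (chiVal χ g + chiVal χ' g) % n := fun g => by
    simp only [chiVal, MonoidHom.mul_apply, toAdd_mul, ZMod.val_add]
  simp only [carryN, Pi.sub_apply, Pi.add_apply, smul_comm g _ x, hx, hm, chiVal_mul,
    ← natCast_zsmul, ← add_smul, ← sub_smul]
  congr 1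
  set a := chiVal χ g
  set a' := chiVal χ' g
  set b := chiVal χ h
  set b' := chiVal χ' h
  have e1 := Nat.mod_add_div (a + b) n
  have e2 := Nat.mod_add_div (a' + b') n
  have e3 := Nat.mod_add_div ((a + b) % n + (a' + b') % n) n
  have e4 := Nat.mod_add_div (a + a') n
  have e5 := Nat.mod_add_div (b + b') n
  have e6 := Nat.mod_add_div ((a + a') % n + (b + b') % n) n
  have e7 : ((a + b) % n + (a' + b') % n) % n = ((a + a') % n + (b + b') % n) % n := by
    rw [← Nat.add_mod, ← Nat.add_mod]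
    ring_nf
  refine mul_left_cancel₀ (Int.natCast_ne_zero.2 hn.ne') ?_
  rw [← Int.natCast_inj] at e1 e2 e3 e4 e5 e6 e7
  push_cast at e1 e2 e3 e4 e5 e6 e7 ⊢
  linear_combination e5 + e4 + e6 + e7 - e1 - e2 - e3

/-- The carry cocycle of a sum over the cosets of a subgroup of the kernel is a coboundary. -/
theorem isCoboundary₂_carryN_sumQ [Finite G] (χ : G →* Multiplicative (ZMod n)) {K : Subgroup G}
    (hK : K ≤ χ.ker) {w : A} (hw : ∀ k ∈ K, k • w = w) :
    IsCoboundary₂ (carryN χ (sumQ K w)) := by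
  letI := Fintype.ofFinite (G ⧸ K)
  have hval : ∀ g : G, chiVal χ (QuotientGroup.mk g : G ⧸ K).out = chiVal χ g := fun g => by
    obtain ⟨k, hk⟩ := QuotientGroup.mk_out_eq_mul K g
    rw [hk, chiVal, chiVal, map_mul, MonoidHom.mem_ker.1 (hK k.2), mul_one]
  refine ⟨fun a => ∑ c : G ⧸ K, (if chiVal χ c.out < chiVal χ a then (1 : ℤ) else 0) • (c.out • w),
    fun a b => ?_⟩
  have e : a • ∑ c : G ⧸ K, (if chiVal χ c.out < chiVal χ b then (1 : ℤ) else 0) • (c.out • w) =
      ∑ c : G ⧸ K, (if chiVal χ (a⁻¹ * c.out) < chiVal χ b then (1 : ℤ) else 0) • (c.out • w) := by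
    rw [Finset.smul_sum]
    refine Fintype.sum_equiv (MulAction.toPerm a) _ _ fun c => ?_
    obtain ⟨g, rfl⟩ := QuotientGroup.mk_surjective c
    simp only [MulAction.toPerm_apply, MulAction.Quotient.smul_mk, smul_eq_mul, out_smul_eq hw,
      hval, smul_comm a, smul_smul a g]
    have hh : χ (QuotientGroup.mk (a * g) : G ⧸ K).out = χ (a * g) := by
      obtain ⟨k, hk⟩ := QuotientGroup.mk_out_eq_mul K (a * g)
      rw [hk, map_mul χ (a * g), MonoidHom.mem_ker.1 (hK k.2), mul_one]
    rw [show chiVal χ (a⁻¹ * (QuotientGroup.mk (a * g) : G ⧸ K).out) = chiVal χ g by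
      simp only [chiVal, map_mul, map_inv, hh, inv_mul_cancel_left]]
  show _ - _ + _ = ((chiVal χ a + chiVal χ b) / n) • sumQ K w
  rw [e, ← Finset.sum_sub_distrib, ← Finset.sum_add_distrib, sumQ, ← natCast_zsmul,
    Finset.smul_sum]
  refine Finset.sum_congr rfl fun c _ => ?_
  rw [← sub_smul, ← add_smul, chiVal_mul χ a b]
  congr 1
  refine mod_carry_identity (chiVal_lt χ c.out) (chiVal_lt χ a) (chiVal_lt χ b)
    (chiVal_lt χ (a⁻¹ * c.out)) ?_
  rw [← chiVal_mul, mul_inv_cancel_left]

/-- The cochains modulo coboundaries. -/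
abbrev CarryH2 (G A : Type*) [Group G] [AddCommGroup A] [DistribMulAction G A] : Type _ :=
  (G × G → A) ⧸ CFT.cobound₂ G A

/-- The class of the carry cocycle, as a homomorphism in the element. -/
def carryCls (χ : G →* Multiplicative (ZMod n)) : A →+ CarryH2 G A :=
  (QuotientAddGroup.mk' _).comp (AddMonoidHom.mk' (carryN χ) (carryN_add χ))

theorem carryCls_eq_zero_iff {χ : G →* Multiplicative (ZMod n)} {x : A} :
    carryCls χ x = 0 ↔ IsCoboundary₂ (carryN χ x) :=
  QuotientAddGroup.eq_zero_iff _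

theorem carryCls_scale {N : ℕ} [NeZero N] (d : ℕ) (h : N = d * n)
    (χ : G →* Multiplicative (ZMod n)) (x : A) :
    carryCls (scaleChar d h χ) x = carryCls χ x :=
  congrArg (QuotientAddGroup.mk (s := CFT.cobound₂ G A)) (carryN_scale d h χ x)

theorem carryCls_one (x : A) : carryCls (1 : G →* Multiplicative (ZMod n)) x = 0 := by
  show QuotientAddGroup.mk (carryN 1 x) = _
  rw [carryN_one]; rfl

theorem carryCls_mul (χ χ' : G →* Multiplicative (ZMod n)) {x : A} (hx : ∀ g : G, g • x = x) :
    carryCls (χ * χ') x = carryCls χ x + carryCls χ' x :=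
  (QuotientAddGroup.eq_iff_sub_mem.2 (isCoboundary₂_carryN_mul χ χ' hx)).symm.trans rfl

theorem carryCls_pow (χ : G →* Multiplicative (ZMod n)) {x : A} (hx : ∀ g : G, g • x = x) (i : ℕ) :
    carryCls (χ ^ i) x = i • carryCls χ x := by
  induction i with
  | zero => rw [pow_zero, zero_nsmul, carryCls_one]
  | succ i ih => rw [pow_succ, carryCls_mul _ _ hx, ih, succ_nsmul]

theorem nsmul_carryCls (χ : G →* Multiplicative (ZMod n)) {x : A} (hx : ∀ g : G, g • x = x) :
    n • carryCls χ x = 0 := by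
  rw [← carryCls_pow χ hx, ← carryCls_one (G := G) (n := n) x]
  congr 2
  refine MonoidHom.ext fun g => Multiplicative.toAdd.injective ?_
  simp [nsmul_eq_mul]

/-- Restriction to a subgroup. -/
theorem carryCls_subtype_eq_zero {χ : G →* Multiplicative (ZMod n)} {x : A}
    (h : carryCls χ x = 0) (P : Subgroup G) : carryCls (χ.comp P.subtype) x = 0 := by
  obtain ⟨b, hb⟩ := carryCls_eq_zero_iff.1 h
  exact carryCls_eq_zero_iff.2 ⟨fun g => b g, fun g g' => hb g g'⟩

/-- Inflation. -/
theorem carryCls_comp_eq_zero {G' A' : Type*} [Group G'] [AddCommGroup A'] [DistribMulAction G' A']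
    {χ : G →* Multiplicative (ZMod n)} {x : A} (h : carryCls χ x = 0) (f : G' →* G) (i : A →+ A')
    (hi : ∀ g a, g • i a = i (f g • a)) : carryCls (χ.comp f) (i x) = 0 := by
  obtain ⟨b, hb⟩ := carryCls_eq_zero_iff.1 h
  refine carryCls_eq_zero_iff.2 ⟨fun g => i (b (f g)), fun g g' => ?_⟩
  simp only [hi, map_mul, ← map_sub, ← map_add, hb]
  exact map_nsmul i _ _

section Linear

variable {p : ℕ} [hp : Fact p.Prime]

/-- Invariants modulo norms from the kernel of a character of a `p`-group have at most as many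
classes as the order of the character. -/
theorem exists_reps_char [Finite G] (hA : CFT.StepAxioms p G A) (k : ℕ) :
    ∀ (H : Subgroup G), IsPGroup p H → ∀ (χ : H →* Multiplicative (ZMod (p ^ k))) (γ : H),
      χ γ = Multiplicative.ofAdd 1 → ∃ R : Fin (p ^ k) → A, ∀ x : A, (∀ h ∈ H, h • x = x) →
        ∃ j w, (∀ g ∈ χ.ker, g • w = w) ∧ x = R j + ∑ i ∈ Finset.range (p ^ k), γ ^ i • w := by
  induction k with
  | zero =>
    intro H _ χ γ _
    exact ⟨fun _ => 0, fun x hx => ⟨⟨0, by simp⟩, x, fun g _ => hx g g.2, by simp⟩⟩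
  | succ k ih =>
    intro H hH χ γ hγ
    have hsc : p ^ (k + 1) = p * p ^ k := pow_succ' p k
    have hdp : p ∣ p ^ (k + 1) := dvd_pow_self p k.succ_ne_zero
    let c : ZMod (p ^ (k + 1)) →+ ZMod p := (ZMod.castHom hdp (ZMod p)).toAddMonoidHom
    let χ₁ : H →* Multiplicative (ZMod p) := (AddMonoidHom.toMultiplicative c).comp χ
    set H' := χ₁.ker.map H.subtype
    have hγ₁ : χ₁ γ = Multiplicative.ofAdd 1 := by
      show Multiplicative.ofAdd (c (Multiplicative.toAdd (χ γ))) = _
      rw [hγ]; exact congrArg Multiplicative.ofAdd (map_one (ZMod.castHom hdp (ZMod p)))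
    have hs : CFT.IsStep p H H' (γ : G) := by
      refine ⟨Subgroup.map_subtype_le _, γ.2, ?_, hH, ?_⟩
      · rintro ⟨g, hg, e⟩
        obtain rfl : g = γ := Subtype.ext e
        rw [SetLike.mem_coe, MonoidHom.mem_ker, hγ₁] at hg
        exact one_ne_zero (α := ZMod p) (Multiplicative.ofAdd.injective hg)
      · have hsurj : Function.Surjective χ₁ := fun z =>
          ⟨γ ^ (Multiplicative.toAdd z).val, by
            rw [map_pow, hγ₁, ← ofAdd_nsmul, nsmul_one, ZMod.natCast_zmod_val, ofAdd_toAdd]⟩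
        rw [Subgroup.relIndex, Subgroup.subgroupOf, Subgroup.comap_map_eq_self_of_injective
          H.subtype_injective, Subgroup.index_ker, MonoidHom.range_eq_top.mpr hsurj,
          Subgroup.card_top, Nat.card_congr Multiplicative.toAdd, Nat.card_zmod]
    have hmem : ∀ h : H', ∃ z : ZMod (p ^ k),
        scaleHom p hsc z = Multiplicative.toAdd (χ ⟨h, hs.le h.2⟩) := by
      rintro ⟨_, g, hg, rfl⟩
      set v := (Multiplicative.toAdd (χ g)).val with hv
      have hd : p ∣ v := by
        rw [← ZMod.natCast_eq_zero_iff, ← map_natCast (ZMod.castHom hdp (ZMod p)), hv,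
          ZMod.natCast_zmod_val]
        exact congrArg Multiplicative.toAdd (MonoidHom.mem_ker.1 hg)
      refine ⟨((v / p : ℕ) : ZMod (p ^ k)), ?_⟩
      rw [scaleHom_natCast, Nat.mul_div_cancel' hd, hv, ZMod.natCast_zmod_val]
      rfl
    choose z hz using hmem
    let χ' : H' →* Multiplicative (ZMod (p ^ k)) :=
      MonoidHom.mk' (fun h => Multiplicative.ofAdd (z h)) fun g h =>
        Multiplicative.toAdd.injective (scaleHom_injective p hsc (by
          show scaleHom p hsc (z (g * h)) = scaleHom p hsc (z g + z h)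
          rw [map_add, hz, hz, hz, ← toAdd_mul, ← map_mul]
          rfl))
    have hγp : (γ : G) ^ p ∈ H' := ⟨γ ^ p, by
      rw [SetLike.mem_coe, MonoidHom.mem_ker, map_pow, hγ₁, ← ofAdd_nsmul, nsmul_one,
        ZMod.natCast_self]; rfl, rfl⟩
    have hγ' : χ' ⟨_, hγp⟩ = Multiplicative.ofAdd 1 :=
      congrArg Multiplicative.ofAdd (scaleHom_injective p hsc (by
        rw [hz, show (⟨(γ : G) ^ p, hs.le hγp⟩ : H) = γ ^ p from rfl, map_pow, hγ, toAdd_pow,
          toAdd_ofAdd, nsmul_one,
          show (1 : ZMod (p ^ k)) = ((1 : ℕ) : ZMod (p ^ k)) from Nat.cast_one.symm, scaleHom_natCast,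
          mul_one]))
    obtain ⟨R, hR⟩ := ih H' (hH.to_le hs.le) χ' ⟨_, hγp⟩ hγ'
    obtain ⟨x₀, hx₀, hgen⟩ := hA.index_le _ _ _ hs
    let e : Fin (p ^ (k + 1)) ≃ Fin p × Fin (p ^ k) :=
      (finCongr (pow_succ' p k)).trans finProdFinEquiv.symm
    refine ⟨fun j => ((e j).1 : ℕ) • x₀ + CFT.stepNorm p (γ : G) (R (e j).2), fun x hx => ?_⟩
    obtain ⟨m, b, hb, hxe⟩ := hgen x hx
    have hx₀K : CFT.stepNorm p (γ : G) x₀ = p • x₀ := by
      rw [CFT.stepNorm, Finset.sum_congr rfl fun j _ => hx₀ _ (pow_mem γ.2 j), Finset.sum_const,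
        Finset.card_range]
    have hp0 : (p : ℤ) ≠ 0 := by exact_mod_cast hp.out.ne_zero
    set r : Fin p := ⟨(m % p).toNat, by
      have := Int.emod_lt_of_pos m (b := (p : ℤ)) (by omega)
      have := Int.emod_nonneg m hp0
      omega⟩
    set b' := (m / p) • x₀ + b
    have hb' : ∀ h ∈ H', h • b' = b' := fun h hh => by
      rw [smul_add, smul_comm h (m / (p : ℤ)) x₀, hx₀ _ (hs.le hh), hb _ hh]
    obtain ⟨j, w, hwk, hw⟩ := hR b' hb'
    refine ⟨e.symm (r, j), w, fun g hg => ?_, ?_⟩
    · have hg' : (g : G) ∈ H' := ⟨g, by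
        show χ₁ g = 1
        show AddMonoidHom.toMultiplicative c (χ g) = 1
        rw [MonoidHom.mem_ker.1 hg, map_one], rfl⟩
      refine hwk ⟨g, hg'⟩ (MonoidHom.mem_ker.2 (Multiplicative.toAdd.injective
        (scaleHom_injective p hsc ?_)))
      show scaleHom p hsc (z _) = scaleHom p hsc 0
      rw [hz, map_zero, show (⟨(g : G), hs.le hg'⟩ : H) = g from rfl, MonoidHom.mem_ker.1 hg]
      rfl
    show x = ((e (e.symm (r, j))).1 : ℕ) • x₀ +
      CFT.stepNorm p (γ : G) (R (e (e.symm (r, j))).2) + _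
    rw [e.apply_symm_apply]
    have h1 : CFT.stepNorm p (γ : G) b' = (m / p * p) • x₀ + CFT.stepNorm p (γ : G) b := by
      simp only [b', CFT.stepNorm, smul_add, Finset.sum_add_distrib, add_left_inj]
      rw [mul_smul, natCast_zsmul, ← hx₀K, CFT.stepNorm, Finset.smul_sum]
      exact Finset.sum_congr rfl fun i _ => smul_comm _ _ _
    have h2 : CFT.stepNorm p (γ : G)
        (∑ i ∈ Finset.range (p ^ k), (⟨(γ : G) ^ p, hγp⟩ : H') ^ i • w) =
        ∑ i ∈ Finset.range (p ^ (k + 1)), γ ^ i • w := by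
      simp only [CFT.stepNorm, Finset.smul_sum, Subgroup.smul_def, SubmonoidClass.coe_pow,
        smul_smul, ← pow_mul, ← pow_add]
      rw [pow_succ', ← Finset.sum_product', Finset.sum_bij' (fun ji _ => ji.1 + p * ji.2)
        (fun a _ => (a % p, a / p))]
      · intro a ha
        simp only [Finset.mem_product, Finset.mem_range] at ha ⊢
        calc a.1 + p * a.2 < p + p * a.2 := by omega
          _ = p * (a.2 + 1) := by ring
          _ ≤ p * p ^ k := Nat.mul_le_mul_left p ha.2
      · intro a ha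
        simp only [Finset.mem_product, Finset.mem_range] at ha ⊢
        exact ⟨Nat.mod_lt _ hp.out.pos, Nat.div_lt_of_lt_mul ha⟩
      · intro a ha
        simp only [Finset.mem_product, Finset.mem_range] at ha
        ext
        · simp [Nat.add_mul_mod_self_left, Nat.mod_eq_of_lt ha.1]
        · simp [Nat.add_mul_div_left _ _ hp.out.pos, Nat.div_eq_of_lt ha.1]
      · intro a _
        exact Nat.mod_add_div a p
      · intro a _; rfl
    have hr : ((r : ℕ) : ℤ) = m % p := Int.toNat_of_nonneg (Int.emod_nonneg m hp0)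
    calc x = m • x₀ + CFT.stepNorm p (γ : G) b := hxe
      _ = (r : ℕ) • x₀ + CFT.stepNorm p (γ : G) b' := by
        rw [h1, ← add_assoc, ← natCast_zsmul, ← add_smul, hr, mul_comm, Int.emod_add_mul_ediv]
      _ = _ := by
        rw [hw, add_assoc, ← h2]
        congr 1
        simp only [CFT.stepNorm, smul_add, Finset.sum_add_distrib]

variable [Finite G] {t : ℕ} (hA : CFT.StepAxioms p G A) (hG : IsPGroup p G)
  (ε : G →* Multiplicative (ZMod (p ^ t))) {γ : G} (hγ : ε γ = Multiplicative.ofAdd 1)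
  {B : Type*} [AddCommGroup B] (ι : B →+ A) (hι : ∀ (g : G) (b : B), g • ι b = ι b)
  (ψ : B →+ ZMod (p ^ t)) (hψ : ∀ b : B, carryCls ε (ι b) = 0 → ψ b = 0)

include hψ in
theorem dvd_of_nsmul_carryCls {z : B} (hz : IsUnit (ψ z)) {c : ℕ}
    (h : c • carryCls ε (ι z) = 0) : p ^ t ∣ c := by
  have h1 := hψ (c • z) (by rw [map_nsmul, map_nsmul, h])
  rw [map_nsmul, nsmul_eq_mul, hz.mul_left_eq_zero, ZMod.natCast_eq_zero_iff] at h1
  exact h1

include hA hG hγ hι hψ in
/-- A homomorphism killing the trivial classes of a surjective character computes all classes. -/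
theorem carryCls_eq_psi_smul {z : B} {w : ZMod (p ^ t)} (hw : ψ z * w = 1) (x : B) :
    carryCls ε (ι x) = (ψ x * w).val • carryCls ε (ι z) := by
  classical
  have hz : IsUnit (ψ z) := IsUnit.of_mul_eq_one _ hw
  obtain ⟨R, hR⟩ := exists_reps_char hA t ⊤ (hG.to_subgroup ⊤) (ε.comp (⊤ : Subgroup G).subtype)
    ⟨γ, trivial⟩ hγ
  let f : B →+ CarryH2 G A := (carryCls ε).comp ι
  have hrep : ∀ b : B, ∃ j, f b = carryCls ε (R j) := fun b => by
    obtain ⟨j, v, hv, e⟩ := hR (ι b) fun g _ => hι g b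
    refine ⟨j, ?_⟩
    show carryCls ε (ι b) = _
    have h0 : carryCls ε (∑ i ∈ Finset.range (p ^ t), γ ^ i • v) = 0 :=
      carryCls_eq_zero_iff.2 (carryN_norm_mem hγ v fun g hg => hv ⟨g, trivial⟩ hg)
    rw [e, map_add]
    conv_rhs => rw [← add_zero (carryCls ε (R j)), ← h0]
    rfl
  choose j hj using hrep
  let F : ZMod (p ^ t) → Fin (p ^ t) := fun i => j (i.val • z)
  have hF : Function.Injective F := fun i i' e => by
    have h1 : f (i.val • z) = f (i'.val • z) := by rw [hj, hj]; exact congrArg _ (congrArg R e)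
    have h2 := hψ (i.val • z - i'.val • z) (by
      show f (_ - _) = 0
      rw [map_sub, h1, sub_self])
    rw [map_sub, sub_eq_zero, map_nsmul, map_nsmul, nsmul_eq_mul, nsmul_eq_mul,
      ZMod.natCast_zmod_val, ZMod.natCast_zmod_val] at h2
    exact hz.mul_right_cancel h2
  obtain ⟨i, hi⟩ := ((Fintype.bijective_iff_injective_and_card F).2
    ⟨hF, by rw [ZMod.card, Fintype.card_fin]⟩).2 (j x)
  have hfx : f x = f (i.val • z) := by rw [hj, hj]; exact congrArg _ (congrArg R hi.symm)
  have h3 := hψ (x - i.val • z) (by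
    show f (_ - _) = 0
    rw [map_sub, hfx, sub_self])
  rw [map_sub, sub_eq_zero, map_nsmul, nsmul_eq_mul, ZMod.natCast_zmod_val] at h3
  rw [h3, mul_assoc, hw, mul_one]
  exact hfx.trans (map_nsmul f _ _)

end Linear

end Fermat.Agent.CFT.Reciprocity
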