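import Fermat.Agent.CFT.Reciprocity.CoreAux
import Fermat.Agent.CFT.Reciprocity.Statement
import Fermat.Agent.Arith.Chebotarev.Main

/-!
# The core reciprocity statement

Auxiliary characters with a common generator compute every local class of the character against one
class of a prime of degree one; the classes at a principal idele sum to zero.
-/

set_option autoImplicit false
set_option synthInstance.maxHeartbeats 200000
set_option linter.style.haveILetI false
set_option linter.unusedSectionVars false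

noncomputable section

namespace Fermat.Agent.CFT.Reciprocity

open ExtCitation Fermat.Agent.Arith Fermat.Agent.CFT.Idele Fermat.Agent.CFT.Form IntermediateField
open Fermat.Agent.CFT.Local
open IsDedekindDomain NumberField
open scoped Pointwise

local instance factPrimeCore (q : Nat.Primes) : Fact (q : ℕ).Prime := ⟨q.2⟩

variable {K : IntermediateField ℚ QBar} [NumberField K]

theorem artinElem_eq_prod {H : Type*} [CommGroup H] (v : Prime K → H) {y : K}
    (Pset : Finset (Prime K)) (h : ∀ P ∉ Pset, ordAt P y = 0) :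
    artinElem v y = ∏ P ∈ Pset, v P ^ ordAt P y :=
  finprod_eq_prod_of_mulSupport_subset _ fun P hP => by
    by_contra hn
    exact hP (show v P ^ ordAt P y = 1 by rw [h P hn, zpow_zero])

/-- The classes at the places of a principal idele sum to zero. -/
theorem sum_carryCls_single_eq_zero {L M : IntermediateField ℚ QBar} [FiniteDimensional ℚ L]
    [Normal ℚ L] [FiniteDimensional ℚ M] [Normal ℚ M] (hKL : K ≤ L) (hLM : L ≤ M) (hKM : K ≤ M)
    {S0 : Subgroup (M ≃ₐ[ℚ] M)} (hS0 : S0 ≤ imK M K) {n : ℕ} [NeZero n]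
    (χ : imK L K →* Multiplicative (ZMod n)) (χ' : imK M K →* Multiplicative (ZMod n))
    (hχ : ∀ s (hs : s ∈ K.fixingSubgroup),
      χ' ⟨res M s, ⟨s, hs, rfl⟩⟩ = χ ⟨res L s, ⟨s, hs, rfl⟩⟩)
    (T : Finset Nat.Primes) (hT : ∀ q ∉ T, inertia (E L q) = ⊥) {y : K} (hy : y ≠ 0)
    (hsupp : ∀ q ∉ T, ∀ g : GQ, ‖emb q (g (y : QBar))‖ = 1)
    (lP : Prime K → Nat.Primes) (gP : Prime K → GQ)
    (hP : ∀ P, LiesOver (placeAt (lP P) (gP P)) P) (Pset : Finset (Prime K))
    (hPset : ∀ P, P ∈ Pset ↔ lP P ∈ T) (yP : ∀ P, (Ω (lP P))ˣ)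
    (hyP : ∀ P, (yP P : Ω (lP P)) = emb (lP P) (gP P (y : QBar))) (x : Prime K → idl K)
    (hx : ∀ P, IsSingle (lP P) (gP P) (yP P) (x P)) :
    ∑ P ∈ Pset, carryCls (χ'.comp (Subgroup.inclusion hS0))
      (toC hKM (Additive.ofMul (x P))) = 0 := by
  classical
  have hy' : (y : QBar) ≠ 0 := fun h => hy (Subtype.ext h)
  set Y : idl K := ⟨prin (Units.mk0 _ hy'), prin_mem_idl_iff.2 y.2⟩
  have hX : ∀ q g', ((∏ P ∈ Pset, x P : idl K) : PreIdele) q g' =
      ∏ P ∈ Pset, (x P : PreIdele) q g' := fun q g' => by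
    rw [SubmonoidClass.coe_finsetProd, Finset.prod_apply, Finset.prod_apply]
  have h1 : ∀ q ∈ T, ∀ g', ((Y / ∏ P ∈ Pset, x P : idl K) : PreIdele) q g' = 1 := by
    intro q hq g'
    show (prin (Units.mk0 _ hy') / ((∏ P ∈ Pset, x P : idl K) : PreIdele)) q g' = 1
    rw [Pi.div_apply, Pi.div_apply, div_eq_one, hX]
    obtain ⟨P', hP'⟩ := exists_prime_placeAt (K := K) q g'
    obtain rfl := prime_unique (hP P') hP'
    rw [Finset.prod_eq_single P']
    · obtain ⟨τ, s, hs, rfl⟩ := exists_loc_mul (hP P') hP' hKM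
      refine Units.ext ?_
      rw [prin_val, apply_eq_of_rep (x P').2 _ τ (gP P') hs, (hx P').val_self, hyP, ← emb_loc,
        AlgEquiv.mul_apply, AlgEquiv.mul_apply, Units.val_mk0,
        (IntermediateField.mem_fixingSubgroup_iff _ _).1 hs _ y.2]
    · intro P hPm hne
      by_cases hl : lP P = lP P'
      · have key : ∀ {l : Nat.Primes} {g : GQ} {yl : (Ω l)ˣ}, l = lP P' →
            LiesOver (placeAt l g) P → IsSingle l g yl (x P) →
            (x P : PreIdele) (lP P') g' = 1 := by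
          rintro l g yl rfl hlo hs'
          exact hs'.off g' fun τ s hs e =>
            hne (liesOver_unique (e ▸ liesOver_placeAt_mul hlo τ hs) hP')
        exact key hl (hP P) (hx P)
      · rw [(hx P).other _ (Ne.symm hl)]; rfl
    · exact fun h => absurd ((hPset P').2 hq) h
  have h2 : ∀ q ∉ T, ∀ g',
      ‖((((Y / ∏ P ∈ Pset, x P : idl K) : PreIdele) q g' : (Ω q)ˣ) : Ω q)‖ = 1 := by
    intro q hq g'
    show ‖(((prin (Units.mk0 _ hy') / ((∏ P ∈ Pset, x P : idl K) : PreIdele)) q g' : (Ω q)ˣ) :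
      Ω q)‖ = 1
    rw [Pi.div_apply, Pi.div_apply, hX,
      Finset.prod_eq_one fun P hPm => by
        rw [(hx P).other q fun e => hq (e ▸ (hPset P).1 hPm)]; rfl,
      div_one, prin_val, Units.val_mk0]
    exact hsupp q hq g'
  have h0 := carryCls_comp_eq_zero (carryCls_units_eq_zero hKL hLM hKM χ χ' hχ T hT h1 h2)
    (Subgroup.inclusion hS0) (AddMonoidHom.id (C M)) fun _ _ => rfl
  have hY : toC hKM (Additive.ofMul Y) = 0 :=
    (proj_eq_zero_iff M).2
      ⟨Units.mk0 ⟨(y : QBar), hKM y.2⟩ (fun h => hy' (congrArg Subtype.val h)),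
        Subtype.ext (congrArg prin (Units.ext rfl))⟩
  rw [AddMonoidHom.id_apply, ofMul_div, map_sub, map_sub, hY, map_zero, zero_sub, neg_eq_zero,
    ofMul_prod, map_sum, map_sum] at h0
  exact h0

set_option maxHeartbeats 1000000 in
/-- Artin reciprocity for characters of `2`- and `3`-power order of totally complex fields. -/
theorem reciprocityCore : ReciprocityCore := by
  classical
  intro K _ hTC p k hp χ hfin S hS v hv y hy hcong
  have hpp : p.Prime := by rcases hp with rfl | rfl <;> norm_num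
  haveI : Fact p.Prime := ⟨hpp⟩
  haveI : NeZero (p ^ k) := ⟨pow_ne_zero _ hpp.ne_zero⟩
  obtain ⟨L, hLfin, hL⟩ := hfin
  haveI : Normal ℚ QBar := IsAlgClosure.normal ℚ QBar
  -- a normal level of the character
  obtain ⟨L0, _, _, hKL, hLL⟩ : ∃ L0 : IntermediateField ℚ QBar,
      FiniteDimensional ℚ L0 ∧ Normal ℚ L0 ∧ K ≤ L0 ∧ L ≤ L0 :=
    ⟨IntermediateField.normalClosure ℚ (K ⊔ L : IntermediateField ℚ QBar) QBar, inferInstance,
      normalClosure.normal ℚ _ QBar, le_sup_left.trans (IntermediateField.le_normalClosure _),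
      le_sup_right.trans (IntermediateField.le_normalClosure _)⟩
  have hχ0 : ∀ s : K.fixingSubgroup, (∀ z ∈ L0, (s : GQ) z = z) → χ s = 1 :=
    fun s hs => hL s fun z hz => hs z (hLL hz)
  -- the finite set of primes
  choose lP gP hP using fun P : Prime K => exists_liesOver_placeAt P
  have hy' : (y : QBar) ≠ 0 := fun h => hy (Subtype.ext h)
  obtain ⟨T₁, hT₁⟩ := exists_finset_unramified L0
  obtain ⟨T₂, hT₂⟩ := prin_mem_restricted (Units.mk0 _ hy')
  set T : Finset Nat.Primes := insert ⟨p, hpp⟩ (T₁ ∪ T₂ ∪ S.image lP) with hTdef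
  have hTunr : ∀ q ∉ T, inertia (E L0 q) = ⊥ := fun q hq => hT₁ q fun h => hq
    (Finset.mem_insert_of_mem (Finset.mem_union_left _ (Finset.mem_union_left _ h)))
  have hTsupp : ∀ q ∉ T, ∀ g : GQ, ‖emb q (g (y : QBar))‖ = 1 := fun q hq g => by
    have := hT₂ q (fun h => hq
      (Finset.mem_insert_of_mem (Finset.mem_union_left _ (Finset.mem_union_right _ h)))) g
    rwa [prin_val, Units.val_mk0] at this
  set Pset : Finset (Prime K) := T.biUnion fun q => (finite_setOf_natCast_mem q).toFinset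
  have hPset : ∀ P, P ∈ Pset ↔ lP P ∈ T := fun P => by
    refine ⟨fun h => ?_, fun h => Finset.mem_biUnion.2
      ⟨_, h, (Set.Finite.mem_toFinset _).2 (hP P).natCast_mem⟩⟩
    obtain ⟨q, hq, hqP⟩ := Finset.mem_biUnion.1 h
    obtain ⟨g', hg'⟩ := exists_liesOver_of_mem ((Set.Finite.mem_toFinset (finite_setOf_natCast_mem q)).1 hqP)
    rwa [prime_unique (hP P) hg']
  -- the auxiliary characters and the level
  obtain ⟨a, ha, hinj⟩ := exists_aux_family hp (k + Module.finrank ℚ K) T T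
  obtain ⟨ζ, hζ⟩ := HasEnoughRootsOfUnity.exists_primitiveRoot QBar p
  haveI := IntermediateField.adjoin.finiteDimensional
    (Algebra.IsIntegral.isIntegral (R := ℚ) ζ)
  obtain ⟨M, _, _, hLM, hζM, haM⟩ : ∃ M : IntermediateField ℚ QBar,
      FiniteDimensional ℚ M ∧ Normal ℚ M ∧ L0 ≤ M ∧ ζ ∈ M ∧ ∀ l ∈ T, (a l).2.fixedChi ≤ M := by
    haveI : ∀ l, NeZero (p ^ (a l).1) := fun _ => ⟨pow_ne_zero _ hpp.ne_zero⟩
    refine ⟨IntermediateField.normalClosure ℚ
      (L0 ⊔ adjoin ℚ {ζ} ⊔ ⨆ l ∈ T, (a l).2.fixedChi : IntermediateField ℚ QBar) QBar,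
      inferInstance, normalClosure.normal ℚ _ QBar, ?_, ?_, fun l hl => ?_⟩
    · exact (le_sup_left.trans le_sup_left).trans (IntermediateField.le_normalClosure _)
    · exact IntermediateField.le_normalClosure _
        ((le_sup_right.trans le_sup_left : adjoin ℚ {ζ} ≤ _)
          (IntermediateField.mem_adjoin_simple_self ℚ ζ))
    · have h1 : (a l).2.fixedChi ≤ ⨆ m ∈ T, (a m).2.fixedChi :=
        le_iSup₂ (f := fun m (_ : m ∈ T) => (a m).2.fixedChi) l hl
      exact (h1.trans le_sup_right).trans (IntermediateField.le_normalClosure _)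
  have hKM : K ≤ M := hKL.trans hLM
  have hχM : ∀ s : K.fixingSubgroup, (∀ z ∈ M, (s : GQ) z = z) → χ s = 1 :=
    fun s hs => hχ0 s fun z hz => hs z (hLM hz)
  -- a prime of degree one with a common generator as Frobenius
  obtain ⟨g, hgK, hg⟩ := exists_joint_generator hKL T a hinj fun l hl => hTunr _ (ha l hl).1
  haveI : IsGalois ℚ M := ⟨⟩
  obtain ⟨ℓ₀, hℓ₀, hℓnot, A, hA, σ₁, hσ₁, hres⟩ :=
    Chebotarev.exists_frobenius_restrict_eq M g ((T.image fun l => ((a l).2.q : ℕ)))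
  set ℓ : Nat.Primes := ⟨ℓ₀, hℓ₀⟩
  obtain ⟨g₁, rfl⟩ := exists_placeAt_eq (l := ℓ) hA
  have hℓq : ∀ l ∈ T, ℓ ≠ (a l).2.q := fun l hl e =>
    hℓnot (Finset.mem_image.2 ⟨l, hl, congrArg Subtype.val e.symm⟩)
  replace hres : res M σ₁ = res M g := hres
  have hσ₁K : σ₁ ∈ K.fixingSubgroup :=
    (mem_imK_iff hKM).1 (by rw [hres]; exact ⟨g, hgK, rfl⟩)
  obtain ⟨P₁, hP₁⟩ := exists_prime_placeAt (K := K) ℓ g₁
  obtain ⟨f₁, -, hf₁⟩ := exists_absNorm_eq hP₁
  have hN₁ : Ideal.absNorm P₁.asIdeal = ℓ₀ := by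
    rw [hf₁, Nat.dvd_one.1 (dvd_of_pow_sub_mem hP₁ hf₁ fun z => ?_), pow_one]
    rw [hP₁, pow_one]
    have h := (isFrobeniusAt_iff hA hℓ₀).1 hσ₁ ((z : K) : QBar)
      (z.2.map ((IntermediateField.val K).restrictScalars ℤ))
    rw [(IntermediateField.mem_fixingSubgroup_iff _ _).1 hσ₁K _ (z : K).2] at h
    simpa using nonunits_neg h
  have hfr₁ : IsFrobOver (placeAt ℓ g₁) P₁ σ₁ :=
    isFrobOver_of_isFrobeniusAt hℓ₀ hP₁ hN₁ hσ₁K hσ₁
  obtain ⟨ϖ, hϖ⟩ := P₁.intValuation_exists_uniformizer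
  have hϖ0 : (ϖ : K) ≠ 0 := mt RingOfIntegers.coe_eq_zero_iff.1 (uniformizer_ne_zero ϖ hϖ)
  have hϖe : emb ℓ (g₁ ((ϖ : K) : QBar)) ≠ 0 := by simpa using hϖ0
  obtain ⟨z, hz⟩ := exists_isSingle (K := K) (Units.mk0 _ hϖe) (emb_mem_fieldAt g₁ (ϖ : K).2)
  have hchi₁ : ∀ l ∈ T, (a l).2.chi σ₁ = Multiplicative.ofAdd 1 := fun l hl => by
    haveI : NeZero (p ^ (a l).1) := ⟨pow_ne_zero _ hpp.ne_zero⟩
    rw [← chiGlob_res (a l).2 (haM l hl), hres, chiGlob_res, hg l hl]
  have hψz : ∀ l ∈ T, psiK (a l).2 hKM (Additive.ofMul z) = -1 := fun l hl => by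
    rw [psiK_single (a l).2 hKM hP₁ (d := 1) (by rw [pow_one]; exact hN₁) (hℓq l hl) hϖ0
      (congrArg norm (Units.val_mk0 hϖe)) hz,
      ordAt_uniformizer hϖ, ← (a l).2.chi_frob (hℓq l hl) hA hσ₁, hchi₁ l hl, toAdd_ofAdd]
    simp
  -- the subgroup
  obtain ⟨Q⟩ : Nonempty (Sylow p (imK M K)) := inferInstance
  set S0 : Subgroup (M ≃ₐ[ℚ] M) := (Q : Subgroup (imK M K)).map (imK M K).subtype with hS0def
  have hS0 : S0 ≤ imK M K := Subgroup.map_subtype_le _
  have hSp : IsPGroup p S0 := Q.isPGroup'.map _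
  have hcop : p.Coprime (S0.relIndex (imK M K)) := by
    rw [Subgroup.relIndex, Subgroup.subgroupOf, hS0def,
      Subgroup.comap_map_eq_self_of_injective (imK M K).subtype_injective]
    exact hpp.coprime_iff_not_dvd.2 Q.not_dvd_index
  have hζ' : IsPrimitiveRoot (⟨ζ, hζM⟩ : M) p :=
    IsPrimitiveRoot.of_map_of_injective (f := M.val) hζ M.val.toRingHom.injective
  have hAx := stepAxioms_sub hζ' hKM hTC hS0
  have hγex : ∀ l (hl : l ∈ T), ∃ γ : S0,
      chiGlob (a l).2 (haM l hl) (γ : M ≃ₐ[ℚ] M) = Multiplicative.ofAdd 1 := fun l hl => by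
    haveI : NeZero (p ^ (a l).1) := ⟨pow_ne_zero _ hpp.ne_zero⟩
    obtain ⟨γ, hγ, e⟩ := exists_mem_sylow_eq_one
      ((chiGlob (a l).2 (haM l hl)).comp (imK M K).subtype) (g := ⟨res M g, ⟨g, hgK, rfl⟩⟩)
      (by show chiGlob (a l).2 (haM l hl) (res M g) = _
          rw [chiGlob_res, hg l hl]) Q
    exact ⟨⟨γ.1, ⟨γ, hγ, rfl⟩⟩, e⟩
  have hkt : ∀ l ∈ T, k ≤ (a l).1 := fun l hl => by
    haveI : NeZero (p ^ (a l).1) := ⟨pow_ne_zero _ hpp.ne_zero⟩
    obtain ⟨-, -, h, hord⟩ := ha l hl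
    have h' := hord.trans (addOrderOf_dvd_natCard _)
    rw [Nat.card_zmod] at h'
    exact le_self_add.trans ((Nat.pow_dvd_pow_iff_le_right hpp.one_lt).1 h')
  -- the common class of the prime of degree one
  let u : ∀ l, l ∈ T → CarryH2 S0 (C M) := fun l hl =>
    haveI : NeZero (p ^ (a l).1) := ⟨pow_ne_zero _ hpp.ne_zero⟩
    carryCls (redChar (pow_dvd_pow p (hkt l hl)) ((chiGlob (a l).2 (haM l hl)).comp S0.subtype))
      (toC hKM (Additive.ofMul z))
  have hp₀ : (⟨p, hpp⟩ : Nat.Primes) ∈ T := Finset.mem_insert_self _ _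
  set u₀ := u _ hp₀ with hu₀
  have hueq : ∀ l (hl : l ∈ T), u l hl = u₀ := fun l hl => by
    haveI : ∀ l, NeZero (p ^ (a l).1) := fun _ => ⟨pow_ne_zero _ hpp.ne_zero⟩
    refine carryCls_eq_of_agree hKM hS0
      (χ₁ := redChar (pow_dvd_pow p (hkt l hl))
        ((chiGlob (a l).2 (haM l hl)).comp (imK M K).subtype))
      (χ₂ := redChar (pow_dvd_pow p (hkt _ hp₀))
        ((chiGlob (a _).2 (haM _ hp₀)).comp (imK M K).subtype))
      (fun s hs hsA => ?_) (emb_mem_fieldAt g₁ (ϖ : K).2) hz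
    obtain ⟨j, i, hiI, hiK, e⟩ := exists_res_eq_frob hfr₁ hKM hs hsA
    have hval : ∀ m (hm : m ∈ T), redChar (pow_dvd_pow p (hkt m hm))
        ((chiGlob (a m).2 (haM m hm)).comp (imK M K).subtype) ⟨res M s, ⟨s, hs, rfl⟩⟩ =
        Multiplicative.ofAdd ((j : ℕ) : ZMod (p ^ k)) := fun m hm => by
      show Multiplicative.ofAdd (ZMod.castHom (pow_dvd_pow p (hkt m hm)) (ZMod (p ^ k))
        (Multiplicative.toAdd (chiGlob (a m).2 (haM m hm) (res M s)))) = _
      rw [e, chiGlob_res, map_mul, map_pow, hchi₁ m hm,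
        (a m).2.chi_inertia (hℓq m hm) (placeAt_liesOverPrime ℓ g₁) hiI, mul_one, toAdd_pow,
        toAdd_ofAdd, nsmul_one, map_natCast]
    rw [hval l hl, hval _ hp₀]
  haveI : NeZero (p ^ (a ⟨p, hpp⟩).1) := ⟨pow_ne_zero _ hpp.ne_zero⟩
  have hnu : p ^ k • u₀ = 0 := nsmul_carryCls _ (smul_toC_sub hKM hS0 _)
  have hU : ∀ c : ZMod (p ^ k), clsMul u₀ hnu c = 0 → c = 0 := fun c hc => by
    obtain ⟨γ, hγ⟩ := hγex _ hp₀
    rw [clsMul_apply] at hc
    have h := dvd_of_nsmul_redChar hKM hS0 (a _).2 (ha _ hp₀).2.1 (haM _ hp₀) hSp hcop hAx hγ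
      (hψz _ hp₀) (hkt _ hp₀) hc
    rw [← ZMod.val_eq_zero]
    exact Nat.eq_zero_of_dvd_of_lt h (ZMod.val_lt c)
  -- the ideles supported at the places over `T`
  have hemb : ∀ P, emb (lP P) (gP P (y : QBar)) ≠ 0 := fun P => by simpa using hy'
  choose x hx using fun P => exists_isSingle (K := K) (Units.mk0 _ (hemb P))
    (emb_mem_fieldAt (gP P) y.2)
  have hsum := sum_carryCls_single_eq_zero hKL hLM hKM hS0 (descChar hKL χ hχ0)
    (descChar hKM χ hχM) (fun s hs => by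
      rw [descChar_res hKM χ hχM ⟨s, hs⟩, descChar_res hKL χ hχ0 ⟨s, hs⟩])
    T hTunr hy hTsupp lP gP hP Pset hPset (fun P => Units.mk0 _ (hemb P)) (fun P => Units.val_mk0 (hemb P)) x hx
  have hloc : ∀ P ∈ Pset, carryCls ((descChar hKM χ hχM).comp (Subgroup.inclusion hS0))
      (toC hKM (Additive.ofMul (x P))) =
      clsMul u₀ hnu (ordAt P y • Multiplicative.toAdd (v P)) := by
    intro P hPm
    by_cases hPS : P ∈ S
    · have hn1 : P.valuation K (((p ^ k : ℕ) : K) ^ 3) ≤ 1 := by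
        rw [map_pow, ← map_natCast (algebraMap (𝓞 K) K)]
        exact pow_le_one₀ zero_le (P.valuation_le_one _)
      have hv1 : P.valuation K y = 1 := by
        rw [← add_sub_cancel (1 : K) y]
        exact Valuation.map_one_add_of_lt _ ((hcong P hPS).trans_le hn1)
      rw [show ordAt P y = 0 by rw [ordAt, hv1, WithZero.log_one, neg_zero], zero_smul, map_zero]
      exact carryCls_eq_zero_of_congr hKM (hP P) _ (hcong P hPS) (Units.val_mk0 (hemb P)) hS0 (hx P)
    · have hl := (hPset P).1 hPm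
      haveI : NeZero (p ^ (a (lP P)).1) := ⟨pow_ne_zero _ hpp.ne_zero⟩
      obtain ⟨σ, hσ⟩ := exists_isFrobOver (hP P)
      obtain ⟨-, hneg, hlq, hord⟩ := ha _ hl
      obtain ⟨γ, hγ⟩ := hγex _ hl
      rw [carryCls_single_eq hKM hS0 (a (lP P)).2 hneg (haM _ hl) hSp hcop hAx hγ (hψz _ hl)
        (hkt _ hl) (descChar hKM χ hχM) hσ hlq hord (fun i hi hiI => by
          rw [descChar_res hKM χ hχM ⟨i, hi⟩]
          exact hS P hPS _ (hP P) ⟨i, hi⟩ hiI) hy (Units.val_mk0 (hemb P)) (hx P),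
        descChar_res hKM χ hχM ⟨σ, hσ.fixes⟩, ← hv P hPS _ ⟨σ, hσ.fixes⟩ hσ, map_zsmul,
        clsMul_apply]
      congr 2
      exact hueq _ hl
  rw [Finset.sum_congr rfl hloc, ← map_sum] at hsum
  have hzero := hU _ hsum
  rw [artinElem_eq_prod v Pset fun P hPn => ?_]
  · refine Multiplicative.toAdd.injective ?_
    rw [toAdd_prod, toAdd_one, ← hzero]
    exact Finset.sum_congr rfl fun P _ => toAdd_zpow _ _
  · exact ordAt_eq_zero_of_norm_emb (hP P) hy (hTsupp _ (fun h => hPn ((hPset P).2 h)) _)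

end Fermat.Agent.CFT.Reciprocity
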