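import Fermat.Agent.CFT.Reciprocity.Place
import Mathlib.RingTheory.DedekindDomain.Factorization
import Mathlib.NumberTheory.NumberField.Norm
import Mathlib.RingTheory.Norm.Transitivity
import Mathlib.GroupTheory.Perm.Cycle.Type

/-!
# Orders at primes and absolute values at their places

A uniformiser of `P` which is a unit at the other primes over `l`; absolute values at a place over
`P` are powers of its absolute value, and its norm has `l`-valuation the residue degree.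
-/

set_option autoImplicit false
set_option linter.style.haveILetI false
set_option linter.unusedSectionVars false

noncomputable section

namespace Fermat.Agent.CFT.Reciprocity

open ExtCitation Fermat.Agent.Arith Fermat.Agent.CFT.Idele
open IsDedekindDomain NumberField

local instance factPrimeOrd (q : Nat.Primes) : Fact (q : ℕ).Prime := ⟨q.2⟩

variable {K : IntermediateField ℚ QBar} [NumberField K]

/-- The order at `P`. -/
def ordAt (P : Prime K) (x : K) : ℤ := -(WithZero.log (P.valuation K x))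

theorem ordAt_zpow (P : Prime K) (x : K) (n : ℤ) : ordAt P (x ^ n) = n * ordAt P x := by
  rw [ordAt, map_zpow₀, WithZero.log_zpow, smul_eq_mul, ordAt, mul_neg]

theorem valuation_eq_exp_neg_ordAt (P : Prime K) {x : K} (hx : x ≠ 0) :
    P.valuation K x = WithZero.exp (-ordAt P x) := by
  rw [ordAt, neg_neg, WithZero.exp_log ((Valuation.ne_zero_iff _).2 hx)]

theorem finite_setOf_natCast_mem (l : Nat.Primes) :
    {P : Prime K | ((l : ℕ) : 𝓞 K) ∈ P.asIdeal}.Finite := by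
  have hI : Ideal.span {((l : ℕ) : 𝓞 K)} ≠ 0 := by
    simp [Ideal.span_singleton_eq_bot, l.2.ne_zero]
  refine (Ideal.finite_factors hI).subset fun P hP => ?_
  exact Ideal.dvd_span_singleton.2 hP

/-- A uniformiser of `P` which is a unit at the other primes containing `l`. -/
theorem exists_uniformizer_at (P : Prime K) (l : Nat.Primes) :
    ∃ ϖ : 𝓞 K, P.intValuation ϖ = WithZero.exp (-1 : ℤ) ∧
      ∀ Q : Prime K, Q ≠ P → ((l : ℕ) : 𝓞 K) ∈ Q.asIdeal → ϖ ∉ Q.asIdeal := by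
  classical
  obtain ⟨π, hπ⟩ := P.intValuation_exists_uniformizer
  set s := insert P (finite_setOf_natCast_mem (K := K) l).toFinset
  obtain ⟨y, hy⟩ := IsDedekindDomain.exists_forall_sub_mem_ideal (s := s)
    (fun Q : Prime K => Q.asIdeal) (fun Q => if Q = P then 2 else 1) (fun Q _ => Q.prime)
    (fun Q _ Q' _ h e => h (HeightOneSpectrum.ext e)) (fun Q => if Q.1 = P then π else 1)
  refine ⟨y, ?_, fun Q hQP hQl hyQ => ?_⟩
  · have h := hy P (Finset.mem_insert_self _ _)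
    simp only [if_true] at h
    rw [← P.intValuation_le_pow_iff_mem] at h
    have hlt : P.intValuation (y - π) < P.intValuation π :=
      h.trans_lt (by rw [hπ]; exact WithZero.exp_lt_exp.2 (by norm_num))
    have := Valuation.map_add_eq_of_lt_left P.intValuation hlt
    rw [← hπ, ← this, add_sub_cancel]
  · have h := hy Q (Finset.mem_insert_of_mem ((Set.Finite.mem_toFinset _).2 hQl))
    simp only [if_neg hQP, pow_one] at h
    exact Q.isPrime.ne_top ((Ideal.eq_top_iff_one _).2 (by simpa using Q.asIdeal.sub_mem hyQ h))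

variable {l : Nat.Primes} {g : GQ} {P : Prime K}

theorem norm_emb_le_one_of_int (x : 𝓞 K) : ‖emb l (g ((x : K) : QBar))‖ ≤ 1 :=
  norm_emb_le_one ((x.2.map ((IntermediateField.val K).restrictScalars ℤ)).map
    (g.toAlgHom.restrictScalars ℤ)) l

theorem norm_emb_eq_one_of_notMem (h : LiesOver (placeAt l g) P) {x : 𝓞 K}
    (hx : x ∉ P.asIdeal) : ‖emb l (g ((x : K) : QBar))‖ = 1 :=
  le_antisymm (norm_emb_le_one_of_int x)
    (not_lt.1 fun hlt => hx ((h x).2 (mem_nonunits_placeAt.2 hlt)))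

/-- An element of order zero is a unit at the places over `P`. -/
theorem norm_emb_eq_one_of_ordAt_eq_zero (h : LiesOver (placeAt l g) P) {x : K} (hx : x ≠ 0)
    (h0 : ordAt P x = 0) : ‖emb l (g (x : QBar))‖ = 1 := by
  have hv : P.valuation K x = 1 := by
    rw [valuation_eq_exp_neg_ordAt P hx, h0, neg_zero, WithZero.exp_zero]
  obtain ⟨a, d, e⟩ := P.exists_primeCompl_mul_eq_of_integer x hv.le
  have ha : a ∉ P.asIdeal := by
    rw [← HeightOneSpectrum.valuation_eq_one_iff_notMem (K := K), ← e, map_mul, hv, one_mul,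
      HeightOneSpectrum.valuation_eq_one_iff_notMem]
    exact d.2
  have he := congrArg (fun z : K => ‖emb l (g (z : QBar))‖) e
  simp only [IntermediateField.coe_mul, map_mul, norm_mul] at he
  have h1 : ‖emb l (g (((d : 𝓞 K) : K) : QBar))‖ = 1 := norm_emb_eq_one_of_notMem h d.2
  have h2 := norm_emb_eq_one_of_notMem h ha
  rw [show algebraMap (𝓞 K) K (d : 𝓞 K) = ((d : 𝓞 K) : K) from rfl, h1, mul_one] at he
  rw [he]
  exact h2

theorem uniformizer_mem (ϖ : 𝓞 K) (hϖ : P.intValuation ϖ = WithZero.exp (-1 : ℤ)) :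
    ϖ ∈ P.asIdeal := by
  rw [← HeightOneSpectrum.intValuation_lt_one_iff_mem, hϖ, ← WithZero.exp_zero]
  exact WithZero.exp_lt_exp.2 (by norm_num)

theorem uniformizer_ne_zero (ϖ : 𝓞 K) (hϖ : P.intValuation ϖ = WithZero.exp (-1 : ℤ)) : ϖ ≠ 0 :=
  fun h => by rw [h, map_zero] at hϖ; exact WithZero.exp_ne_zero hϖ.symm

/-- Absolute values at a place over `P` are powers of that of a uniformiser. -/
theorem norm_emb_eq_zpow (h : LiesOver (placeAt l g) P) {ϖ : 𝓞 K}
    (hϖ : P.intValuation ϖ = WithZero.exp (-1 : ℤ)) {x : K} (hx : x ≠ 0) :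
    ‖emb l (g (x : QBar))‖ = ‖emb l (g ((ϖ : K) : QBar))‖ ^ ordAt P x := by
  set w : K := (ϖ : K) with hwdef
  have hw : w ≠ 0 := fun h0 => uniformizer_ne_zero ϖ hϖ (RingOfIntegers.coe_injective (h0.trans (map_zero (algebraMap (𝓞 K) K)).symm))
  have h1 : ordAt P w = 1 := by
    rw [ordAt, hwdef, HeightOneSpectrum.valuation_of_algebraMap, hϖ, WithZero.log_exp, neg_neg]
  have hu : ordAt P (x * w ^ (-ordAt P x)) = 0 := by
    have h2 : ordAt P (w ^ (-ordAt P x)) = -ordAt P x := by rw [ordAt_zpow, h1, mul_one]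
    simp only [ordAt] at h2 ⊢
    rw [map_mul, WithZero.log_mul ((Valuation.ne_zero_iff _).2 hx)
      ((Valuation.ne_zero_iff _).2 (zpow_ne_zero _ hw)), neg_add, h2]
    ring
  have h3 := norm_emb_eq_one_of_ordAt_eq_zero h (mul_ne_zero hx (zpow_ne_zero _ hw)) hu
  rw [IntermediateField.coe_mul, map_mul, map_mul, norm_mul,
    show ((w ^ (-ordAt P x) : K) : QBar) = (w : QBar) ^ (-ordAt P x) from
      map_zpow₀ (algebraMap K QBar) w _, map_zpow₀, map_zpow₀, norm_zpow, zpow_neg,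
    mul_inv_eq_one₀] at h3
  · exact h3
  · exact zpow_ne_zero _ (norm_ne_zero_iff.2 (by simpa using hw))

theorem norm_emb_uniformizer_lt_one (h : LiesOver (placeAt l g) P) {ϖ : 𝓞 K}
    (hϖ : P.intValuation ϖ = WithZero.exp (-1 : ℤ)) : ‖emb l (g ((ϖ : K) : QBar))‖ < 1 :=
  mem_nonunits_placeAt.1 ((h ϖ).1 (uniformizer_mem ϖ hϖ))

theorem norm_emb_uniformizer_pos {ϖ : 𝓞 K} (hϖ : P.intValuation ϖ = WithZero.exp (-1 : ℤ)) :
    0 < ‖emb l (g ((ϖ : K) : QBar))‖ := by
  rw [norm_pos_iff]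
  simp [uniformizer_ne_zero ϖ hϖ]

theorem ordAt_eq_zero_of_norm_emb (h : LiesOver (placeAt l g) P) {x : K} (hx : x ≠ 0)
    (h1 : ‖emb l (g (x : QBar))‖ = 1) : ordAt P x = 0 := by
  obtain ⟨ϖ, hϖ⟩ := P.intValuation_exists_uniformizer
  rw [norm_emb_eq_zpow h hϖ hx] at h1
  exact (zpow_eq_one_iff_right₀ (norm_nonneg _) (norm_emb_uniformizer_lt_one h hϖ).ne).1 h1

/-- Smaller valuation means smaller absolute value. -/
theorem norm_emb_lt_of_valuation_lt (h : LiesOver (placeAt l g) P) {x z : K} (hz : z ≠ 0)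
    (hlt : P.valuation K x < P.valuation K z) :
    ‖emb l (g (x : QBar))‖ < ‖emb l (g (z : QBar))‖ := by
  obtain ⟨ϖ, hϖ⟩ := P.intValuation_exists_uniformizer
  rcases eq_or_ne x 0 with rfl | hx
  · simpa using norm_pos_iff.2 (show emb l (g (z : QBar)) ≠ 0 by simpa using hz)
  rw [norm_emb_eq_zpow h hϖ hx, norm_emb_eq_zpow h hϖ hz]
  rw [valuation_eq_exp_neg_ordAt P hx, valuation_eq_exp_neg_ordAt P hz, WithZero.exp_lt_exp,
    neg_lt_neg_iff] at hlt
  exact zpow_lt_zpow_right_of_lt_one₀ (norm_emb_uniformizer_pos hϖ)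
    (norm_emb_uniformizer_lt_one h hϖ) hlt

/-- The `l`-part of the norm of the uniformiser is that of the norm of `P`. -/
theorem exists_absNorm_span_eq {ϖ : 𝓞 K} (hϖ : P.intValuation ϖ = WithZero.exp (-1 : ℤ))
    (hu : ∀ Q : Prime K, Q ≠ P → ((l : ℕ) : 𝓞 K) ∈ Q.asIdeal → ϖ ∉ Q.asIdeal) :
    ∃ m, ¬ (l : ℕ) ∣ m ∧ (Algebra.norm ℤ ϖ).natAbs = Ideal.absNorm P.asIdeal * m := by
  obtain ⟨J, hJ⟩ := Ideal.dvd_span_singleton.2 (uniformizer_mem ϖ hϖ)
  have hJP : ¬ P.asIdeal ∣ J := fun hd => by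
    have h2 : P.asIdeal ^ 2 ∣ Ideal.span {ϖ} := by
      rw [hJ, sq]; exact mul_dvd_mul_left _ hd
    rw [← P.intValuation_le_pow_iff_dvd, hϖ] at h2
    exact absurd (WithZero.exp_le_exp.1 h2) (by norm_num)
  refine ⟨Ideal.absNorm J, fun hdvd => ?_, by
    rw [← Ideal.absNorm_span_singleton, hJ, map_mul]⟩
  have hJ0 : J ≠ ⊥ := fun h0 => uniformizer_ne_zero ϖ hϖ (by
    rwa [h0, Ideal.mul_bot, Ideal.span_singleton_eq_bot] at hJ)
  haveI : Finite (𝓞 K ⧸ J) := Ideal.finiteQuotientOfFreeOfNeBot _ hJ0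
  rw [Ideal.absNorm_apply, Submodule.cardQuot_apply] at hdvd
  obtain ⟨a, ha⟩ := exists_prime_addOrderOf_dvd_card' (G := 𝓞 K ⧸ J) (l : ℕ) hdvd
  -- some prime contains `l` and `J`
  have hne : J ⊔ Ideal.span {((l : ℕ) : 𝓞 K)} ≠ ⊤ := fun htop => by
    obtain ⟨j, hj, z, hz, e⟩ := Submodule.mem_sup.1 (htop ▸ Submodule.mem_top : (1 : 𝓞 K) ∈ _)
    obtain ⟨c, rfl⟩ := Ideal.mem_span_singleton'.1 hz
    have h1 : Ideal.Quotient.mk J c * ((l : ℕ) : 𝓞 K ⧸ J) = 1 := by
      rw [← map_natCast (Ideal.Quotient.mk J), ← map_mul, ← map_one (Ideal.Quotient.mk J), ← e,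
        map_add, Ideal.Quotient.eq_zero_iff_mem.2 hj, zero_add]
    have h2 : a = 0 := by
      rw [← one_mul a, ← h1, mul_assoc, ← nsmul_eq_mul, ← ha, addOrderOf_nsmul_eq_zero, mul_zero]
    rw [h2, addOrderOf_zero] at ha
    exact l.2.one_lt.ne ha
  obtain ⟨Q, hQ, hJQ⟩ := Ideal.exists_le_maximal _ hne
  have hlQ : ((l : ℕ) : 𝓞 K) ∈ Q :=
    hJQ (Ideal.mem_sup_right (Ideal.mem_span_singleton_self _))
  have hQ0 : Q ≠ ⊥ := fun h0 => by
    rw [h0, Submodule.mem_bot, Nat.cast_eq_zero] at hlQ; exact l.2.ne_zero hlQ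
  let Q' : Prime K := ⟨Q, hQ.isPrime, hQ0⟩
  refine hu Q' (fun e => hJP (Ideal.dvd_iff_le.2 ?_)) hlQ ?_
  · have e' : Q = P.asIdeal := congrArg HeightOneSpectrum.asIdeal e
    exact (le_sup_left.trans hJQ).trans e'.le
  · have : ϖ ∈ Ideal.span {ϖ} := Ideal.mem_span_singleton_self ϖ
    rw [hJ] at this
    exact (le_sup_left.trans hJQ) (Ideal.mul_le_right this)

end Fermat.Agent.CFT.Reciprocity
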