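import Fermat.Agent.CFT.Reciprocity.AuxPrime
import Fermat.Agent.CFT.Reciprocity.Ord

/-!
# A family of auxiliary primes and an automorphism generating all of them at once
-/

set_option autoImplicit false
set_option linter.style.haveILetI false
set_option linter.unusedSectionVars false

noncomputable section

namespace Fermat.Agent.CFT.Reciprocity

open ExtCitation Fermat.Agent.Arith Fermat.Agent.CFT.Idele Fermat.Agent.CFT.Local
open IsDedekindDomain NumberField

local instance factPrimeFamily (q : Nat.Primes) : Fact (q : ℕ).Prime := ⟨q.2⟩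

/-- If `w` has order a multiple of `p ^ (k + D)`, elements killed by `p ^ k` are multiples of `f • w`
for `0 < f ≤ D`. -/
theorem exists_mul_nsmul_eq {p N k D f : ℕ} [NeZero N] (hp : p.Prime) (hf : 0 < f) (hfD : f ≤ D)
    {w : ZMod N} (hw : p ^ (k + D) ∣ addOrderOf w) {x : ZMod N}
    (hx : (p ^ k) • x = 0) : ∃ c, c * (f • w) = x := by
  set v := (f • w).val with hv
  have hm : p ^ k ∣ addOrderOf (f • w) := by
    have h1 : addOrderOf w ∣ addOrderOf (f • w) * f := by
      refine addOrderOf_dvd_of_nsmul_eq_zero ?_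
      rw [mul_comm, mul_nsmul]
      exact addOrderOf_nsmul_eq_zero (f • w)
    set e := f.factorization p
    have he : e ≤ D := by
      have : p ^ e ≤ f := Nat.le_of_dvd hf (Nat.ordProj_dvd f p)
      exact ((Nat.lt_pow_self hp.one_lt).le.trans this).trans hfD
    have h2 : p ^ (k + e) ∣ addOrderOf (f • w) * f :=
      (pow_dvd_pow p (by omega)).trans (hw.trans h1)
    have hsplit : addOrderOf (f • w) * f = addOrderOf (f • w) * p ^ e * (f / p ^ e) := by
      rw [mul_assoc, Nat.ordProj_mul_ordCompl_eq_self]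
    rw [hsplit] at h2
    have h3 := ((Nat.coprime_ordCompl hp hf.ne').pow_left _).dvd_of_dvd_mul_right h2
    rw [pow_add] at h3
    exact Nat.dvd_of_mul_dvd_mul_right (pow_pos hp.pos _) h3
  have hord : addOrderOf (f • w) = N / N.gcd v := by
    conv_lhs => rw [← ZMod.natCast_zmod_val (f • w)]
    exact ZMod.addOrderOf_coe v (NeZero.ne N)
  have hmx : (N / N.gcd v) • x = 0 := by
    obtain ⟨c, hc⟩ := hord ▸ hm
    rw [hc, mul_nsmul, hx, smul_zero]
  have hdvd : N.gcd v ∣ x.val := by
    have hgN := Nat.gcd_dvd_left N v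
    have h4 : N ∣ N / N.gcd v * x.val := by
      rw [← ZMod.natCast_eq_zero_iff, Nat.cast_mul, ZMod.natCast_zmod_val, ← nsmul_eq_mul]
      exact hmx
    have h5 : N.gcd v * (N / N.gcd v) ∣ x.val * (N / N.gcd v) := by
      rwa [Nat.mul_div_cancel' hgN, mul_comm x.val]
    exact Nat.dvd_of_mul_dvd_mul_right
      (Nat.div_pos (Nat.gcd_le_left _ (NeZero.pos N)) (Nat.gcd_pos_of_pos_left _ (NeZero.pos N)))
      (by rwa [mul_comm (N.gcd v)] at h5)
  obtain ⟨c, hc⟩ := hdvd
  have hb := congrArg (fun z : ℤ => (z : ZMod N)) (Nat.gcd_eq_gcd_ab N v)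
  push_cast at hb
  rw [ZMod.natCast_self, zero_mul, zero_add, hv, ZMod.natCast_zmod_val] at hb
  refine ⟨(c : ZMod N) * ((Nat.gcdB N v : ℤ) : ZMod N), ?_⟩
  rw [mul_assoc, mul_comm _ (f • w), ← hb, mul_comm, ← Nat.cast_mul, ← hc, ZMod.natCast_zmod_val]

theorem residueDegree_le {K : IntermediateField ℚ QBar} [NumberField K] {l : Nat.Primes} {g : GQ}
    {P : Prime K} (h : LiesOver (placeAt l g) P) {f : ℕ}
    (hf : Ideal.absNorm P.asIdeal = (l : ℕ) ^ f) : f ≤ Module.finrank ℚ K := by
  have h1 := Ideal.absNorm_dvd_absNorm_of_le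
    ((Ideal.span_singleton_le_iff_mem _).2 h.natCast_mem)
  rw [hf, Ideal.absNorm_span_singleton,
    ← map_natCast (algebraMap ℤ (𝓞 K)), Algebra.norm_algebraMap, Int.natAbs_pow,
    Int.natAbs_natCast, NumberField.RingOfIntegers.rank] at h1
  exact (Nat.pow_dvd_pow_iff_le_right l.2.one_lt).1 h1

/-- Auxiliary primes for all primes of a finite set, distinct and outside a given set. -/
theorem exists_aux_family {p : ℕ} (hp : p = 2 ∨ p = 3) (J : ℕ) (U T : Finset Nat.Primes) :
    ∃ a : Nat.Primes → Σ t, Aux (p ^ t),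
      (∀ l ∈ T, (a l).2.q ∉ U ∧ (a l).2.log (-1) = 1 ∧ ∃ h : l ≠ (a l).2.q,
        p ^ J ∣ addOrderOf
          (Multiplicative.toAdd ((a l).2.log ((a l).2.unitOf ((a l).2.not_dvd_of_ne h))))) ∧
      ∀ l ∈ T, ∀ l' ∈ T, (a l).2.q = (a l').2.q → l = l' := by
  classical
  induction T using Finset.induction with
  | empty =>
    choose t a _ using fun l : Nat.Primes => exists_aux_log hp (l := l) J U
    exact ⟨fun l => ⟨t l, a l⟩, by simp, by simp⟩
  | insert l T hl ih =>
    obtain ⟨a, ha, hinj⟩ := ih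
    obtain ⟨t, b, hbS, hbneg, h, hord⟩ := exists_aux_log hp (l := l) J
      (U ∪ T.image fun l' => (a l').2.q)
    rw [Finset.mem_union, not_or] at hbS
    rw [← ofAdd_toAdd (b.log _), orderOf_ofAdd_eq_addOrderOf] at hord
    refine ⟨Function.update a l ⟨t, b⟩, fun l' hl' => ?_, fun l₁ h₁ l₂ h₂ e => ?_⟩
    · rcases eq_or_ne l' l with rfl | hne
      · rw [Function.update_self]
        exact ⟨hbS.1, hbneg, h, hord⟩
      · rw [Function.update_of_ne hne]
        exact ha l' ((Finset.mem_insert.1 hl').resolve_left hne)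
    · rcases eq_or_ne l₁ l with rfl | hne₁ <;> rcases eq_or_ne l₂ l₁ with rfl | hne₂
      · rfl
      · rw [Function.update_self, Function.update_of_ne hne₂] at e
        exact absurd (Finset.mem_image.2 ⟨l₂, (Finset.mem_insert.1 h₂).resolve_left hne₂, e.symm⟩)
          hbS.2
      · rfl
      · rcases eq_or_ne l₂ l with rfl | hne₂'
        · rw [Function.update_self, Function.update_of_ne hne₁] at e
          exact absurd (Finset.mem_image.2 ⟨l₁, (Finset.mem_insert.1 h₁).resolve_left hne₁, e⟩)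
            hbS.2
        · rw [Function.update_of_ne hne₁, Function.update_of_ne hne₂'] at e
          exact hinj l₁ ((Finset.mem_insert.1 h₁).resolve_left hne₁) l₂
            ((Finset.mem_insert.1 h₂).resolve_left hne₂') e

/-- An automorphism fixing `K` sent to `1` by all characters of the family. -/
theorem exists_joint_generator {K L : IntermediateField ℚ QBar} [FiniteDimensional ℚ L]
    [Normal ℚ L] (hKL : K ≤ L) {p : ℕ} (T : Finset Nat.Primes)
    (a : Nat.Primes → Σ t, Aux (p ^ t))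
    (hinj : ∀ l ∈ T, ∀ l' ∈ T, (a l).2.q = (a l').2.q → l = l')
    (hunr : ∀ l ∈ T, inertia (E L (a l).2.q) = ⊥) :
    ∃ g ∈ K.fixingSubgroup, ∀ l ∈ T, (a l).2.chi g = Multiplicative.ofAdd 1 := by
  classical
  suffices h : ∀ T', T' ⊆ T → ∃ g ∈ K.fixingSubgroup,
      ∀ l ∈ T, (a l).2.chi g = if l ∈ T' then Multiplicative.ofAdd 1 else 1 by
    obtain ⟨g, hg, hv⟩ := h T subset_rfl
    exact ⟨g, hg, fun l hl => by rw [hv l hl, if_pos hl]⟩
  intro T'
  induction T' using Finset.induction with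
  | empty => intro _; exact ⟨1, one_mem _, fun l _ => by simp⟩
  | insert l₀ T' hl₀ ih =>
    intro hsub
    have hl₀T : l₀ ∈ T := hsub (Finset.mem_insert_self _ _)
    obtain ⟨g, hg, hv⟩ := ih fun x hx => hsub (Finset.mem_insert_of_mem hx)
    obtain ⟨i, hi, hiv⟩ := (a l₀).2.exists_inertia (Multiplicative.ofAdd 1)
    have hiK : i ∈ K.fixingSubgroup := IntermediateField.fixingSubgroup_antitone hKL
      ((IntermediateField.mem_fixingSubgroup_iff _ _).2 fun x hx =>
        (inertia_eq_bot_iff ((a l₀).2.q : ℕ) L).1 (hunr l₀ hl₀T) i hi ⟨x, hx⟩)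
    refine ⟨g * i, mul_mem hg hiK, fun l hl => ?_⟩
    rcases eq_or_ne l l₀ with rfl | hne
    · rw [map_mul, hv l hl, if_neg hl₀, one_mul, hiv, if_pos (Finset.mem_insert_self _ _)]
    · rw [map_mul, hv l hl, (a l).2.chi_inertia (fun e => hne (hinj l hl l₀ hl₀T e.symm))
        (padicPlace_liesOverPrime ((a l₀).2.q : ℕ)) hi, mul_one]
      simp only [Finset.mem_insert, hne, false_or]

end Fermat.Agent.CFT.Reciprocity
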