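import Fermat.Agent.CFT.Idele.Values
import Mathlib.RingTheory.RootsOfUnity.AlgebraicallyClosed
import Mathlib.RingTheory.Polynomial.Cyclotomic.Roots

/-!
# Roots of elements close to one in the completions

An element closer to `1` than `‖n‖ ^ 3` has exactly one `n`-th root closer to `1` than `‖n‖`; it is
fixed by the Galois group of the completion.
-/

set_option autoImplicit false

noncomputable section

namespace Fermat.Agent.CFT.Reciprocity

open ExtCitation Fermat.Agent.Arith Fermat.Agent.CFT.Idele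

local instance factPrimeRoot (q : Nat.Primes) : Fact (q : ℕ).Prime := ⟨q.2⟩

variable {l : Nat.Primes}

theorem norm_natCast_le_one_Ω (m : ℕ) : ‖((m : ℕ) : Ω l)‖ ≤ 1 :=
  IsUltrametricDist.norm_natCast_le_one _ m

/-- A root closer to one than all others. -/
theorem exists_close_root {n : ℕ} (hn : 0 < n) {x : Ω l} (hx : ‖x - 1‖ < ‖(n : Ω l)‖ ^ 3) :
    ∃ r : Ω l, r ^ n = x ∧ ∀ r', r' ^ n = x → ‖r' - 1‖ = ‖r - 1‖ → r' = r := by
  classical
  obtain ⟨m, rfl⟩ := Nat.exists_eq_succ_of_ne_zero hn.ne'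
  set c : ℝ := ‖((m + 1 : ℕ) : Ω l)‖
  haveI : CharZero (Ω l) := charZero_of_injective_algebraMap (algebraMap ℚ_[(l : ℕ)] (Ω l)).injective
  have hc1 : c ≤ 1 := norm_natCast_le_one_Ω _
  have hc0 : 0 < c := norm_pos_iff.2 (Nat.cast_ne_zero.2 m.succ_ne_zero)
  obtain ⟨α, hα⟩ := IsAlgClosed.exists_pow_nat_eq x hn
  haveI : NeZero ((m + 1 : ℕ) : Ω l) := ⟨Nat.cast_ne_zero.2 m.succ_ne_zero⟩
  obtain ⟨ζ, hζ⟩ := HasEnoughRootsOfUnity.exists_primitiveRoot (Ω l) (m + 1)
  have hxn : ‖x‖ = 1 := by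
    have h1 : ‖x - 1‖ < ‖(1 : Ω l)‖ := by
      rw [norm_one]; exact hx.trans_le (pow_le_one₀ (norm_nonneg _) hc1)
    have := IsUltrametricDist.norm_add_eq_max_of_norm_ne_norm h1.ne
    rw [sub_add_cancel, max_eq_right h1.le, norm_one] at this
    exact this
  have hroots : ∀ r : Ω l, r ^ (m + 1) = x → ‖r‖ = 1 := fun r hr =>
    (pow_eq_one_iff_of_nonneg (norm_nonneg r) m.succ_ne_zero).1 (by rw [← norm_pow, hr, hxn])
  obtain ⟨i₀, -, hmin⟩ := Finset.exists_min_image (Finset.range (m + 1))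
    (fun i => ‖ζ ^ i * α - 1‖) ⟨0, Finset.mem_range.2 hn⟩
  set r := ζ ^ i₀ * α
  have hr : r ^ (m + 1) = x := by
    rw [mul_pow, ← pow_mul, mul_comm i₀, pow_mul, hζ.pow_eq_one, one_pow, one_mul, hα]
  have hall : ∀ i : ℕ, ‖r - 1‖ ≤ ‖ζ ^ i * r - 1‖ := fun i => by
    obtain ⟨k, hk, e⟩ := hζ.eq_pow_of_pow_eq_one
      (show (ζ ^ (i + i₀)) ^ (m + 1) = 1 by
        rw [← pow_mul, mul_comm (i + i₀), pow_mul, hζ.pow_eq_one, one_pow])
    rw [← mul_assoc, ← pow_add, ← e]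
    exact hmin k (Finset.mem_range.2 hk)
  have hlow : ∀ i : ℕ, ‖1 - ζ ^ i‖ ≤ ‖ζ ^ i * r - 1‖ := fun i => by
    have e : ζ ^ i * r - r = (ζ ^ i * r - 1) + -(r - 1) := by ring
    have h := IsUltrametricDist.norm_add_le_max (ζ ^ i * r - 1) (-(r - 1))
    rw [← e, norm_neg, max_eq_left (hall i), show ζ ^ i * r - r = -((1 - ζ ^ i) * r) by ring,
      norm_neg, norm_mul, hroots r hr, mul_one] at h
    exact h
  have hle1 : ∀ i : ℕ, ‖1 - ζ ^ i‖ ≤ 1 := fun i => by
    have hz : ‖ζ‖ = 1 :=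
      (pow_eq_one_iff_of_nonneg (norm_nonneg ζ) m.succ_ne_zero).1 (by
        rw [← norm_pow, hζ.pow_eq_one, norm_one])
    rw [sub_eq_add_neg]
    refine (IsUltrametricDist.norm_add_le_max _ _).trans (max_le norm_one.le ?_)
    rw [norm_neg, norm_pow, hz, one_pow]
  have hprodc : ∏ i ∈ Finset.range m, ‖1 - ζ ^ (i + 1)‖ = c := by
    rw [← norm_prod, IsPrimitiveRoot.prod_one_sub_pow_eq_order hζ]
    simp [c]
  have hfac : ‖1 - x‖ = (∏ i ∈ Finset.range m, ‖ζ ^ (i + 1) * r - 1‖) * ‖r - 1‖ := by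
    have h := congrArg (Polynomial.eval (1 : Ω l)) (X_pow_sub_C_eq_prod hζ hn hr)
    simp only [Polynomial.eval_sub, Polynomial.eval_pow, Polynomial.eval_X, Polynomial.eval_C,
      Polynomial.eval_prod, one_pow] at h
    rw [h, norm_prod, Finset.prod_range_succ', pow_zero, one_mul, norm_sub_rev 1 r]
    congr 1
    exact Finset.prod_congr rfl fun i _ => norm_sub_rev _ _
  have hclose : ‖r - 1‖ < c := by
    have h1 : c * ‖r - 1‖ ≤ ‖1 - x‖ := by
      rw [hfac, ← hprodc]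
      exact mul_le_mul_of_nonneg_right
        (Finset.prod_le_prod (fun i _ => norm_nonneg _) fun i _ => hlow (i + 1)) (norm_nonneg _)
    rw [norm_sub_rev 1 x] at h1
    have h2 : ‖r - 1‖ < c ^ 2 := by
      by_contra h3
      have := mul_le_mul_of_nonneg_left (not_lt.1 h3) hc0.le
      rw [← pow_succ'] at this
      exact absurd (this.trans h1) (not_le.2 hx)
    exact h2.trans_le (pow_le_of_le_one hc0.le hc1 two_ne_zero)
  refine ⟨r, hr, fun r' hr' he => ?_⟩
  have hr0 : r ≠ 0 := fun h => by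
    have := hroots r hr; rw [h, norm_zero] at this; exact zero_ne_one this
  obtain ⟨k, hk, e⟩ := hζ.eq_pow_of_pow_eq_one (show (r' / r) ^ (m + 1) = 1 by
    rw [div_pow, hr', hr, div_self]; exact fun h => by rw [h, norm_zero] at hxn; exact zero_ne_one hxn)
  rw [eq_div_iff hr0] at e
  rcases Nat.eq_zero_or_pos k with rfl | hk0
  · rw [← e, pow_zero, one_mul]
  exfalso
  obtain ⟨i, rfl⟩ : ∃ i, k = i + 1 := ⟨k - 1, by omega⟩
  have h1 : c ≤ ‖1 - ζ ^ (i + 1)‖ := by
    have hi : i ∈ Finset.range m := Finset.mem_range.2 (by omega)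
    rw [← hprodc, ← Finset.mul_prod_erase _ _ hi]
    exact mul_le_of_le_one_right (norm_nonneg _)
      (Finset.prod_le_one (fun _ _ => norm_nonneg _) fun j _ => hle1 _)
  have h2 := (h1.trans (hlow (i + 1)))
  rw [e, he] at h2
  exact absurd h2 (not_le.2 hclose)

/-- The root lies in the completion. -/
theorem exists_root_fieldAt {K : IntermediateField ℚ QBar} {g : GQ} {n : ℕ} (hn : 0 < n) {x : Ω l}
    (hxK : x ∈ fieldAt l K g) (hx : ‖x - 1‖ < ‖(n : Ω l)‖ ^ 3) :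
    ∃ z ∈ fieldAt l K g, z ^ n = x := by
  obtain ⟨r, hr, huniq⟩ := exists_close_root hn hx
  refine ⟨r, ?_, hr⟩
  rw [← InfiniteGalois.fixedField_fixingSubgroup (fieldAt l K g), IntermediateField.mem_fixedField_iff]
  intro τ hτ
  refine huniq _ ?_ ?_
  · rw [← map_pow, hr]
    exact (IntermediateField.mem_fixingSubgroup_iff _ _).1 hτ x hxK
  · rw [← norm_algEquiv_Ω l τ (r - 1), map_sub, map_one]

end Fermat.Agent.CFT.Reciprocity
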