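import Fermat.Agent.CFT.Reciprocity.Single
import Fermat.Agent.CFT.Reciprocity.Family
import Fermat.Agent.CFT.Reciprocity.Root

/-!
# Classes of the ideles supported at one place

Measured by an auxiliary character, the carry class of a character at an idele supported at an
unramified place is the order times the value at the Frobenius element of a fixed class.
-/

set_option autoImplicit false
set_option synthInstance.maxHeartbeats 200000
set_option linter.style.haveILetI false
set_option linter.unusedSectionVars false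

noncomputable section

namespace Fermat.Agent.CFT.Reciprocity

open ExtCitation Fermat.Agent.Arith Fermat.Agent.CFT.Idele Fermat.Agent.CFT.Form IntermediateField
open Fermat.Agent.CFT.Local
open IsDedekindDomain NumberField
open scoped Pointwise

local instance factPrimeCoreAux (q : Nat.Primes) : Fact (q : ℕ).Prime := ⟨q.2⟩

section General

/-- The multiples of an element killed by `N`. -/
def clsMul {A : Type*} [AddCommGroup A] {N : ℕ} (u : A) (h : N • u = 0) : ZMod N →+ A :=
  ZMod.lift N ⟨zmultiplesHom A u, by rw [zmultiplesHom_apply, natCast_zsmul]; exact h⟩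

theorem clsMul_apply {A : Type*} [AddCommGroup A] {N : ℕ} [NeZero N] (u : A) (h : N • u = 0)
    (a : ZMod N) : clsMul u h a = a.val • u := by
  conv_lhs => rw [← ZMod.natCast_zmod_val a, ← Int.cast_natCast]
  rw [clsMul, ZMod.lift_coe]
  exact natCast_zsmul u _

variable {G : Type*} [Group G]

/-- A character modulo a divisor of its modulus. -/
def redChar {N n : ℕ} (h : n ∣ N) (ε : G →* Multiplicative (ZMod N)) :
    G →* Multiplicative (ZMod n) :=
  (AddMonoidHom.toMultiplicative (ZMod.castHom h (ZMod n)).toAddMonoidHom).comp ε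

theorem redChar_apply_one {N n : ℕ} (h : n ∣ N) {ε : G →* Multiplicative (ZMod N)} {g : G}
    (hg : ε g = Multiplicative.ofAdd 1) : redChar h ε g = Multiplicative.ofAdd 1 := by
  show Multiplicative.ofAdd (ZMod.castHom h (ZMod n) (Multiplicative.toAdd (ε g))) =
    Multiplicative.ofAdd (1 : ZMod n)
  rw [hg, toAdd_ofAdd, map_one]

theorem carryCls_redChar {A : Type*} [AddCommGroup A] [DistribMulAction G A] {N n : ℕ} [NeZero N]
    [NeZero n] (h : n ∣ N) (d : ℕ) (hd : N = d * n) (ε : G →* Multiplicative (ZMod N)) {x : A}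
    (hx : ∀ g : G, g • x = x) : carryCls (redChar h ε) x = d • carryCls ε x := by
  rw [← carryCls_scale d hd (redChar h ε), ← carryCls_pow ε hx]
  suffices e : scaleChar d hd (redChar h ε) = ε ^ d by rw [e]
  refine MonoidHom.ext fun g => Multiplicative.toAdd.injective ?_
  rw [scaleChar_apply, MonoidHom.pow_apply, toAdd_pow]
  show scaleHom d hd (ZMod.castHom h (ZMod n) (Multiplicative.toAdd (ε g))) = _
  conv_lhs => rw [← ZMod.natCast_zmod_val (Multiplicative.toAdd (ε g)), map_natCast]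
  rw [scaleHom_natCast, Nat.cast_mul, ZMod.natCast_zmod_val, nsmul_eq_mul]

/-- A Sylow subgroup has a generator of the image of a character. -/
theorem exists_mem_sylow_eq_one [Finite G] {p t : ℕ} [Fact p.Prime]
    (φ : G →* Multiplicative (ZMod (p ^ t))) {g : G} (hg : φ g = Multiplicative.ofAdd 1)
    (S : Sylow p G) : ∃ γ ∈ (S : Subgroup G), φ γ = Multiplicative.ofAdd 1 := by
  have hsurj : Function.Surjective φ := fun x => ⟨g ^ (Multiplicative.toAdd x).val, by
    rw [map_pow, hg, ← ofAdd_nsmul, nsmul_one, ZMod.natCast_zmod_val, ofAdd_toAdd]⟩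
  have h1 : ((S : Subgroup G).map φ).index ∣ (S : Subgroup G).index :=
    Subgroup.index_map_dvd _ hsurj
  have h2 : ((S : Subgroup G).map φ).index ∣ p ^ t := by
    have := Subgroup.index_dvd_card ((S : Subgroup G).map φ)
    rwa [Nat.card_congr Multiplicative.toAdd, Nat.card_zmod] at this
  obtain ⟨i, -, hi⟩ := (Nat.dvd_prime_pow Fact.out).1 h2
  have h3 : ((S : Subgroup G).map φ).index = 1 := by
    rcases Nat.eq_zero_or_pos i with rfl | h
    · exact hi
    · exact absurd ((hi ▸ dvd_pow_self p h.ne' : p ∣ _).trans h1) S.not_dvd_index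
  obtain ⟨γ, hγ, e⟩ := (Subgroup.index_eq_one.1 h3).symm ▸
    Subgroup.mem_top (Multiplicative.ofAdd (1 : ZMod (p ^ t)))
  exact ⟨γ, hγ, e⟩

end General

variable {K : IntermediateField ℚ QBar} [NumberField K]

/-- The prime number under a prime of `K`. -/
theorem prime_unique {l l' : Nat.Primes} {g g' : GQ} {P : Prime K}
    (h : LiesOver (placeAt l g) P) (h' : LiesOver (placeAt l' g') P) : l = l' := by
  obtain ⟨f, hf, e⟩ := exists_absNorm_eq h
  obtain ⟨f', -, e'⟩ := exists_absNorm_eq h'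
  have hd : (l : ℕ) ∣ (l' : ℕ) ^ f' := by rw [← e', e]; exact dvd_pow_self _ hf.ne'
  exact Subtype.ext ((Nat.prime_dvd_prime_iff_eq l.2 l'.2).1 (l.2.dvd_of_dvd_pow hd))

/-- The places of the double coset of `g` lie over the same prime. -/
theorem liesOver_placeAt_mul {l : Nat.Primes} {g : GQ} {P : Prime K}
    (h : LiesOver (placeAt l g) P) (τ : Ω l ≃ₐ[ℚ_[(l : ℕ)]] Ω l) {s : GQ}
    (hs : s ∈ K.fixingSubgroup) : LiesOver (placeAt l (loc l τ * g * s)) P := by
  have hτ : (loc l τ)⁻¹ • padicPlace (l : ℕ) = padicPlace (l : ℕ) := by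
    rw [inv_smul_eq_iff]
    exact (MulAction.mem_stabilizer_iff.1
      (localGaloisToGlobal_mem_decompositionSubgroup (l : ℕ) τ)).symm
  rw [placeAt, mul_inv_rev, mul_inv_rev, mul_smul, mul_smul, hτ]
  exact liesOver_smul h (inv_mem hs)

theorem ordAt_uniformizer {P : Prime K} {ϖ : 𝓞 K}
    (h : P.intValuation ϖ = WithZero.exp (-1 : ℤ)) : ordAt P (ϖ : K) = 1 := by
  rw [ordAt, HeightOneSpectrum.valuation_of_algebraMap, h, WithZero.log_exp, neg_neg]

variable {l : Nat.Primes} {g : GQ} {y : (Ω l)ˣ}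

theorem IsSingle.unique {f f' : idl K} (h : IsSingle l g y f) (h' : IsSingle l g y f') :
    f = f' := by
  refine Subtype.ext (funext fun q => funext fun g' => Units.ext ?_)
  rcases eq_or_ne q l with rfl | hq
  · by_cases hc : ∃ τ, ∃ s ∈ K.fixingSubgroup, g' = loc q τ * g * s
    · obtain ⟨τ, s, hs, rfl⟩ := hc
      rw [apply_eq_of_rep f.2 q τ g hs, apply_eq_of_rep f'.2 q τ g hs, h.val_self, h'.val_self]
    · push Not at hc
      rw [h.off g' hc, h'.off g' hc]
  · rw [h.other q hq, h'.other q hq]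

theorem IsSingle.npow {f : idl K} (h : IsSingle l g y f) (n : ℕ) :
    IsSingle l g (y ^ n) (f ^ n) where
  val_self := by simp [h.val_self]
  other q hq := by simp [h.other q hq]
  off g' hc := by simp [h.off g' hc]

variable {M : IntermediateField ℚ QBar} [FiniteDimensional ℚ M] [Normal ℚ M] (hKM : K ≤ M)
  {S0 : Subgroup (M ≃ₐ[ℚ] M)} (hS0 : S0 ≤ imK M K)

include hS0 in
theorem smul_toC_sub (f : Additive (idl K)) (σ : S0) : σ • toC hKM f = toC hKM f :=
  smul_toC hKM (hS0 σ.2) f

variable {n : ℕ} [NeZero n]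

/-- Characters agreeing on the decomposition group have the same classes there. -/
theorem carryCls_eq_of_agree {χ₁ χ₂ : imK M K →* Multiplicative (ZMod n)}
    (h : ∀ s (hs : s ∈ K.fixingSubgroup), s • placeAt l g = placeAt l g →
      χ₁ ⟨res M s, ⟨s, hs, rfl⟩⟩ = χ₂ ⟨res M s, ⟨s, hs, rfl⟩⟩)
    (hy : (y : Ω l) ∈ fieldAt l K g) {f : idl K} (hf : IsSingle l g y f) :
    carryCls (χ₁.comp (Subgroup.inclusion hS0)) (toC hKM (Additive.ofMul f)) =
      carryCls (χ₂.comp (Subgroup.inclusion hS0)) (toC hKM (Additive.ofMul f)) := by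
  have h0 := carryCls_comp_eq_zero (carryCls_single_eq_zero hKM (δ := χ₁ / χ₂)
    (fun s hs hsA => by rw [MonoidHom.div_apply, h s hs hsA, div_self']) hy hf)
    (Subgroup.inclusion hS0) (AddMonoidHom.id (C M)) fun _ _ => rfl
  rw [AddMonoidHom.id_apply] at h0
  have h1 := carryCls_mul ((χ₁ / χ₂).comp (Subgroup.inclusion hS0))
    (χ₂.comp (Subgroup.inclusion hS0)) (smul_toC_sub hKM hS0 (Additive.ofMul f))
  rw [← MonoidHom.mul_comp, div_mul_cancel, h0, zero_add] at h1
  exact h1

/-- At a prime where the element is close to one the class vanishes. -/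
theorem carryCls_eq_zero_of_congr {P : Prime K} (hP : LiesOver (placeAt l g) P)
    (χ : S0 →* Multiplicative (ZMod n)) {x : K}
    (hlt : P.valuation K (x - 1) < P.valuation K ((n : K) ^ 3))
    (hy : (y : Ω l) = emb l (g (x : QBar))) {f : idl K} (hS0' : S0 ≤ imK M K)
    (hf : IsSingle l g y f) :
    carryCls χ (toC hKM (Additive.ofMul f)) = 0 := by
  have hn0 : ((n : K) ^ 3) ≠ 0 := pow_ne_zero _ (Nat.cast_ne_zero.2 (NeZero.ne n))
  have h1 := norm_emb_lt_of_valuation_lt hP hn0 hlt
  simp only [AddSubgroupClass.coe_sub, IntermediateField.coe_one, IntermediateField.coe_pow,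
    map_sub, map_one, map_pow, norm_pow] at h1
  rw [show (((n : K) : K) : QBar) = (n : QBar) from map_natCast (algebraMap K QBar) n,
    map_natCast, map_natCast] at h1
  obtain ⟨r, hr, hrn⟩ := exists_root_fieldAt (NeZero.pos n) (emb_mem_fieldAt g x.2) h1
  have hr0 : r ≠ 0 := fun h0 => by
    rw [h0, zero_pow (NeZero.ne n), ← hy] at hrn
    exact y.ne_zero hrn.symm
  obtain ⟨f', hf'⟩ := exists_isSingle (K := K) (Units.mk0 r hr0) hr
  have e : f = f' ^ n := hf.unique (by
    rw [show y = Units.mk0 r hr0 ^ n from Units.ext (by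
      rw [hy, Units.val_pow_eq_pow_val, Units.val_mk0, hrn])]
    exact hf'.npow n)
  rw [e, ofMul_pow, map_nsmul, map_nsmul]
  exact nsmul_carryCls χ (smul_toC_sub hKM hS0' _)

variable {p t k : ℕ} [hp : Fact p.Prime] (b : Aux (p ^ t)) (hneg : b.log (-1) = 1)
  (hF : b.fixedChi ≤ M) (hSp : IsPGroup p S0) (hcop : p.Coprime (S0.relIndex (imK M K)))
  (hA : CFT.StepAxioms p S0 (C M)) {γ : S0} (hγ : chiGlob b hF γ = Multiplicative.ofAdd 1)
  {z : idl K} (hz : psiK b hKM (Additive.ofMul z) = -1) (hkt : k ≤ t)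

include hS0 hneg hSp hcop hA hγ hz hkt in
/-- The reduced class of `z` has exact order `p ^ k`. -/
theorem dvd_of_nsmul_redChar {c : ℕ}
    (hc : c • carryCls (redChar (pow_dvd_pow p hkt) ((chiGlob b hF).comp S0.subtype))
      (toC hKM (Additive.ofMul z)) = 0) : p ^ k ∣ c := by
  rw [carryCls_redChar _ (p ^ (t - k)) (by rw [← pow_add, Nat.sub_add_cancel hkt]) _
    (smul_toC_sub hKM hS0 _), smul_smul] at hc
  have h1 := dvd_of_nsmul_carryCls ((chiGlob b hF).comp S0.subtype) (toC hKM) (psiK b hKM)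
    (fun f h => psiK_eq_zero_of_carryCls b hneg hKM hF hS0 hSp hcop hA hγ h)
    (z := Additive.ofMul z) (by rw [hz]; exact isUnit_one.neg) hc
  rw [show p ^ t = p ^ k * p ^ (t - k) by rw [← pow_add, Nat.add_sub_cancel' hkt]] at h1
  exact Nat.dvd_of_mul_dvd_mul_right (pow_pos hp.out.pos _) h1

set_option maxHeartbeats 1600000 in
include hS0 hneg hSp hcop hA hγ hz in
/-- The class at an idele supported at an unramified place. -/
theorem carryCls_single_eq (χ' : imK M K →* Multiplicative (ZMod (p ^ k))) {P : Prime K} {σ : GQ}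
    (hσ : IsFrobOver (placeAt l g) P σ) (hl : l ≠ b.q)
    (hord : p ^ (k + Module.finrank ℚ K) ∣ addOrderOf
      (Multiplicative.toAdd (b.log (b.unitOf (b.not_dvd_of_ne hl)))))
    (hinert : ∀ i (hi : i ∈ K.fixingSubgroup), i ∈ (placeAt l g).inertiaSubgroupIn ℚ →
      χ' ⟨res M i, ⟨i, hi, rfl⟩⟩ = 1)
    {x : K} (hx : x ≠ 0) (hy : (y : Ω l) = emb l (g (x : QBar))) {f : idl K}
    (hf : IsSingle l g y f) :
    carryCls (χ'.comp (Subgroup.inclusion hS0)) (toC hKM (Additive.ofMul f)) =
      ordAt P x • ((Multiplicative.toAdd (χ' ⟨res M σ, ⟨σ, hσ.fixes, rfl⟩⟩)).val •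
        carryCls (redChar (pow_dvd_pow p hkt) ((chiGlob b hF).comp S0.subtype))
          (toC hKM (Additive.ofMul z))) := by
  set w := Multiplicative.toAdd (b.log (b.unitOf (b.not_dvd_of_ne hl))) with hw
  set a := Multiplicative.toAdd (χ' ⟨res M σ, ⟨σ, hσ.fixes, rfl⟩⟩) with ha
  have hd : p ^ t = p ^ (t - k) * p ^ k := by rw [← pow_add, Nat.sub_add_cancel hkt]
  set d := p ^ (t - k)
  obtain ⟨fd, hfd0, hfd⟩ := exists_absNorm_eq hσ.liesOver
  obtain ⟨c, hc⟩ := exists_mul_nsmul_eq hp.out hfd0 (residueDegree_le hσ.liesOver hfd) hord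
    (x := -scaleHom d hd a) (by
      rw [← map_neg, ← map_nsmul, nsmul_eq_mul, ZMod.natCast_self, zero_mul, map_zero])
  have hchiσ : Multiplicative.toAdd (b.chi σ) = fd • w := by
    rw [chi_of_congr b hl (g := g) (σ := σ) (f := fd) (fun v hv => hfd ▸ hσ.congr v hv), toAdd_pow]
  set εK : imK M K →* Multiplicative (ZMod (p ^ t)) := (chiGlob b hF).comp (imK M K).subtype
  have hεK : ∀ s (hs : s ∈ K.fixingSubgroup), εK ⟨res M s, ⟨s, hs, rfl⟩⟩ = b.chi s :=
    fun s _ => chiGlob_res b hF s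
  set δ := scaleChar d hd χ' * εK ^ c.val
  have hδσ : δ ⟨res M σ, ⟨σ, hσ.fixes, rfl⟩⟩ = 1 := by
    refine Multiplicative.toAdd.injective ?_
    rw [MonoidHom.mul_apply, MonoidHom.pow_apply, toAdd_mul, toAdd_pow, scaleChar_apply,
      hεK σ hσ.fixes, hchiσ, ← ha, toAdd_one]
    rw [nsmul_eq_mul c.val, ZMod.natCast_zmod_val, hc, add_neg_cancel]
  have hδi : ∀ i (hi : i ∈ K.fixingSubgroup), i ∈ (placeAt l g).inertiaSubgroupIn ℚ →
      δ ⟨res M i, ⟨i, hi, rfl⟩⟩ = 1 := fun i hi hiI => by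
    refine Multiplicative.toAdd.injective ?_
    rw [MonoidHom.mul_apply, MonoidHom.pow_apply, toAdd_mul, toAdd_pow, scaleChar_apply,
      hεK i hi, hinert i hi hiI, b.chi_inertia hl (placeAt_liesOverPrime l g) hiI]
    simp
  have h0 := carryCls_comp_eq_zero (carryCls_single_eq_zero hKM (δ := δ) (fun s hs hsA => by
      obtain ⟨j, i, hiI, hiK, e⟩ := exists_res_eq_frob hσ hKM hs hsA
      rw [show (⟨res M s, ⟨s, hs, rfl⟩⟩ : imK M K) =
          ⟨res M σ, ⟨σ, hσ.fixes, rfl⟩⟩ ^ j * ⟨res M i, ⟨i, hiK, rfl⟩⟩ from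
        Subtype.ext (e.trans (by rw [map_mul, map_pow]; rfl)), map_mul, map_pow, hδσ, one_pow, one_mul,
        hδi i hiK hiI])
      (hy ▸ emb_mem_fieldAt g x.2) hf)
    (Subgroup.inclusion hS0) (AddMonoidHom.id (C M)) fun _ _ => rfl
  have hinv := smul_toC_sub hKM hS0 (Additive.ofMul f)
  rw [AddMonoidHom.id_apply, show δ.comp (Subgroup.inclusion hS0) =
      scaleChar d hd (χ'.comp (Subgroup.inclusion hS0)) * ((chiGlob b hF).comp S0.subtype) ^ c.val
      from rfl, carryCls_mul _ _ hinv, carryCls_scale, carryCls_pow _ hinv,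
    carryCls_eq_psi_smul hA hSp ((chiGlob b hF).comp S0.subtype) hγ (toC hKM)
      (fun σ f => smul_toC_sub hKM hS0 f σ) (psiK b hKM)
      (fun f h => psiK_eq_zero_of_carryCls b hneg hKM hF hS0 hSp hcop hA hγ h)
      (z := Additive.ofMul z) (w := -1) (by rw [hz]; simp) (Additive.ofMul f)] at h0
  set u := carryCls ((chiGlob b hF).comp S0.subtype) (toC hKM (Additive.ofMul z)) with hu
  have hNu : p ^ t • u = 0 := nsmul_carryCls _ (smul_toC_sub hKM hS0 _)
  rw [psiK_single b hKM hσ.liesOver hfd hl hx (by rw [hy]) hf, ← clsMul_apply u hNu,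
    ← map_nsmul] at h0
  rw [carryCls_redChar _ d hd _ (smul_toC_sub hKM hS0 _), ← hu, smul_smul a.val, mul_comm a.val,
    ← val_scaleHom d hd a, ← clsMul_apply u hNu, ← map_zsmul, eq_neg_of_add_eq_zero_left h0,
    ← map_neg]
  congr 1
  rw [show scaleHom d hd a = -(c * (fd • w)) by rw [hc, neg_neg], nsmul_eq_mul, zsmul_eq_mul,
    zsmul_eq_mul, nsmul_eq_mul, ZMod.natCast_zmod_val]
  push_cast
  ring

end Fermat.Agent.CFT.Reciprocity
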