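import Fermat.Agent.Arith.Frobenius
import Mathlib.NumberTheory.NumberField.Basic
import Mathlib.RingTheory.DedekindDomain.AdicValuation
import Mathlib.Analysis.Complex.Basic

/-!
# Reciprocity for characters of a number field inside `ℚ̄`: definitions

Places `A` of `ℚ̄` over a prime `P` of `K`, Frobenius elements of `K` at them, the value of a
character on an element of `K` through the Frobenius elements at the unramified primes.
-/

set_option autoImplicit false

noncomputable section

namespace Fermat.Agent.CFT.Reciprocity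

open Fermat.Agent.Arith
open IsDedekindDomain NumberField

variable (K : IntermediateField ℚ QBar) [NumberField K]

/-- The primes of `K`. -/
abbrev Prime : Type := HeightOneSpectrum (𝓞 K)

variable {K}

/-- The place `A` of `ℚ̄` lies over the prime `P` of `K`. -/
def LiesOver (A : ValuationSubring QBar) (P : Prime K) : Prop :=
  ∀ x : 𝓞 K, x ∈ P.asIdeal ↔ ((x : K) : QBar) ∈ A.nonunits

/-- `σ` fixes `K` and induces `x ↦ x ^ N(P)` at the place `A` over `P`. -/
structure IsFrobOver (A : ValuationSubring QBar) (P : Prime K) (σ : GQ) : Prop where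
  fixes : σ ∈ K.fixingSubgroup
  liesOver : LiesOver A P
  congr : ∀ x : QBar, IsIntegral ℤ x → σ x - x ^ Ideal.absNorm P.asIdeal ∈ A.nonunits

variable {H : Type*} [CommGroup H]

/-- A character of `Gal(ℚ̄/K)` is trivial on a subgroup of finite index fixing a number field. -/
def IsFiniteLevelChar (χ : K.fixingSubgroup →* H) : Prop :=
  ∃ L : IntermediateField ℚ QBar, FiniteDimensional ℚ L ∧
    ∀ σ : K.fixingSubgroup, (∀ x ∈ L, (σ : GQ) x = x) → χ σ = 1

/-- The character is unramified at `P`. -/
def IsUnramifiedAt (χ : K.fixingSubgroup →* H) (P : Prime K) : Prop :=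
  ∀ A : ValuationSubring QBar, LiesOver A P →
    ∀ σ : K.fixingSubgroup, (σ : GQ) ∈ A.inertiaSubgroupIn ℚ → χ σ = 1

/-- Outside `S` the function gives the value of the character at the Frobenius elements. -/
def IsArtinFun (χ : K.fixingSubgroup →* H) (S : Finset (Prime K)) (v : Prime K → H) : Prop :=
  ∀ P ∉ S, ∀ A : ValuationSubring QBar, ∀ σ : K.fixingSubgroup,
    IsFrobOver A P (σ : GQ) → v P = χ σ

/-- `∏ v P ^ ord_P x`. -/
def artinElem (v : Prime K → H) (x : K) : H :=
  ∏ᶠ P : Prime K, v P ^ (-(WithZero.log (P.valuation K x)) : ℤ)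

variable (K)

/-- `K` has no real embedding. -/
def IsTotallyComplexIn : Prop :=
  ∀ φ : QBar →+* ℂ, ∃ x ∈ K, (φ x).im ≠ 0

variable {K}

/-- The element is positive at all real embeddings of `K`. -/
def IsTotallyPositive (y : K) : Prop :=
  ∀ φ : QBar →+* ℂ, (∀ x ∈ K, (φ x).im = 0) → 0 < (φ (y : QBar)).re

end Fermat.Agent.CFT.Reciprocity
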