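import Fermat.Agent.CFT.Reciprocity.ArtinElem
import Fermat.Agent.CFT.Reciprocity.Frobenius
import Fermat.Agent.CFT.Reciprocity.Statement
import Mathlib.RingTheory.Ideal.Norm.RelNorm

/-!
# The reciprocity core applied to an extension field: norms

For `K ⊆ F` the Artin function of the restricted character is `P' ↦ ∏ v P ^ ord_P N(P')`, hence
`ReciprocityCore` for `F` gives a relation for the norms of the elements of `F`.
-/

set_option autoImplicit false
set_option linter.style.haveILetI false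
set_option linter.unusedSectionVars false

noncomputable section

namespace Fermat.Agent.CFT.Reciprocity

open Fermat.Agent.Arith
open IsDedekindDomain NumberField
open scoped Pointwise nonZeroDivisors

theorem pow_congr_of_congr {A : ValuationSubring QBar} {x y : QBar} (hx : x ∈ A) (hy : y ∈ A)
    (h : x - y ∈ A.nonunits) (n : ℕ) : x ^ n - y ^ n ∈ A.nonunits := by
  obtain ⟨c, hc⟩ := (sub_dvd_pow_sub_pow (⟨x, hx⟩ : A) ⟨y, hy⟩ n)
  have e : x ^ n - y ^ n = (c : QBar) * (x - y) := by
    have := congrArg Subtype.val hc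
    rw [mul_comm]
    simpa using this
  rw [e]
  exact nonunits_mul_left c.2 h

/-- Iterates of a Frobenius. -/
theorem congr_pow_iterate {A : ValuationSubring QBar} {σ : GQ} {N : ℕ}
    (h : ∀ x : QBar, IsIntegral ℤ x → σ x - x ^ N ∈ A.nonunits) (j : ℕ) :
    ∀ x : QBar, IsIntegral ℤ x → (σ ^ j) x - x ^ N ^ j ∈ A.nonunits := by
  induction j with
  | zero =>
    intro x _
    rw [pow_zero, pow_zero, pow_one, AlgEquiv.one_apply, sub_self]
    simp [ValuationSubring.mem_nonunits_iff]
  | succ j ih =>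
    intro x hx
    have hx' : IsIntegral ℤ ((σ ^ j) x) := hx.map (σ ^ j : GQ).toAlgHom.toRingHom.toIntAlgHom
    have h1 := pow_congr_of_congr (mem_of_isIntegral A hx') (mem_of_isIntegral A (hx.pow _))
      (ih x hx) N
    have h2 := nonunits_add (h _ hx') h1
    rw [sub_add_sub_cancel, ← pow_mul, ← pow_succ] at h2
    rw [pow_succ', AlgEquiv.mul_apply]
    exact h2

/-- Two automorphisms inducing the same power map differ by inertia. -/
theorem inv_mul_mem_inertia_of_congr {A : ValuationSubring QBar} {ℓ : ℕ} (hA : A.LiesOverPrime ℓ)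
    (hℓ : ℓ.Prime) {N : ℕ} {σ τ : GQ}
    (h : ∀ x : QBar, IsIntegral ℤ x → σ x - x ^ N ∈ A.nonunits)
    (h' : ∀ x : QBar, IsIntegral ℤ x → τ x - x ^ N ∈ A.nonunits) :
    τ⁻¹ * σ ∈ A.inertiaSubgroupIn ℚ := by
  refine (mem_inertia_iff hA hℓ).2 fun x hx => ?_
  have hst : τ • A = A := (congr_pow_of_integral hA hℓ h').1
  have h1 := nonunits_sub (h x hx) (h' x hx)
  rw [sub_sub_sub_cancel_right] at h1
  have h2 := (smul_mem_nonunits_smul_iff (g := τ⁻¹)).2 h1
  rw [inv_smul_eq_iff.2 hst.symm, smul_sub] at h2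
  simp only [AlgEquiv.smul_def] at h2
  rwa [← AlgEquiv.mul_apply, ← AlgEquiv.mul_apply, inv_mul_cancel, AlgEquiv.one_apply] at h2

variable {K F : IntermediateField ℚ QBar} [NumberField K] [NumberField F] [Algebra K F]
  [IsScalarTower K F QBar] {H : Type*} [CommGroup H]

omit [NumberField K] [NumberField F] in
theorem coe_algebraMap_field (x : K) : ((algebraMap K F x : F) : QBar) = (x : QBar) :=
  (IsScalarTower.algebraMap_apply K F QBar x).symm

omit [NumberField K] [NumberField F] in
theorem le_of_algebra : K ≤ F := fun x hx => by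
  have h : ((algebraMap K F ⟨x, hx⟩ : F) : QBar) = x := coe_algebraMap_field ⟨x, hx⟩
  exact h ▸ (algebraMap K F ⟨x, hx⟩).2

omit [NumberField K] [NumberField F] in
theorem fixingSubgroup_le_of_algebra : F.fixingSubgroup ≤ K.fixingSubgroup :=
  IntermediateField.fixingSubgroup_le (le_of_algebra (K := K) (F := F))

/-- The restriction of a character. -/
def restrictChar (F : IntermediateField ℚ QBar) [Algebra K F] [IsScalarTower K F QBar]
    (χ : K.fixingSubgroup →* H) : F.fixingSubgroup →* H :=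
  χ.comp (Subgroup.inclusion (fixingSubgroup_le_of_algebra (K := K) (F := F)))

variable (K) in
/-- The prime of `K` below a prime of `F`. -/
def below (P' : Prime F) : Prime K where
  asIdeal := P'.asIdeal.under (𝓞 K)
  isPrime := Ideal.IsPrime.comap _
  ne_bot := mt Ideal.eq_bot_of_comap_eq_bot P'.ne_bot

theorem liesOver_below {A : ValuationSubring QBar} {P' : Prime F} (h : LiesOver A P') :
    LiesOver A (below K P') := fun x => by
  show algebraMap (𝓞 K) (𝓞 F) x ∈ P'.asIdeal ↔ _
  rw [h]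
  show ((algebraMap K F (x : K) : F) : QBar) ∈ A.nonunits ↔ _
  rw [coe_algebraMap_field]

/-- The Artin function pushed through the norm. -/
def normFun (v : Prime K → H) (P' : Prime F) : H :=
  artinIdeal v (Ideal.relNorm (𝓞 K) P'.asIdeal)

theorem relNorm_prime (P' : Prime F) : ∃ f : ℕ,
    Ideal.relNorm (𝓞 K) P'.asIdeal = (below K P').asIdeal ^ f ∧
      Ideal.absNorm P'.asIdeal = Ideal.absNorm (below K P').asIdeal ^ f := by
  haveI : P'.asIdeal.IsMaximal := P'.isMaximal
  haveI : (below K P').asIdeal.IsMaximal := (below K P').isMaximal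
  haveI : P'.asIdeal.LiesOver (below K P').asIdeal := ⟨rfl⟩
  have h := Ideal.relNorm_eq_pow_of_isMaximal (R := 𝓞 K) P'.asIdeal (below K P').asIdeal
  exact ⟨_, h, by rw [← Ideal.absNorm_relNorm (R := 𝓞 K) (I := P'.asIdeal), h, map_pow]⟩

theorem artinIdeal_normFun (v : Prime K → H) {I : Ideal (𝓞 F)} (hI : I ≠ ⊥) :
    artinIdeal (normFun v) I = artinIdeal v (Ideal.relNorm (𝓞 K) I) := by
  induction I using UniqueFactorizationMonoid.induction_on_prime with
  | h₁ => exact absurd rfl hI
  | h₂ J hJ =>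
    rw [Ideal.isUnit_iff.1 hJ, artinIdeal_top, Ideal.relNorm_top, artinIdeal_top]
  | h₃ J Q hJ hQ ih =>
    have hJ' : J ≠ ⊥ := hJ
    let P' : Prime F := ⟨Q, Ideal.isPrime_of_prime hQ, hQ.ne_zero⟩
    have hQ' : Q ≠ ⊥ := hQ.ne_zero
    rw [artinIdeal_mul _ hQ' hJ', map_mul, artinIdeal_mul _
      (mt Ideal.relNorm_eq_bot_iff.1 hQ') (mt Ideal.relNorm_eq_bot_iff.1 hJ'), ih hJ']
    congr 1
    exact artinIdeal_prime (normFun v) P'

theorem artinElem_normFun (v : Prime K → H) {x : F} (hx : x ≠ 0) :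
    artinElem (normFun v) x = artinElem v (Algebra.norm K x) := by
  have hint : ∀ a : 𝓞 F, a ≠ 0 →
      artinElem (normFun v) (a : F) = artinElem v (Algebra.norm K (a : F)) := fun a ha => by
    have ha' : Algebra.intNorm (𝓞 K) (𝓞 F) a ≠ 0 := Algebra.intNorm_ne_zero.2 ha
    rw [artinElem_integral _ ha, artinIdeal_normFun v (by rwa [Ne, Ideal.span_singleton_eq_bot]),
      Ideal.relNorm_singleton, ← artinElem_integral _ ha',
      show ((Algebra.intNorm (𝓞 K) (𝓞 F) a : 𝓞 K) : K) =
        algebraMap (𝓞 K) K (Algebra.intNorm (𝓞 K) (𝓞 F) a) from rfl,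
      Algebra.algebraMap_intNorm (L := F)]
  obtain ⟨a, b, hb, h⟩ := exists_integral_mul x
  have hbK : (b : F) ≠ 0 := mt RingOfIntegers.coe_eq_zero_iff.1 hb
  have ha : a ≠ 0 := fun h0 => mul_ne_zero hx hbK (by rw [h, h0]; rfl)
  have hna : Algebra.norm K x ≠ 0 := Algebra.norm_ne_zero_iff.2 hx
  have hnb : Algebra.norm K (b : F) ≠ 0 := Algebra.norm_ne_zero_iff.2 hbK
  have h1 := hint a ha
  rw [← h, artinElem_mul _ hx hbK, map_mul, artinElem_mul _ hna hnb, hint b hb] at h1
  exact mul_right_cancel h1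

theorem isArtinFun_normFun {χ : K.fixingSubgroup →* H} {S : Finset (Prime K)}
    (hS : ∀ P ∉ S, IsUnramifiedAt χ P) {v : Prime K → H} (hv : IsArtinFun χ S v)
    (S' : Finset (Prime F)) (hS' : ∀ P' : Prime F, below K P' ∈ S → P' ∈ S') :
    IsArtinFun (restrictChar F χ) S' (normFun v) := by
  intro P' hP' A τ hτ
  have hP : below K P' ∉ S := fun h => hP' (hS' P' h)
  have hA : LiesOver A (below K P') := liesOver_below hτ.liesOver
  obtain ⟨σ, hσ⟩ := exists_isFrobOver hA
  obtain ⟨f, hf, hN⟩ := relNorm_prime (K := K) P'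
  obtain ⟨ℓ, d, hℓ, hAℓ, -, -⟩ := exists_prime_pow hA
  let σ₀ : K.fixingSubgroup := ⟨σ, hσ.fixes⟩
  let τ₀ : K.fixingSubgroup :=
    Subgroup.inclusion (fixingSubgroup_le_of_algebra (K := K) (F := F)) τ
  have hin : ((τ₀⁻¹ * σ₀ ^ f : K.fixingSubgroup) : GQ) ∈ A.inertiaSubgroupIn ℚ :=
    inv_mul_mem_inertia_of_congr hAℓ hℓ (congr_pow_iterate hσ.congr f)
      (fun x hx => hN ▸ hτ.congr x hx)
  have h := hS _ hP A hA _ hin
  rw [map_mul, map_inv, inv_mul_eq_one, map_pow] at h
  show normFun v P' = χ τ₀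
  rw [normFun, hf, artinIdeal_pow v (below K P').ne_bot, artinIdeal_prime,
    hv _ hP A σ₀ hσ, h]

theorem isUnramifiedAt_restrictChar {χ : K.fixingSubgroup →* H} {P' : Prime F}
    (h : IsUnramifiedAt χ (below K P')) : IsUnramifiedAt (restrictChar F χ) P' :=
  fun A hA _ hσ => h A (liesOver_below hA) _ hσ

theorem isFiniteLevelChar_restrictChar {χ : K.fixingSubgroup →* H} (h : IsFiniteLevelChar χ) :
    IsFiniteLevelChar (restrictChar F χ) :=
  let ⟨L, hL, hχ⟩ := h
  ⟨L, hL, fun _ hσ => hχ _ hσ⟩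

theorem finite_below_mem (S : Finset (Prime K)) :
    {P' : Prime F | below K P' ∈ S}.Finite := by
  have hsub : {P' : Prime F | below K P' ∈ S} ⊆
      ⋃ P ∈ (S : Set (Prime K)),
        {P' : Prime F | P'.asIdeal ∣ P.asIdeal.map (algebraMap (𝓞 K) (𝓞 F))} := fun P' hP' =>
    Set.mem_biUnion hP' (Ideal.dvd_iff_le.2 Ideal.map_comap_le)
  refine (S.finite_toSet.biUnion fun P _ => Ideal.finite_factors ?_).subset hsub
  rw [Ne, Ideal.zero_eq_bot, Ideal.map_eq_bot_iff_of_injective
    (FaithfulSMul.algebraMap_injective (𝓞 K) (𝓞 F))]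
  exact P.ne_bot

/-- The core at a totally complex extension, read in the base field. -/
theorem artinElem_norm_eq_one (hcore : ReciprocityCore) (hF : IsTotallyComplexIn F) {p k : ℕ}
    (hp : p = 2 ∨ p = 3) {χ : K.fixingSubgroup →* Multiplicative (ZMod (p ^ k))}
    (hχ : IsFiniteLevelChar χ) {S : Finset (Prime K)} (hS : ∀ P ∉ S, IsUnramifiedAt χ P)
    {v : Prime K → Multiplicative (ZMod (p ^ k))} (hv : IsArtinFun χ S v) {x : F} (hx : x ≠ 0)
    (hcong : ∀ P' : Prime F, below K P' ∈ S →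
      P'.valuation F (x - 1) < P'.valuation F (((p ^ k : ℕ) : F) ^ 3)) :
    artinElem v (Algebra.norm K x) = 1 := by
  rw [← artinElem_normFun v hx]
  have hmem : ∀ P' : Prime F, P' ∈ (finite_below_mem S).toFinset ↔ below K P' ∈ S :=
    fun _ => Set.Finite.mem_toFinset _
  exact hcore F hF p k hp _ (isFiniteLevelChar_restrictChar hχ) (finite_below_mem S).toFinset
    (fun P' hP' => isUnramifiedAt_restrictChar (hS _ fun h => hP' ((hmem P').2 h)))
    _ (isArtinFun_normFun hS hv _ fun P' h => (hmem P').2 h) x hx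
    fun P' hP' => hcong P' ((hmem P').1 hP')

end Fermat.Agent.CFT.Reciprocity

namespace Fermat.Agent.CFT.Reciprocity

open Fermat.Agent.Arith
open IsDedekindDomain NumberField

/-- The same with the extension given as an intermediate field over `K`. -/
theorem artinElem_norm_eq_one_over {K : IntermediateField ℚ QBar} [NumberField K]
    (hcore : ReciprocityCore) (E : IntermediateField K QBar) [FiniteDimensional K E]
    (hE : ∀ φ : QBar →+* ℂ, ∃ x ∈ E, (φ x).im ≠ 0) {p k : ℕ}
    (hp : p = 2 ∨ p = 3) {χ : K.fixingSubgroup →* Multiplicative (ZMod (p ^ k))}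
    (hχ : IsFiniteLevelChar χ) {S : Finset (Prime K)} (hS : ∀ P ∉ S, IsUnramifiedAt χ P)
    {v : Prime K → Multiplicative (ZMod (p ^ k))} (hv : IsArtinFun χ S v) {x : E} (hx : x ≠ 0)
    (hcong : ∀ P ∈ S, ∀ A : ValuationSubring QBar, LiesOver A P →
      A.valuation ((x : QBar) - 1) < A.valuation (((p ^ k : ℕ) : QBar) ^ 3)) :
    artinElem v (Algebra.norm K x) = 1 := by
  haveI : FiniteDimensional ℚ E := FiniteDimensional.trans ℚ K E
  haveI : NumberField (E.restrictScalars ℚ) :=
    { to_finiteDimensional := inferInstanceAs (FiniteDimensional ℚ E) }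
  letI : Algebra K (E.restrictScalars ℚ) := inferInstanceAs (Algebra K E)
  haveI : IsScalarTower K (E.restrictScalars ℚ) QBar :=
    IsScalarTower.of_algebraMap_eq fun _ => rfl
  refine artinElem_norm_eq_one (F := E.restrictScalars ℚ) hcore hE hp hχ hS hv hx
    fun P' hP' => ?_
  obtain ⟨A, hA⟩ := exists_liesOver P'
  rw [← valuation_lt_iff hA]
  convert hcong _ hP' A (liesOver_below hA) using 2 <;> first | rfl | simp

end Fermat.Agent.CFT.Reciprocity
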