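import Fermat.Agent.CFT.Reciprocity.HilbertAux
import Fermat.Agent.TwoAdic.Selmer.Approx

/-!
# Quadratic norms at a single odd place

`TwoAdic.Selmer.HilbertSingleInput` from `ReciprocityPositive`: divide `α` by a norm close to it at
the ramified primes and compare the Frobenius product with the orders at the remaining primes.
-/

set_option autoImplicit false
set_option linter.style.haveILetI false

noncomputable section

namespace Fermat.Agent.CFT.Reciprocity

open Fermat.Agent.Arith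
open IsDedekindDomain NumberField
open Fermat.Agent.TwoAdic.Selmer (IsNormAt HilbertSingleInput isNormAt_of_sq norm_of_congr sq_approx)
open scoped Pointwise

variable {K : IntermediateField ℚ QBar} [NumberField K]

open Classical in
/-- The quadratic character of `√β`. -/
def sqrtChar {β : K} {s : QBar} (hs : s ^ 2 = (β : QBar)) (hs0 : s ≠ 0) :
    K.fixingSubgroup →* Multiplicative (ZMod (2 ^ 1)) :=
  MonoidHom.mk' (fun σ => if (σ : GQ) s = s then 1 else Multiplicative.ofAdd 1) fun σ τ => by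
    have hsign : ∀ g : K.fixingSubgroup, (g : GQ) s = s ∨ (g : GQ) s = -s := fun g =>
      sq_eq_sq_iff_eq_or_eq_neg.1 (by
        rw [← map_pow, hs, (IntermediateField.mem_fixingSubgroup_iff _ _).1 g.2 _ β.2])
    have hne : -s ≠ s := fun h => hs0 (by linear_combination (-1 / 2 : QBar) * h)
    have hmul : ((σ * τ : K.fixingSubgroup) : GQ) s = (σ : GQ) ((τ : GQ) s) := rfl
    rcases hsign σ with h1 | h1 <;> rcases hsign τ with h2 | h2 <;>
      simp only [hmul, h1, h2, map_neg, neg_neg, hne, if_true, if_false, mul_one, one_mul] <;>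
      decide

open Classical in
theorem sqrtChar_eq_one_iff {β : K} {s : QBar} (hs : s ^ 2 = (β : QBar)) (hs0 : s ≠ 0)
    (σ : K.fixingSubgroup) : sqrtChar hs hs0 σ = 1 ↔ (σ : GQ) s = s := by
  simp only [sqrtChar, MonoidHom.mk'_apply]
  split_ifs with h
  · exact iff_of_true rfl h
  · exact iff_of_false (by decide) h

theorem sqrtChar_apply_neg {β : K} {s : QBar} (hs : s ^ 2 = (β : QBar)) (hs0 : s ≠ 0)
    {σ : K.fixingSubgroup} (h : sqrtChar hs hs0 σ ≠ 1) : (σ : GQ) s = -s :=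
  (sq_eq_sq_iff_eq_or_eq_neg.1 (by
    rw [← map_pow, hs, (IntermediateField.mem_fixingSubgroup_iff _ _).1 σ.2 _ β.2])).resolve_left
      fun h' => h ((sqrtChar_eq_one_iff hs hs0 σ).2 h')

theorem isFiniteLevelChar_sqrtChar {β : K} {s : QBar} (hs : s ^ 2 = (β : QBar)) (hs0 : s ≠ 0) :
    IsFiniteLevelChar (sqrtChar hs hs0) :=
  ⟨IntermediateField.adjoin ℚ {s},
    IntermediateField.adjoin.finiteDimensional (Algebra.IsIntegral.isIntegral s),
    fun σ h => (sqrtChar_eq_one_iff hs hs0 σ).2 (h s (IntermediateField.mem_adjoin_simple_self ℚ s))⟩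

/-- Approximation of `α` by a norm with the order of `α`. -/
theorem exists_norm_close {β α : K} {A : ValuationSubring QBar} {P : Prime K} (hA : LiesOver A P)
    (h : IsNormAt K (β : QBar) (α : QBar) A) {e : K} (he : e ≠ 0) :
    ∃ a b : K, P.valuation K (α - (a ^ 2 - β * b ^ 2)) ≤ P.valuation K e := by
  obtain ⟨a, b, ha, hb, hv⟩ := h (e : QBar) (fun h0 => he (Subtype.ext h0))
  refine ⟨⟨a, ha⟩, ⟨b, hb⟩, (valuation_le_iff hA _ _).1 ?_⟩
  push_cast
  exact hv

theorem exists_small (P : Prime K) : ∃ π : K, π ≠ 0 ∧ P.valuation K π < 1 := by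
  obtain ⟨π, hπ⟩ := P.valuation_exists_uniformizer K
  refine ⟨π, fun h => ?_, ?_⟩
  · rw [h, map_zero] at hπ; exact WithZero.exp_ne_zero hπ.symm
  · rw [hπ, ← WithZero.exp_zero, WithZero.exp_lt_exp]; norm_num

/-- Norms: positivity and closeness at finitely many primes at once. -/
theorem exists_global_norm {β α : K} (hα : α ≠ 0) (S : Finset (Prime K))
    (h : ∀ P ∈ S, ∀ e : K, e ≠ 0 →
      ∃ a b : K, P.valuation K (α - (a ^ 2 - β * b ^ 2)) ≤ P.valuation K e)
    (hsq : ∀ t : K, t ^ 2 ≠ β) :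
    ∃ a b : K, a ^ 2 - β * b ^ 2 ≠ 0 ∧
      (∀ φ : QBar →+* ℂ, (∀ x ∈ K, (φ x).im = 0) →
        0 < (φ ((a ^ 2 - β * b ^ 2 : K) : QBar)).re) ∧
      ∀ P ∈ S, P.valuation K (α - (a ^ 2 - β * b ^ 2)) < P.valuation K (64 * α) := by
  classical
  have h64 : (64 * α : K) ≠ 0 := mul_ne_zero (by norm_num) hα
  have hex : ∀ P : Prime K, ∃ a b : K, P ∈ S →
      P.valuation K (α - (a ^ 2 - β * b ^ 2)) < P.valuation K (64 * α) := fun P => by
    by_cases hP : P ∈ S
    · obtain ⟨π, hπ0, hπ⟩ := exists_small P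
      obtain ⟨a, b, hab⟩ := h P hP (π * (64 * α)) (mul_ne_zero hπ0 h64)
      refine ⟨a, b, fun _ => hab.trans_lt ?_⟩
      rw [map_mul]
      exact mul_lt_of_lt_one_left (zero_lt_iff.2 ((map_ne_zero _).2 h64)) hπ
    · exact ⟨0, 0, fun h => absurd h hP⟩
  choose aP bP hP' using hex
  set B : Prime K → WithZero (Multiplicative ℤ) := fun P =>
    max (P.valuation K (aP P)) 1 * max (P.valuation K (bP P)) 1 * max (P.valuation K β) 1 with hB
  have hB1 : ∀ P, 1 ≤ B P := fun P => one_le_mul (one_le_mul (le_max_right _ _) (le_max_right _ _))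
    (le_max_right _ _)
  set γ : Prime K → WithZero (Multiplicative ℤ) := fun P =>
    min 1 (P.valuation K (64 * α) / B P) with hγdef
  have hγ : ∀ P ∈ S, γ P ≠ 0 := fun P _ => ne_of_gt (lt_min zero_lt_one
    (div_pos (zero_lt_iff.2 ((map_ne_zero _).2 h64)) (zero_lt_one.trans_le (hB1 P))))
  obtain ⟨b, hb⟩ := exists_approx S bP γ hγ
  obtain ⟨a, ha, hab⟩ := exists_approx_bound S aP γ hγ
    (1 + ∑ ψ : K →+* ℂ, |(ψ (β * b ^ 2)).re|)
  refine ⟨a, b, fun h0 => ?_, fun φ hφ => ?_, fun P hP => ?_⟩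
  · have ha0 : a ≠ 0 := fun h => by
      obtain ⟨ψ⟩ := (inferInstance : Nonempty (K →+* ℂ))
      have := hab ψ
      rw [h, map_zero, Complex.zero_re] at this
      linarith [Finset.sum_nonneg (s := (Finset.univ : Finset (K →+* ℂ)))
        (f := fun ψ : K →+* ℂ => |(ψ (β * b ^ 2)).re|) fun _ _ => abs_nonneg _]
    rcases eq_or_ne b 0 with rfl | hb0
    · exact ha0 (pow_eq_zero_iff two_ne_zero |>.1 (by simpa using h0))
    · exact hsq (a / b) (by rw [div_pow, eq_comm, eq_div_iff (pow_ne_zero 2 hb0)]; linear_combination -h0)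
  · set ψ : K →+* ℂ := φ.comp (algebraMap K QBar)
    have h1 := hab ψ
    have h2 : |(ψ (β * b ^ 2)).re| ≤ ∑ ρ : K →+* ℂ, |(ρ (β * b ^ 2)).re| :=
      Finset.single_le_sum (f := fun ρ : K →+* ℂ => |(ρ (β * b ^ 2)).re|)
        (fun _ _ => abs_nonneg _) (Finset.mem_univ ψ)
    show 0 < (ψ (a ^ 2 - β * b ^ 2)).re
    have him : (ψ a).im = 0 := hφ _ a.2
    rw [map_sub, map_pow, Complex.sub_re, sq (ψ a), Complex.mul_re, him, mul_zero, sub_zero]
    nlinarith [le_abs_self (ψ (β * b ^ 2)).re, abs_nonneg (ψ (β * b ^ 2)).re]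
  · have hda := ha P hP
    have hdb := hb P hP
    have ha1 : P.valuation K (a - aP P) ≤ 1 := (hda.trans_le (min_le_left _ _)).le
    have hb1 : P.valuation K (b - bP P) ≤ 1 := (hdb.trans_le (min_le_left _ _)).le
    have hBpos : 0 < B P := zero_lt_one.trans_le (hB1 P)
    have hkey : ∀ d : WithZero (Multiplicative ℤ), d < γ P →
        d * B P < P.valuation K (64 * α) := fun d hd =>
      (lt_div_iff₀ hBpos).1 (hd.trans_le (min_le_right _ _))
    rw [show α - (a ^ 2 - β * b ^ 2) = α - (aP P ^ 2 - β * bP P ^ 2) - (a ^ 2 - aP P ^ 2) +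
      β * (b ^ 2 - bP P ^ 2) by ring]
    refine Valuation.map_add_lt _ (Valuation.map_sub_lt _ (hP' P hP) ?_) ?_
    · refine lt_of_le_of_lt ((valuation_sq_sub_sq_le ha1).trans (mul_le_mul_right ?_ _))
        (hkey _ hda)
      exact le_mul_of_le_of_one_le (le_mul_of_one_le_right' (le_max_right _ _)) (le_max_right _ _)
    · rw [map_mul]
      refine lt_of_le_of_lt ?_ (hkey _ hdb)
      refine (mul_le_mul' (le_max_left _ 1) (valuation_sq_sub_sq_le hb1)).trans ?_
      rw [mul_left_comm]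
      refine mul_le_mul_right ?_ _
      rw [hB, mul_comm]
      exact mul_le_mul' (le_mul_of_one_le_left' (le_max_right _ _)) le_rfl

/-- The single-place statement, from reciprocity. -/
theorem hilbertSingle_of_positive (hrec : ReciprocityPositive) : HilbertSingleInput := by
  intro F hFfin α₀ β₀ hα₀ hβ₀ hα0 hβ0 ℓ₀ A₀ hℓ₀ hℓ2 hA₀ℓ hβ1 hnorm hreal
  classical
  haveI : NumberField F := { to_finiteDimensional := hFfin }
  obtain ⟨s, hs⟩ := IsAlgClosed.exists_pow_nat_eq β₀ two_pos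
  have hs0 : s ≠ 0 := fun h => hβ0 (by rw [← hs, h, zero_pow two_ne_zero])
  by_cases hsF : s ∈ F
  · exact hs ▸ isNormAt_of_sq hα₀ hsF hs0
  set α : F := ⟨α₀, hα₀⟩
  set β : F := ⟨β₀, hβ₀⟩
  have hα : α ≠ 0 := fun h => hα0 (congrArg Subtype.val h)
  have hβ : β ≠ 0 := fun h => hβ0 (congrArg Subtype.val h)
  have hs' : s ^ 2 = (β : QBar) := hs
  have hsq : ∀ t : F, t ^ 2 ≠ β := fun t ht => by
    have h : (t : QBar) ^ 2 = s ^ 2 := by rw [hs', ← ht]; rfl
    rcases sq_eq_sq_iff_eq_or_eq_neg.1 h with h | h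
    · exact hsF (h ▸ t.2)
    · exact hsF (neg_neg s ▸ h ▸ neg_mem t.2)
  set χ := sqrtChar hs' hs0
  -- the exceptional primes
  obtain ⟨P₀, hP₀⟩ := exists_prime_liesOver (K := F) hA₀ℓ hℓ₀
  have htwo : A₀.valuation (2 : QBar) = 1 := by
    refine le_antisymm ((A₀.valuation_le_one_iff _).2 (ofNat_mem A₀ 2)) (not_lt.1 fun h => hℓ2 ?_)
    rw [← ValuationSubring.mem_nonunits_iff, ← Nat.cast_ofNat (R := QBar) (n := 2),
      natCast_mem_nonunits_iff hA₀ℓ hℓ₀] at h
    exact (Nat.prime_dvd_prime_iff_eq hℓ₀ Nat.prime_two).1 h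
  have hfinS : {P : Prime F | P.valuation F β ≠ 1 ∨ P.valuation F (2 : F) ≠ 1}.Finite :=
    ((finite_valuation_ne_one hβ).union (finite_valuation_ne_one (two_ne_zero (α := F)))).subset
      fun P hP => hP
  set S := hfinS.toFinset with hSdef
  have hS : ∀ P, P ∉ S → P.valuation F β = 1 ∧ P.valuation F (2 : F) = 1 := fun P hP => by
    simpa [hSdef] using hP
  have h2c : ((2 : F) : QBar) = 2 := map_ofNat (algebraMap F QBar) 2
  have hPS : ∀ P ∉ S, ∀ A : ValuationSubring QBar, LiesOver A P →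
      A.valuation s = 1 ∧ A.valuation (2 : QBar) = 1 := fun P hP A hA => by
    refine ⟨?_, h2c ▸ (valuation_eq_one_iff hA (2 : F)).2 (hS P hP).2⟩
    have h : A.valuation (s ^ 2) = 1 := by rw [hs']; exact (valuation_eq_one_iff hA β).2 (hS P hP).1
    rw [map_pow] at h
    exact (pow_eq_one_iff.1 h).resolve_right two_ne_zero
  have hP₀S : P₀ ∉ S := by
    simp only [hSdef, Set.Finite.mem_toFinset, Set.mem_ofPred_eq, not_or, not_not]
    exact ⟨(valuation_eq_one_iff hP₀ β).1 hβ1, (valuation_eq_one_iff hP₀ (2 : F)).1 (by rw [h2c]; exact htwo)⟩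
  have hur : ∀ P ∉ S, IsUnramifiedAt χ P := fun P hP A hA σ hσ => by
    obtain ⟨ℓ, f, hℓ, hAℓ, -, -⟩ := exists_prime_pow hA
    refine (sqrtChar_eq_one_iff hs' hs0 σ).2 (Fermat.Agent.TwoAdic.Selmer.apply_sqrt_of_unit hAℓ hℓ ?_
      (by rw [map_pow, (hPS P hP A hA).1, one_pow]) hσ ?_)
    · rintro rfl
      have h := (ValuationSubring.mem_nonunits_iff A).1 hAℓ
      rw [Nat.cast_ofNat, (hPS P hP A hA).2] at h
      exact lt_irrefl _ h
    · rw [hs']; exact (IntermediateField.mem_fixingSubgroup_iff _ _).1 σ.2 _ β.2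
  obtain ⟨v, hv⟩ := exists_isArtinFun χ S hur
  -- places away from the orbit
  have hoff : ∀ P ≠ P₀, ∀ A : ValuationSubring QBar, LiesOver A P →
      IsNormAt F (β : QBar) (α : QBar) A := fun P hP A hA => by
    obtain ⟨ℓ, f, hℓ, hAℓ, -, -⟩ := exists_prime_pow hA
    exact hnorm ℓ A hℓ hAℓ fun g hg hgA => hP (liesOver_unique (hgA ▸ liesOver_smul hA hg) hP₀)
  obtain ⟨a, b, hN0, hNpos, hNS⟩ := exists_global_norm (β := β) hα S (fun P hP e he => by
    obtain ⟨A, hA⟩ := exists_liesOver P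
    exact exists_norm_close hA (hoff P (fun h => hP₀S (h ▸ hP)) A hA) he) hsq
  set N : F := a ^ 2 - β * b ^ 2
  set y : F := α / N with hydef
  have hy : y ≠ 0 := div_ne_zero hα hN0
  have hval64 : ∀ P : Prime F, P.valuation F (64 * α) ≤ P.valuation F α := fun P => by
    rw [map_mul]; exact mul_le_of_le_one_left' (P.valuation_le_one 64)
  have hvN : ∀ P ∈ S, P.valuation F N = P.valuation F α := fun P hP =>
    valuation_eq_of_sub_lt ((hNS P hP).trans_le (hval64 P))
  have hy1 : artinElem v y = 1 := by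
    refine hrec F 2 1 (Or.inl rfl) χ (isFiniteLevelChar_sqrtChar hs' hs0) S hur v hv y hy ?_ ?_
    · intro φ hφ
      have hα' := (hreal φ hφ).1
      have hN' := hNpos φ hφ
      rw [hydef, IntermediateField.coe_div, map_div₀]
      have e1 : φ (α : QBar) = ((φ α₀).re : ℂ) := Complex.ext rfl (hφ _ α.2)
      have e2 : φ (N : QBar) = ((φ (N : QBar)).re : ℂ) := Complex.ext rfl (hφ _ N.2)
      rw [e1, e2, ← Complex.ofReal_div, Complex.ofReal_re]
      exact div_pos hα' hN'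
    · intro P hP
      rw [hydef, div_sub_one hN0, map_div₀, hvN P hP, div_lt_iff₀ (zero_lt_iff.2 ((map_ne_zero _).2 hα)),
        ← map_mul]
      convert hNS P hP using 2
      norm_num
  -- parity at the inert primes
  have hpar : ∀ P ∉ S, v P ≠ 1 → ∀ c d : F,
      ∃ e : F, P.valuation F (c ^ 2 - β * d ^ 2) = P.valuation F e ^ 2 := fun P hP hvP c d => by
    obtain ⟨A, hA⟩ := exists_liesOver P
    obtain ⟨σ, hσ⟩ := exists_isFrobOver hA
    rw [hv P hP A ⟨σ, hσ.fixes⟩ hσ] at hvP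
    exact exists_valuation_norm_eq_sq hA hσ.fixes hσ.stabilizes hs'
      (sqrtChar_apply_neg hs' hs0 hvP) (hPS P hP A hA).1 (hPS P hP A hA).2 c d
  have hsingle : ∀ P ≠ P₀, v P ^ (-(WithZero.log (P.valuation F y)) : ℤ) = 1 := fun P hP => by
    by_cases hPS' : P ∈ S
    · rw [hydef, map_div₀, hvN P hPS', div_self ((map_ne_zero _).2 hα), WithZero.log_one, neg_zero,
        zpow_zero]
    by_cases hvP : v P = 1
    · rw [hvP, one_zpow]
    obtain ⟨A, hA⟩ := exists_liesOver P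
    obtain ⟨π, hπ0, hπ⟩ := exists_small P
    obtain ⟨a', b', hab⟩ := exists_norm_close hA (hoff P hP A hA) (mul_ne_zero hπ0 hα)
    have hlt : P.valuation F (α - (a' ^ 2 - β * b' ^ 2)) < P.valuation F α := by
      refine hab.trans_lt ?_
      rw [map_mul]
      exact mul_lt_of_lt_one_left (zero_lt_iff.2 ((map_ne_zero _).2 hα)) hπ
    obtain ⟨c, hc⟩ := hpar P hPS' hvP a' b'
    obtain ⟨d, hd⟩ := hpar P hPS' hvP a b
    rw [valuation_eq_of_sub_lt hlt] at hc
    refine zpow_eq_one_of_even _ ?_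
    rw [hydef, map_div₀, hc, show P.valuation F N = P.valuation F d ^ 2 from hd, ← div_pow,
      WithZero.log_pow, two_nsmul, neg_add]
    exact ⟨_, rfl⟩
  rw [artinElem_eq_single v y P₀ hsingle] at hy1
  -- the place A₀
  have hA₀s := hPS P₀ hP₀S A₀ hP₀
  have hβP : P₀.valuation F β = 1 := (hS P₀ hP₀S).1
  have h2P : P₀.valuation F (2 : F) = 1 := (hS P₀ hP₀S).2
  have h4 : A₀.valuation (4 : QBar) = 1 := by
    rw [show (4 : QBar) = 2 * 2 by norm_num, map_mul, hA₀s.2, one_mul]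
  by_cases hvP : v P₀ = 1
  · -- β is close to a square
    obtain ⟨σ, hσ⟩ := exists_isFrobOver hP₀
    rw [hv P₀ hP₀S A₀ ⟨σ, hσ.fixes⟩ hσ, sqrtChar_eq_one_iff] at hvP
    obtain ⟨t, ht⟩ := exists_sq_close hσ h2P hβP hs' hvP
    have ht2 : P₀.valuation F (t ^ 2) = 1 := by
      rw [← hβP]; exact valuation_eq_of_sub_lt (by rwa [hβP])
    have ht1 : A₀.valuation (t : QBar) = 1 := by
      have h := (valuation_eq_one_iff hP₀ (t ^ 2)).2 ht2
      rw [IntermediateField.coe_pow, map_pow] at h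
      exact (pow_eq_one_iff.1 h).resolve_right two_ne_zero
    have ht0 : (t : QBar) ≠ 0 := fun h => by rw [h, map_zero] at ht1; exact zero_ne_one ht1
    rcases eq_or_ne α₀ 1 with hα1 | hα1
    · exact fun ε _ => ⟨1, 0, one_mem F, zero_mem F, by rw [hα1]; simp⟩
    -- precision
    obtain ⟨π, hπ0, hπ⟩ := exists_small P₀
    have hπ' : A₀.valuation (π : QBar) < 1 := by
      simpa using (valuation_lt_iff hP₀ π 1).2 (by simpa using hπ)
    have hπ0' : (π : QBar) ≠ 0 := fun h => hπ0 (Subtype.ext h)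
    obtain ⟨ε, hε0, hε1, hε2⟩ : ∃ ε : QBar, ε ≠ 0 ∧ A₀.valuation ε < 1 ∧
        A₀.valuation ε * A₀.valuation (α₀ - 1) ^ 2 < A₀.valuation α₀ := by
      have hd : (π : QBar) * α₀ / (α₀ - 1) ^ 2 ≠ 0 :=
        div_ne_zero (mul_ne_zero hπ0' hα0) (pow_ne_zero 2 (sub_ne_zero.2 hα1))
      have hpos : 0 < A₀.valuation (α₀ - 1) ^ 2 :=
        pow_pos (zero_lt_iff.2 ((Valuation.ne_zero_iff _).2 (sub_ne_zero.2 hα1))) _
      have hlt : A₀.valuation ((π : QBar) * α₀ / (α₀ - 1) ^ 2) * A₀.valuation (α₀ - 1) ^ 2 <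
          A₀.valuation α₀ := by
        rw [← map_pow, ← map_mul, div_mul_cancel₀ _ (pow_ne_zero 2 (sub_ne_zero.2 hα1)), map_mul]
        exact mul_lt_of_lt_one_left (zero_lt_iff.2 ((Valuation.ne_zero_iff _).2 hα0)) hπ'
      rcases le_total (A₀.valuation (π : QBar)) (A₀.valuation ((π : QBar) * α₀ / (α₀ - 1) ^ 2)) with
        h | h
      · exact ⟨_, hπ0', hπ', lt_of_le_of_lt (mul_le_mul_left h _) hlt⟩
      · exact ⟨_, hd, h.trans_lt hπ', hlt⟩
    have hu : A₀.valuation (β₀ / (t : QBar) ^ 2 - 1) < A₀.valuation (4 : QBar) := by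
      rw [div_sub_one (pow_ne_zero 2 ht0), map_div₀, map_pow, ht1, one_pow, div_one, h4]
      have h := (valuation_lt_iff hP₀ (β - t ^ 2) 1).2 (by rwa [map_one])
      simpa using h
    obtain ⟨c, hcF, hc⟩ := sq_approx hA₀ℓ hℓ₀ (div_mem hβ₀ (pow_mem t.2 2)) hu hε0
    have hce : β₀ - ((t : QBar) * c) ^ 2 = (t : QBar) ^ 2 * (β₀ / (t : QBar) ^ 2 - c ^ 2) := by
      field_simp
    have hcb : A₀.valuation (β₀ - ((t : QBar) * c) ^ 2) ≤ A₀.valuation ε := by
      rw [hce, map_mul, map_pow, ht1, one_pow, one_mul]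
      exact hc
    have hc1 : A₀.valuation ((t : QBar) * c) = 1 := by
      have h := Valuation.map_sub_eq_of_lt_left A₀.valuation
        (show A₀.valuation (β₀ - ((t : QBar) * c) ^ 2) < A₀.valuation β₀ by
          rw [hβ1]; exact hcb.trans_lt hε1)
      rw [sub_sub_cancel, hβ1, map_pow] at h
      exact (pow_eq_one_iff.1 h).resolve_right two_ne_zero
    have hc0 : (t : QBar) * c ≠ 0 := fun h => by rw [h, map_zero] at hc1; exact zero_ne_one hc1
    refine norm_of_congr hA₀ℓ hℓ₀ hα₀ hβ₀ (a := (α₀ + 1) / 2) (b := (α₀ - 1) / (2 * ((t : QBar) * c)))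
      (div_mem (add_mem hα₀ (one_mem F)) (ofNat_mem F 2))
      (div_mem (sub_mem hα₀ (one_mem F)) (mul_mem (ofNat_mem F 2) (mul_mem t.2 hcF))) ?_
    have hid : ∀ r w : QBar, r ≠ 0 →
        α₀ - (((α₀ + 1) / 2) ^ 2 - w * ((α₀ - 1) / (2 * r)) ^ 2) =
          (w - r ^ 2) * ((α₀ - 1) / (2 * r)) ^ 2 := fun r w hr => by
      field_simp
      ring
    rw [hid _ _ hc0, map_mul, map_pow, map_div₀, map_mul A₀.valuation (2 : QBar), hA₀s.2, hc1,
      one_mul, div_one, map_mul A₀.valuation (4 : QBar), h4, one_mul]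
    exact (mul_le_mul_left hcb _).trans_lt hε2
  · -- α has even order
    have hev := even_of_zpow_eq_one hvP hy1
    obtain ⟨d, hd⟩ := hpar P₀ hP₀S hvP a b
    obtain ⟨j, hj⟩ := hev
    obtain ⟨g, hg⟩ : ∃ g : F, P₀.valuation F g ^ 2 = P₀.valuation F α := by
      obtain ⟨e, he⟩ := P₀.valuation_surjective F (WithZero.exp (-j))
      refine ⟨e * d, ?_⟩
      rw [map_mul, mul_pow, he, ← hd, ← WithZero.exp_nsmul, two_nsmul, ← neg_add, ← hj, neg_neg,
        WithZero.exp_log ((map_ne_zero _).2 hy), ← map_mul, hydef]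
      congr 1
      exact div_mul_cancel₀ _ hN0
    have hg0 : g ≠ 0 := fun h => by
      rw [h, map_zero, zero_pow two_ne_zero, eq_comm, map_eq_zero] at hg
      exact hα hg
    set u : F := α / g ^ 2 with hudef
    have hu : P₀.valuation F u = 1 := by
      rw [hudef, map_div₀, map_pow, hg, div_self ((map_ne_zero _).2 hα)]
    obtain ⟨c, e, hce⟩ := exists_unit_norm h2P hβP hu.le
    have h := (valuation_lt_iff hP₀ (u - (c ^ 2 - β * e ^ 2)) u).2 (by rwa [hu])
    push_cast at h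
    have key : IsNormAt F (β : QBar) (u : QBar) A₀ := norm_of_congr hA₀ℓ hℓ₀ u.2 β.2 c.2 e.2
      (by rwa [map_mul, h4, one_mul])
    have h' := key.mul_sq g.2 (fun h => hg0 (Subtype.ext h))
    have e : (u : QBar) * (g : QBar) ^ 2 = α₀ := by
      rw [hudef]; push_cast
      exact div_mul_cancel₀ _ (pow_ne_zero 2 fun h => hg0 (Subtype.ext h))
    rwa [e] at h'

theorem hilbertSingle_of_core (hcore : ReciprocityCore) : HilbertSingleInput :=
  hilbertSingle_of_positive (reciprocityPositive_of_core hcore)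

end Fermat.Agent.CFT.Reciprocity
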