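import Fermat.Agent.CFT.Reciprocity.Positive
import Mathlib.RingTheory.DedekindDomain.Ideal.Lemmas
import Mathlib.FieldTheory.Finite.Basic

/-!
# Local lemmas for quadratic norms

Approximation at finitely many primes with a lower bound at all embeddings, parity of the order
of a norm at an inert prime, and quadratic forms over the residue field at an odd prime.
-/

set_option autoImplicit false
set_option linter.style.haveILetI false

noncomputable section

namespace Fermat.Agent.CFT.Reciprocity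

open Fermat.Agent.Arith
open IsDedekindDomain NumberField
open scoped Pointwise nonZeroDivisors Polynomial

variable {K : IntermediateField ℚ QBar} [NumberField K]

/-- Weak approximation at finitely many primes. -/
theorem exists_approx (S : Finset (Prime K)) (a : Prime K → K) (γ : Prime K → WithZero (Multiplicative ℤ))
    (hγ : ∀ P ∈ S, γ P ≠ 0) : ∃ x : K, ∀ P ∈ S, P.valuation K (x - a P) < γ P := by
  classical
  obtain ⟨b, hb⟩ := IsLocalization.exist_integer_multiples_of_finset (𝓞 K)⁰ (S.image a)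
  have hb' : ∀ P : Prime K, ∃ n : 𝓞 K, P ∈ S → (n : K) = ((b : 𝓞 K) : K) * a P := fun P => by
    by_cases hP : P ∈ S
    · obtain ⟨n, hn⟩ := hb (a P) (Finset.mem_image_of_mem a hP)
      exact ⟨n, fun _ => hn.trans (Algebra.smul_def _ _)⟩
    · exact ⟨0, fun h => absurd h hP⟩
  choose n hn using hb'
  have hb0 : ((b : 𝓞 K) : K) ≠ 0 :=
    mt RingOfIntegers.coe_eq_zero_iff.1 (nonZeroDivisors.ne_zero b.2)
  let e : Prime K → ℕ := fun P =>
    (WithZero.log (γ P * P.valuation K ((b : 𝓞 K) : K))).natAbs + 1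
  obtain ⟨y, hy⟩ := IsDedekindDomain.exists_forall_sub_mem_ideal (s := S) (fun P => P.asIdeal) e
    (fun P _ => P.prime) (fun P _ Q _ h => fun h' => h (HeightOneSpectrum.ext h'))
    fun P => n P
  refine ⟨(y : K) / ((b : 𝓞 K) : K), fun P hP => ?_⟩
  have h1 : P.valuation K (algebraMap (𝓞 K) K (y - n P)) ≤ WithZero.exp (-(e P : ℤ)) := by
    rw [P.valuation_of_algebraMap]
    exact (P.intValuation_le_pow_iff_mem _ _).2 (hy P hP)
  have h0 : γ P * P.valuation K ((b : 𝓞 K) : K) ≠ 0 :=
    mul_ne_zero (hγ P hP) ((map_ne_zero _).2 hb0)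
  have h2 : P.valuation K (algebraMap (𝓞 K) K (y - n P)) < γ P * P.valuation K ((b : 𝓞 K) : K) := by
    refine h1.trans_lt ?_
    rw [← WithZero.exp_log h0, WithZero.exp_lt_exp]
    simp only [e]
    omega
  rw [map_sub (algebraMap (𝓞 K) K), show algebraMap (𝓞 K) K (n P) = (n P : K) from rfl,
    hn P hP] at h2
  rw [div_sub' hb0, map_div₀, div_lt_iff₀ (zero_lt_iff.2 ((map_ne_zero _).2 hb0))]
  exact h2

/-- Weak approximation together with a lower bound at every complex embedding. -/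
theorem exists_approx_bound (S : Finset (Prime K)) (a : Prime K → K)
    (γ : Prime K → WithZero (Multiplicative ℤ)) (hγ : ∀ P ∈ S, γ P ≠ 0) (B : ℝ) :
    ∃ x : K, (∀ P ∈ S, P.valuation K (x - a P) < γ P) ∧ ∀ ψ : K →+* ℂ, B < (ψ x).re := by
  classical
  obtain ⟨x₀, hx₀⟩ := exists_approx S a γ hγ
  have hg : ∀ P : Prime K, ∃ g : K, P ∈ S → P.valuation K g = γ P := fun P =>
    let ⟨g, hg⟩ := P.valuation_surjective K (γ P)
    ⟨g, fun _ => hg⟩
  choose g hg using hg
  obtain ⟨M, hM0, hM⟩ := exists_valuation_natCast_lt S g fun P hP h =>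
    hγ P hP (by rw [← hg P hP, h, map_zero])
  obtain ⟨T, hT⟩ := exists_nat_gt (|B| + ∑ ψ : K →+* ℂ, |(ψ x₀).re|)
  refine ⟨x₀ + ((M * T : ℕ) : K), fun P hP => ?_, fun ψ => ?_⟩
  · rw [add_sub_right_comm]
    refine Valuation.map_add_lt _ (hx₀ P hP) (lt_of_le_of_lt ?_ (hg P hP ▸ hM P hP))
    rw [Nat.cast_mul, map_mul]
    refine mul_le_of_le_one_right' ?_
    rw [← map_natCast (algebraMap (𝓞 K) K)]
    exact P.valuation_le_one _
  · have h1 : |(ψ x₀).re| ≤ ∑ φ : K →+* ℂ, |(φ x₀).re| :=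
      Finset.single_le_sum (f := fun φ : K →+* ℂ => |(φ x₀).re|) (fun _ _ => abs_nonneg _)
        (Finset.mem_univ ψ)
    have h2 : (T : ℝ) ≤ ((M * T : ℕ) : ℝ) := by exact_mod_cast Nat.le_mul_of_pos_left T hM0
    rw [map_add, map_natCast, Complex.add_re, Complex.natCast_re]
    linarith [le_abs_self B, neg_abs_le (ψ x₀).re]

/-- An element congruent more closely than itself has the same valuation. -/
theorem valuation_eq_of_sub_lt {P : Prime K} {x y : K}
    (h : P.valuation K (x - y) < P.valuation K x) : P.valuation K y = P.valuation K x := by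
  have h' := Valuation.map_sub_eq_of_lt_left (P.valuation K) h
  rwa [sub_sub_cancel] at h'

/-- Continuity of squares. -/
theorem valuation_sq_sub_sq_le {P : Prime K} {x a : K} (h : P.valuation K (x - a) ≤ 1) :
    P.valuation K (x ^ 2 - a ^ 2) ≤ P.valuation K (x - a) * max (P.valuation K a) 1 := by
  have h2 : P.valuation K (2 : K) ≤ 1 := P.valuation_le_one 2
  rw [show x ^ 2 - a ^ 2 = (x - a) * ((x - a) + 2 * a) by ring, map_mul]
  refine mul_le_mul_right ((Valuation.map_add _ _ _).trans (max_le ?_ ?_)) _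
  · exact h.trans (le_max_right _ _)
  · rw [map_mul]
    exact (mul_le_mul' h2 le_rfl).trans ((one_mul _).le.trans (le_max_left _ _))

theorem sub_lt_of_stable {A : ValuationSubring QBar} {σ : GQ} (hA : σ • A = A) {x : QBar}
    (h : A.valuation x < 1) : A.valuation (σ x) < 1 := by
  rw [← ValuationSubring.mem_nonunits_iff] at h ⊢
  have h' := (smul_mem_nonunits_smul_iff (g := σ)).2 h
  rw [hA] at h'
  exact h'

/-- The order of a norm from an inert extension is even. -/
theorem exists_valuation_norm_eq_sq {P : Prime K} {A : ValuationSubring QBar} (hA : LiesOver A P)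
    {σ : GQ} (hσ : σ ∈ K.fixingSubgroup) (hσA : σ • A = A) {β : K} {s : QBar}
    (hs : s ^ 2 = (β : QBar)) (hσs : σ s = -s) (hs1 : A.valuation s = 1)
    (h2 : A.valuation (2 : QBar) = 1) (a b : K) :
    ∃ c : K, P.valuation K (a ^ 2 - β * b ^ 2) = P.valuation K c ^ 2 := by
  rcases eq_or_ne b 0 with rfl | hb
  · exact ⟨a, by rw [zero_pow two_ne_zero, mul_zero, sub_zero, map_pow]⟩
  set t := a / b with ht
  have e : a ^ 2 - β * b ^ 2 = b ^ 2 * (t ^ 2 - β) := by rw [ht]; field_simp
  have hβ : P.valuation K β = 1 := (valuation_eq_one_iff hA β).1 (by rw [← hs, map_pow, hs1, one_pow])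
  rcases le_or_gt (P.valuation K t) 1 with h | h
  · refine ⟨b, ?_⟩
    rw [e, map_mul, map_pow]
    suffices P.valuation K (t ^ 2 - β) = 1 by rw [this, mul_one]
    rw [← valuation_eq_one_iff hA]
    have htA : A.valuation (t : QBar) ≤ 1 :=
      (A.valuation_le_one_iff _).2 ((mem_iff_valuation_le_one hA t).2 h)
    have hm : A.valuation ((t : QBar) - s) ≤ 1 :=
      (Valuation.map_sub _ _ _).trans (max_le htA hs1.le)
    have hp : A.valuation ((t : QBar) + s) ≤ 1 :=
      (Valuation.map_add _ _ _).trans (max_le htA hs1.le)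
    have hσt : σ (t : QBar) = t := (IntermediateField.mem_fixingSubgroup_iff _ _).1 hσ _ t.2
    have both : A.valuation ((t : QBar) - s) < 1 ↔ A.valuation ((t : QBar) + s) < 1 := by
      constructor <;> intro hlt <;> have h' := sub_lt_of_stable hσA hlt
      · rwa [map_sub, hσt, hσs, sub_neg_eq_add] at h'
      · rwa [map_add, hσt, hσs, ← sub_eq_add_neg] at h'
    have hcontra : ¬ A.valuation ((t : QBar) - s) < 1 := fun hlt => by
      have h' := Valuation.map_sub_lt A.valuation (both.1 hlt) hlt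
      rw [show (t : QBar) + s - ((t : QBar) - s) = 2 * s by ring, map_mul, h2, hs1, one_mul] at h'
      exact lt_irrefl _ h'
    rw [show ((t ^ 2 - β : K) : QBar) = ((t : QBar) - s) * ((t : QBar) + s) by
      push_cast; rw [← hs]; ring, map_mul, le_antisymm hm (not_lt.1 hcontra), one_mul]
    exact le_antisymm hp (not_lt.1 fun hlt => hcontra (both.2 hlt))
  · refine ⟨b * t, ?_⟩
    rw [e, map_mul, Valuation.map_sub_eq_of_lt_left, map_mul, mul_pow, map_pow, map_pow]
    rw [hβ, map_pow]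
    exact one_lt_pow₀ h two_ne_zero

/-- Residues of integral elements. -/
theorem exists_integer_close (P : Prime K) {x : K} (hx : P.valuation K x ≤ 1) :
    ∃ n : 𝓞 K, P.valuation K (x - (n : K)) < 1 := by
  obtain ⟨n, hn⟩ := P.exists_valuation_sub_lt_of_integer hx 1
  exact ⟨n, by rwa [Valuation.map_sub_swap, Units.val_one] at hn⟩

theorem valuation_coe_lt_one_iff (P : Prime K) (n : 𝓞 K) :
    P.valuation K (n : K) < 1 ↔ n ∈ P.asIdeal :=
  P.valuation_lt_one_iff_mem n

/-- At an odd prime every unit is congruent to a norm. -/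
theorem exists_unit_norm {P : Prime K} (h2 : P.valuation K (2 : K) = 1) {β u : K}
    (hβ : P.valuation K β = 1) (hu : P.valuation K u ≤ 1) :
    ∃ a b : K, P.valuation K (u - (a ^ 2 - β * b ^ 2)) < 1 := by
  classical
  obtain ⟨β', hβ'⟩ := exists_integer_close P hβ.le
  obtain ⟨u', hu'⟩ := exists_integer_close P hu
  haveI : P.asIdeal.IsMaximal := P.isMaximal
  letI := Ideal.Quotient.field P.asIdeal
  haveI : Finite (𝓞 K ⧸ P.asIdeal) := Ideal.finiteQuotientOfFreeOfNeBot _ P.ne_bot
  letI := Fintype.ofFinite (𝓞 K ⧸ P.asIdeal)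
  have hβ0 : Ideal.Quotient.mk P.asIdeal β' ≠ 0 := fun h0 => by
    rw [Ideal.Quotient.eq_zero_iff_mem, ← valuation_coe_lt_one_iff] at h0
    have h := Valuation.map_add_lt _ hβ' h0
    rw [sub_add_cancel, hβ] at h
    exact lt_irrefl _ h
  have h20 : (2 : 𝓞 K ⧸ P.asIdeal) ≠ 0 := fun h0 => by
    rw [← map_ofNat (Ideal.Quotient.mk P.asIdeal), Ideal.Quotient.eq_zero_iff_mem,
      ← valuation_coe_lt_one_iff] at h0
    rw [show ((OfNat.ofNat 2 : 𝓞 K) : K) = 2 from map_ofNat (algebraMap (𝓞 K) K) 2, h2] at h0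
    exact lt_irrefl _ h0
  have hchar : ringChar (𝓞 K ⧸ P.asIdeal) ≠ 2 := fun hc => h20 (by
    have := ringChar.Nat.cast_ringChar (R := 𝓞 K ⧸ P.asIdeal)
    rw [hc] at this
    exact_mod_cast this)
  obtain ⟨x, y, hxy⟩ := FiniteField.exists_root_sum_quadratic
    (f := (Polynomial.X ^ 2 - Polynomial.C (Ideal.Quotient.mk P.asIdeal u')))
    (g := Polynomial.C (-(Ideal.Quotient.mk P.asIdeal β')) * Polynomial.X ^ 2)
    (Polynomial.degree_X_pow_sub_C (by norm_num) _)
    (Polynomial.degree_C_mul_X_pow 2 (neg_ne_zero.2 hβ0))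
    (FiniteField.odd_card_of_char_ne_two hchar)
  obtain ⟨a, rfl⟩ := Ideal.Quotient.mk_surjective x
  obtain ⟨b, rfl⟩ := Ideal.Quotient.mk_surjective y
  refine ⟨(a : K), (b : K), ?_⟩
  have h3 : a ^ 2 - β' * b ^ 2 - u' ∈ P.asIdeal := by
    rw [← Ideal.Quotient.eq_zero_iff_mem, ← hxy]
    simp only [Polynomial.eval_sub, Polynomial.eval_pow, Polynomial.eval_X, Polynomial.eval_C,
      Polynomial.eval_mul, map_sub, map_mul, map_pow]
    ring
  rw [← valuation_coe_lt_one_iff] at h3
  push_cast at h3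
  have e : u - ((a : K) ^ 2 - β * (b : K) ^ 2) =
      (u - (u' : K)) + ((β - (β' : K)) * (b : K) ^ 2) - ((a : K) ^ 2 - (β' : K) * (b : K) ^ 2 - (u' : K)) := by
    ring
  rw [e]
  refine Valuation.map_sub_lt _ (Valuation.map_add_lt _ hu' ?_) h3
  rw [map_mul, map_pow]
  exact lt_of_le_of_lt (mul_le_of_le_one_right' (pow_le_one' (P.valuation_le_one b) 2)) hβ'

/-- If the Frobenius fixes `√β`, then `β` is congruent to a square. -/
theorem exists_sq_close {P : Prime K} {A : ValuationSubring QBar} {σ : GQ}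
    (hσ : IsFrobOver A P σ) (h2 : P.valuation K (2 : K) = 1) {β : K}
    (hβ : P.valuation K β = 1) {s : QBar} (hs : s ^ 2 = (β : QBar)) (hσs : σ s = s) :
    ∃ t : K, P.valuation K (β - t ^ 2) < 1 := by
  classical
  have hA := hσ.liesOver
  obtain ⟨n, ⟨d, hd⟩, hnd⟩ := P.exists_primeCompl_mul_eq_of_integer β hβ.le
  have hd1 : P.valuation K (d : K) = 1 := (P.valuation_eq_one_iff_notMem).2 hd
  have hd0 : (d : K) ≠ 0 := fun h => by rw [h, map_zero] at hd1; exact zero_ne_one hd1
  set x : 𝓞 K := n * d with hxdef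
  have hx : (x : K) = β * (d : K) ^ 2 := by
    have hnd' : β * (d : K) = (n : K) := hnd
    rw [hxdef, show ((n * d : 𝓞 K) : K) = (n : K) * (d : K) from rfl, ← hnd']
    ring
  set s' : QBar := s * ((d : K) : QBar) with hs'def
  have hs' : s' ^ 2 = ((x : K) : QBar) := by
    rw [hs'def, hx]; push_cast; rw [← hs]; ring
  have hs'int : IsIntegral ℤ s' := IsIntegral.of_pow two_pos
    (hs' ▸ (x.2 : IsIntegral ℤ (x : K)).map (K.val.toRingHom.toIntAlgHom))
  have hs'1 : A.valuation s' = 1 := by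
    have h := congrArg A.valuation hs'
    rw [map_pow, (valuation_eq_one_iff hA (x : K)).2 (by rw [hx, map_mul, map_pow, hβ, hd1, one_pow, one_mul])] at h
    exact (pow_eq_one_iff.1 h).resolve_right two_ne_zero
  haveI : P.asIdeal.IsMaximal := P.isMaximal
  letI := Ideal.Quotient.field P.asIdeal
  haveI : Finite (𝓞 K ⧸ P.asIdeal) := Ideal.finiteQuotientOfFreeOfNeBot _ P.ne_bot
  letI := Fintype.ofFinite (𝓞 K ⧸ P.asIdeal)
  have h20 : (2 : 𝓞 K ⧸ P.asIdeal) ≠ 0 := fun h0 => by
    rw [← map_ofNat (Ideal.Quotient.mk P.asIdeal), Ideal.Quotient.eq_zero_iff_mem,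
      ← valuation_coe_lt_one_iff] at h0
    rw [show ((OfNat.ofNat 2 : 𝓞 K) : K) = 2 from map_ofNat (algebraMap (𝓞 K) K) 2, h2] at h0
    exact lt_irrefl _ h0
  have hchar : ringChar (𝓞 K ⧸ P.asIdeal) ≠ 2 := fun hc => h20 (by
    have := ringChar.Nat.cast_ringChar (R := 𝓞 K ⧸ P.asIdeal)
    rw [hc] at this
    exact_mod_cast this)
  set q := Ideal.absNorm P.asIdeal with hq
  have hcard : Fintype.card (𝓞 K ⧸ P.asIdeal) = q := by
    rw [hq, Ideal.absNorm_apply, Submodule.cardQuot_apply, Nat.card_eq_fintype_card]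
  have hodd : q % 2 = 1 := hcard ▸ FiniteField.odd_card_of_char_ne_two hchar
  have hx0 : Ideal.Quotient.mk P.asIdeal x ≠ 0 := fun h0 => by
    rw [Ideal.Quotient.eq_zero_iff_mem, ← valuation_coe_lt_one_iff, hx, map_mul, map_pow, hβ, hd1,
      one_pow, one_mul] at h0
    exact lt_irrefl _ h0
  have hsq : IsSquare (Ideal.Quotient.mk P.asIdeal x) := by
    rw [FiniteField.isSquare_iff hchar hx0, hcard, ← map_pow, ← map_one (Ideal.Quotient.mk P.asIdeal),
      Ideal.Quotient.eq, hA]
    have hfix : σ s' = s' := by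
      rw [hs'def, map_mul, hσs, (IntermediateField.mem_fixingSubgroup_iff _ _).1 hσ.fixes _ (d : K).2]
    have h := hσ.congr s' hs'int
    rw [hfix, ← hq] at h
    have e : s' ^ q = s' * ((x : K) : QBar) ^ (q / 2) := by
      rw [← hs', ← pow_mul, ← pow_succ']
      congr 1
      omega
    rw [e, show s' - s' * ((x : K) : QBar) ^ (q / 2) = s' * (1 - ((x : K) : QBar) ^ (q / 2)) by ring,
      ValuationSubring.mem_nonunits_iff, map_mul, hs'1, one_mul, Valuation.map_sub_swap,
      ← ValuationSubring.mem_nonunits_iff] at h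
    simpa using h
  obtain ⟨z, hz⟩ := hsq
  obtain ⟨t, rfl⟩ := Ideal.Quotient.mk_surjective z
  rw [← map_mul, Ideal.Quotient.eq, ← valuation_coe_lt_one_iff] at hz
  refine ⟨(t : K) / (d : K), ?_⟩
  have e : β - ((t : K) / (d : K)) ^ 2 = ((x - t * t : 𝓞 K) : K) / (d : K) ^ 2 := by
    rw [show ((x - t * t : 𝓞 K) : K) = (x : K) - (t : K) * (t : K) from rfl, hx]
    field_simp
  rw [e, map_div₀, map_pow, hd1, one_pow, div_one]
  exact hz

/-- Exponent two. -/
theorem zpow_eq_one_of_even (g : Multiplicative (ZMod (2 ^ 1))) {m : ℤ} (hm : Even m) : g ^ m = 1 := by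
  obtain ⟨j, rfl⟩ := hm
  have h : ∀ x : Multiplicative (ZMod (2 ^ 1)), x * x = 1 := by decide
  rw [zpow_add]
  exact h _

theorem even_of_zpow_eq_one {g : Multiplicative (ZMod (2 ^ 1))} (hg : g ≠ 1) {m : ℤ}
    (hm : g ^ m = 1) : Even m := by
  rcases Int.even_or_odd m with h | ⟨j, rfl⟩
  · exact h
  · rw [zpow_add_one, zpow_eq_one_of_even g (even_two_mul j), one_mul] at hm
    exact absurd hm hg

end Fermat.Agent.CFT.Reciprocity
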