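import Fermat.Agent.CFT.Reciprocity.Core
import Fermat.Agent.CFT.Reciprocity.ArtinClass
import Fermat.Agent.CFT.Reciprocity.Hilbert

/-!
# Unconditional forms of the reciprocity inputs
-/

set_option autoImplicit false

noncomputable section

namespace Fermat.Agent.CFT.Reciprocity

open Fermat.Agent.TwoAdic.Selmer (HilbertSingleInput)

/-- Reciprocity for totally positive elements of every number field. -/
theorem reciprocityPositive : ReciprocityPositive := reciprocityPositive_of_core reciprocityCore

/-- Unramified characters of `ℚ(√-N)` factor through the class group. -/
theorem artinInput : ArtinInput := artinInput_of_core reciprocityCore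

/-- The product formula for the symbols of a totally positive element. -/
theorem hilbertSingleInput : HilbertSingleInput := hilbertSingle_of_core reciprocityCore

end Fermat.Agent.CFT.Reciprocity
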