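import Fermat.Agent.CFT.Reciprocity.Place
import Fermat.Agent.CFT.Idele.SecondIneq
import Fermat.Agent.CFT.Idele.KummerStep
import Fermat.Agent.CFT.Form.LocalPsi

/-!
# A finite normal level over a totally complex field

The image of `Gal(ℚ̄/K)` at a normal level `M ⊇ K`, characters of finite level on it, the ideles of
`K` among those of `M`, and the step axioms for the `p`-subgroups of the image.
-/

set_option autoImplicit false
set_option synthInstance.maxHeartbeats 200000
set_option linter.style.haveILetI false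
set_option linter.unusedSectionVars false

noncomputable section

namespace Fermat.Agent.CFT.Reciprocity

open ExtCitation Fermat.Agent.Arith Fermat.Agent.CFT.Idele IntermediateField

local instance factPrimeLevel (q : Nat.Primes) : Fact (q : ℕ).Prime := ⟨q.2⟩

variable {K : IntermediateField ℚ QBar} (M : IntermediateField ℚ QBar) [FiniteDimensional ℚ M]
  [Normal ℚ M]

/-- The image of `Gal(ℚ̄/K)` in `Gal(M/ℚ)`. -/
abbrev imK (K : IntermediateField ℚ QBar) : Subgroup (M ≃ₐ[ℚ] M) := K.fixingSubgroup.map (res M)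

variable {M}

theorem mem_imK_iff (hKM : K ≤ M) {g : GQ} : res M g ∈ imK M K ↔ g ∈ K.fixingSubgroup := by
  refine ⟨fun ⟨s, hs, e⟩ => ?_, fun h => ⟨g, h, rfl⟩⟩
  have := mul_mem hs (IntermediateField.fixingSubgroup_antitone hKM ((res_eq_iff M).1 e))
  rwa [mul_inv_cancel_left] at this

theorem lift_mem_fixingSubgroup (hKM : K ≤ M) {σ : M ≃ₐ[ℚ] M} (hσ : σ ∈ imK M K) :
    lift M σ ∈ K.fixingSubgroup :=
  (mem_imK_iff hKM).1 (by rwa [res_lift])

section DescChar

variable {H : Type*} [CommGroup H] (hKM : K ≤ M) (χ : K.fixingSubgroup →* H)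
  (hχ : ∀ s : K.fixingSubgroup, (∀ x ∈ M, (s : GQ) x = x) → χ s = 1)

include hKM hχ in
theorem char_eq_of_res_eq {s t : K.fixingSubgroup} (h : res M (s : GQ) = res M (t : GQ)) :
    χ s = χ t := by
  have h1 : χ (s⁻¹ * t) = 1 :=
    hχ _ ((IntermediateField.mem_fixingSubgroup_iff _ _).1 ((res_eq_iff M).1 h))
  rwa [map_mul, map_inv, inv_mul_eq_one] at h1

/-- A character of finite level on the image at that level. -/
def descChar : imK M K →* H :=
  MonoidHom.mk' (fun σ => χ ⟨lift M σ.1, lift_mem_fixingSubgroup hKM σ.2⟩) fun σ τ => by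
    rw [← map_mul]
    exact char_eq_of_res_eq hKM χ hχ (by simp [res_lift])

theorem descChar_res (s : K.fixingSubgroup) :
    descChar hKM χ hχ ⟨res M (s : GQ), ⟨s, s.2, rfl⟩⟩ = χ s :=
  char_eq_of_res_eq hKM χ hχ (res_lift M _)

end DescChar

/-- An idele of `K` among the classes of `M`. -/
def toJ (hKM : K ≤ M) : Additive (idl K) →+ J M :=
  MonoidHom.toAdditive (Subgroup.inclusion (idl_mono hKM))

/-- The class of an idele of `K` in `C M`. -/
def toC (hKM : K ≤ M) : Additive (idl K) →+ C M := (proj M).comp (toJ hKM)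

theorem smul_toJ (hKM : K ≤ M) {σ : M ≃ₐ[ℚ] M} (hσ : σ ∈ imK M K) (f : Additive (idl K)) :
    σ • toJ hKM f = toJ hKM f :=
  congrArg Additive.ofMul
    ((mem_fixedBy_idl_iff (K := K) M ⟨_, idl_mono hKM f.toMul.2⟩).2 f.toMul.2 σ hσ)

theorem smul_toC (hKM : K ≤ M) {σ : M ≃ₐ[ℚ] M} (hσ : σ ∈ imK M K) (f : Additive (idl K)) :
    σ • toC hKM f = toC hKM f := by
  rw [toC, AddMonoidHom.comp_apply, ← proj_smul, smul_toJ hKM hσ]

/-- The step axioms for a `p`-subgroup of the image of a totally complex field. -/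
theorem stepAxioms_sub {p : ℕ} [Fact p.Prime] {ζ : M} (hζ : IsPrimitiveRoot ζ p) (hKM : K ≤ M)
    (hTC : IsTotallyComplexIn K) {P : Subgroup (M ≃ₐ[ℚ] M)} (hP : P ≤ imK M K) :
    CFT.StepAxioms p P (C M) := by
  have hstep : ∀ {H K' : Subgroup P} {g : P}, CFT.IsStep p H K' g →
      CFT.IsStep p (H.map P.subtype) (K'.map P.subtype) (g : M ≃ₐ[ℚ] M) := fun {H K' g} hs =>
    { le := Subgroup.map_mono hs.le
      mem := Subgroup.mem_map_of_mem P.subtype hs.mem
      notMem := fun h => hs.notMem ((Subgroup.mem_map_iff_mem P.subtype_injective).1 h)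
      isPGroup := hs.isPGroup.map P.subtype
      relIndex := by
        rw [Subgroup.relIndex_map_map_of_injective _ _ P.subtype_injective, hs.relIndex] }
  have hT : ∀ H : Subgroup P, TotComplex (fixedQ M (H.map P.subtype)) := fun H φ => by
    obtain ⟨x, hx, him⟩ := hTC φ
    refine ⟨x, (mem_fixedQ (⟨x, hKM hx⟩ : M)).2 ?_, him⟩
    rintro _ ⟨h, -, rfl⟩
    obtain ⟨s, hs, e⟩ := hP h.2
    refine Subtype.ext ?_
    rw [Subgroup.coe_subtype, ← e, res_apply]
    exact (IntermediateField.mem_fixingSubgroup_iff _ _).1 hs x hx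
  have hax := fun {H K' : Subgroup P} {g : P} (hs : CFT.IsStep p H K' g) =>
    axioms_of_step (hstep hs) (hT H) (secondIneq_step hζ (hstep hs) (hT H))
  refine ⟨fun H K' g hs a ha hN => ?_, fun H K' g hs => ?_⟩
  · obtain ⟨b, hb, e⟩ := (hax hs).1 a (by rintro _ ⟨k, hk, rfl⟩; exact ha k hk) hN
    exact ⟨b, fun k hk => hb _ (Subgroup.mem_map_of_mem P.subtype hk), e⟩
  · obtain ⟨x₀, hx₀, hgen⟩ := (hax hs).2
    refine ⟨x₀, fun h hh => hx₀ _ (Subgroup.mem_map_of_mem P.subtype hh), fun x hx => ?_⟩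
    obtain ⟨m, b, hb, e⟩ := hgen x (by rintro _ ⟨h, hh, rfl⟩; exact hx h hh)
    exact ⟨m, b, fun k hk => hb _ (Subgroup.mem_map_of_mem P.subtype hk), e⟩

/-- An auxiliary character at an element congruent to `x ↦ x ^ l ^ f` at a place over `l`. -/
theorem chi_of_congr {n : ℕ} (a : Aux n) {l : Nat.Primes} (hl : l ≠ a.q) {g σ : GQ} {f : ℕ}
    (hσ : ∀ x : QBar, IsIntegral ℤ x → σ x - x ^ ((l : ℕ) ^ f) ∈ (placeAt l g).nonunits) :
    a.chi σ = a.log (a.unitOf (a.not_dvd_of_ne hl)) ^ f := by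
  have hA := placeAt_liesOverPrime l g
  obtain ⟨φ, hφ⟩ := exists_isFrobeniusAt hA l.2
  have hi := inv_mul_mem_inertia_of_congr hA l.2 hσ
    (congr_pow_iterate ((isFrobeniusAt_iff hA l.2).1 hφ) f)
  have := a.chi_inertia hl hA hi
  rwa [map_mul, map_inv, inv_mul_eq_one, map_pow, a.chi_frob hl hA hφ, eq_comm] at this

end Fermat.Agent.CFT.Reciprocity
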