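import Fermat.Agent.CFT.Reciprocity.Descent
import Fermat.Agent.CFT.Idele.Semilocal
import Mathlib.RingTheory.DedekindDomain.Ideal.Lemmas

/-!
# The places over a prime of a number field and their Frobenius elements

Every place is `g⁻¹ • padicPlace l`; the places over one prime of `K` form one double coset. The
decomposition group in `Gal(ℚ̄/K)` is, at a finite level, generated by a Frobenius element and
inertia.
-/

set_option autoImplicit false
set_option linter.style.haveILetI false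
set_option linter.unusedSectionVars false

noncomputable section

namespace Fermat.Agent.CFT.Reciprocity

open ExtCitation Fermat.Agent.Arith Fermat.Agent.CFT.Idele Fermat.Agent.CFT.Local
open IsDedekindDomain NumberField
open scoped Pointwise

local instance factPrimePlace (q : Nat.Primes) : Fact (q : ℕ).Prime := ⟨q.2⟩

/-- The place of `g`. -/
abbrev placeAt (l : Nat.Primes) (g : GQ) : ValuationSubring QBar := g⁻¹ • padicPlace (l : ℕ)

theorem mem_nonunits_placeAt {l : Nat.Primes} {g : GQ} {x : QBar} :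
    x ∈ (placeAt l g).nonunits ↔ ‖emb l (g x)‖ < 1 := by
  rw [← smul_mem_nonunits_smul_iff (g := g), smul_inv_smul, mem_nonunits_padicPlace_iff]
  rfl

theorem placeAt_liesOverPrime (l : Nat.Primes) (g : GQ) : (placeAt l g).LiesOverPrime l :=
  liesOverPrime_smul_iff.2 (padicPlace_liesOverPrime (l : ℕ))

theorem exists_placeAt_eq {A : ValuationSubring QBar} {l : Nat.Primes} (hA : A.LiesOverPrime l) :
    ∃ g : GQ, placeAt l g = A := by
  obtain ⟨g, hg⟩ := exists_smul_eq (padicPlace_liesOverPrime (l : ℕ)) hA l.2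
  exact ⟨g⁻¹, by rw [placeAt, inv_inv, hg]⟩

variable {K : IntermediateField ℚ QBar} [NumberField K]

theorem exists_liesOver_placeAt (P : Prime K) :
    ∃ (l : Nat.Primes) (g : GQ), LiesOver (placeAt l g) P := by
  obtain ⟨A, hA⟩ := exists_liesOver P
  obtain ⟨c, f, hc, hcA, -, -⟩ := exists_prime_pow hA
  obtain ⟨g, hg⟩ := exists_placeAt_eq (l := ⟨c, hc⟩) hcA
  exact ⟨⟨c, hc⟩, g, by rw [hg]; exact hA⟩

/-- The prime `l` lies in `P`. -/
theorem LiesOver.natCast_mem {l : Nat.Primes} {g : GQ} {P : Prime K}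
    (h : LiesOver (placeAt l g) P) : ((l : ℕ) : 𝓞 K) ∈ P.asIdeal := by
  rw [h]
  simpa [ValuationSubring.LiesOverPrime] using placeAt_liesOverPrime l g

/-- Every prime containing `l` has a place over `l`. -/
theorem exists_liesOver_of_mem {l : Nat.Primes} {P : Prime K} (h : ((l : ℕ) : 𝓞 K) ∈ P.asIdeal) :
    ∃ g : GQ, LiesOver (placeAt l g) P := by
  obtain ⟨l', g, hg⟩ := exists_liesOver_placeAt P
  suffices l = l' by subst this; exact ⟨g, hg⟩
  have h1 := (mem_nonunits_placeAt (g := g)).1 ((hg _).1 h)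
  rw [show ((((l : ℕ) : 𝓞 K) : K) : QBar) = ((l : ℕ) : QBar) from
    map_natCast ((algebraMap K QBar).comp (algebraMap (𝓞 K) K)) _, map_natCast g, map_natCast]
    at h1
  by_contra hne
  rw [show (((l : ℕ) : Ω l')) = emb l' ((l : ℕ) : QBar) from (map_natCast _ _).symm,
    norm_emb_natCast l' fun hd => hne (Subtype.ext ((Nat.prime_dvd_prime_iff_eq l'.2 l.2).1 hd).symm)]
    at h1
  exact lt_irrefl _ h1

/-- Every place lies over a prime of `K`. -/
theorem exists_prime_placeAt (l : Nat.Primes) (g : GQ) :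
    ∃ P : Prime K, LiesOver (placeAt l g) P :=
  exists_prime_liesOver (placeAt_liesOverPrime l g) l.2

/-- The places over a prime form one double coset. -/
theorem exists_loc_mul {l : Nat.Primes} {g g' : GQ} {P : Prime K} (h : LiesOver (placeAt l g) P)
    (h' : LiesOver (placeAt l g') P) {M : IntermediateField ℚ QBar} [FiniteDimensional ℚ M]
    [Normal ℚ M] (hKM : K ≤ M) :
    ∃ τ, ∃ s ∈ K.fixingSubgroup, g' = loc l τ * g * s := by
  obtain ⟨s, hs, hsA⟩ := exists_smul_eq_of_liesOver h h'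
  set d := g' * s * g⁻¹
  have hd : d • padicPlace (l : ℕ) = padicPlace (l : ℕ) := by
    rw [mul_smul, mul_smul, show g⁻¹ • padicPlace (l : ℕ) = placeAt l g from rfl, hsA, smul_inv_smul]
  obtain ⟨t, ht⟩ := (mem_range_toGlobal_iff (l : ℕ) M (res M d)).2 fun x hx => by
    rw [res_apply]; exact map_mem_of_mem_decomposition hd hx
  obtain ⟨τ, rfl⟩ := AlgEquiv.restrictNormalHom_surjective (K₁ := E M l) (Ω l) t
  rw [toGlobal_restrict] at ht
  haveI : IsGalois ℚ M := ⟨⟩
  haveI hnor : M.fixingSubgroup.Normal := (InfiniteGalois.normal_iff_isGalois M).mpr ‹_›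
  have hm : (loc l τ)⁻¹ * d ∈ M.fixingSubgroup := (res_eq_iff M).1 ht
  refine ⟨τ, g⁻¹ * ((loc l τ)⁻¹ * d) * g * s⁻¹,
    mul_mem (IntermediateField.fixingSubgroup_antitone hKM ?_) (inv_mem hs), ?_⟩
  · simpa using hnor.conj_mem _ hm g⁻¹
  · simp only [d]
    group

/-- The residue degree. -/
theorem exists_absNorm_eq {l : Nat.Primes} {g : GQ} {P : Prime K} (h : LiesOver (placeAt l g) P) :
    ∃ f, 0 < f ∧ Ideal.absNorm P.asIdeal = (l : ℕ) ^ f := by
  haveI := P.isMaximal
  haveI : Finite (𝓞 K ⧸ P.asIdeal) := Ideal.finiteQuotientOfFreeOfNeBot _ P.ne_bot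
  letI := Fintype.ofFinite (𝓞 K ⧸ P.asIdeal)
  letI := Ideal.Quotient.field P.asIdeal
  haveI : CharP (𝓞 K ⧸ P.asIdeal) l := by
    refine (CharP.charP_iff_prime_eq_zero l.2).2 ?_
    rw [← map_natCast (Ideal.Quotient.mk P.asIdeal), Ideal.Quotient.eq_zero_iff_mem]
    exact h.natCast_mem
  obtain ⟨f, -, hf⟩ := FiniteField.card (𝓞 K ⧸ P.asIdeal) (l : ℕ)
  exact ⟨f, f.pos, by rw [Ideal.absNorm_apply, Submodule.cardQuot_apply, Nat.card_eq_fintype_card, hf]⟩

/-- If all residues are fixed by `x ↦ x ^ l ^ j`, the residue degree divides `j`. -/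
theorem dvd_of_pow_sub_mem {l : Nat.Primes} {g : GQ} {P : Prime K} {f j : ℕ}
    (_h : LiesOver (placeAt l g) P) (hf : Ideal.absNorm P.asIdeal = (l : ℕ) ^ f)
    (hj : ∀ a : 𝓞 K, a ^ (l : ℕ) ^ j - a ∈ P.asIdeal) : f ∣ j := by
  haveI := P.isMaximal
  haveI : Finite (𝓞 K ⧸ P.asIdeal) := Ideal.finiteQuotientOfFreeOfNeBot _ P.ne_bot
  letI := Fintype.ofFinite (𝓞 K ⧸ P.asIdeal)
  letI := Ideal.Quotient.field P.asIdeal
  have hcard : Fintype.card (𝓞 K ⧸ P.asIdeal) = (l : ℕ) ^ f := by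
    rw [← hf, Ideal.absNorm_apply, Submodule.cardQuot_apply, Nat.card_eq_fintype_card]
  obtain ⟨u, hu⟩ := IsCyclic.exists_ofOrder_eq_natCard (α := (𝓞 K ⧸ P.asIdeal)ˣ)
  rw [Nat.card_units, Nat.card_eq_fintype_card, hcard] at hu
  have h1 : u ^ ((l : ℕ) ^ j - 1) = 1 := by
    refine mul_left_cancel (a := u) ?_
    rw [mul_one, ← pow_succ', Nat.sub_add_cancel (Nat.one_le_pow _ _ l.2.pos)]
    refine Units.ext ?_
    rw [Units.val_pow_eq_pow_val]
    obtain ⟨a, ha⟩ := Ideal.Quotient.mk_surjective (u : 𝓞 K ⧸ P.asIdeal)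
    rw [← ha, ← map_pow, Ideal.Quotient.eq]
    exact hj a
  have h2 := Nat.gcd_eq_left (hu ▸ orderOf_dvd_of_pow_eq_one h1)
  rw [Nat.pow_sub_one_gcd_pow_sub_one] at h2
  have h3 : (l : ℕ) ^ Nat.gcd f j = (l : ℕ) ^ f := by
    have := Nat.one_le_pow (Nat.gcd f j) _ l.2.pos
    have := Nat.one_le_pow f _ l.2.pos
    omega
  exact Nat.gcd_eq_left_iff_dvd.1 (Nat.pow_right_injective l.2.two_le h3)

/-- At a finite level the decomposition group in `Gal(ℚ̄/K)` is generated by Frobenius and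
inertia. -/
theorem exists_res_eq_frob {l : Nat.Primes} {g σ s : GQ} {P : Prime K}
    (hσ : IsFrobOver (placeAt l g) P σ) {M : IntermediateField ℚ QBar} [FiniteDimensional ℚ M]
    [Normal ℚ M] (hKM : K ≤ M) (hs : s ∈ K.fixingSubgroup) (hsA : s • placeAt l g = placeAt l g) :
    ∃ (j : ℕ) (i : GQ), i ∈ (placeAt l g).inertiaSubgroupIn ℚ ∧ i ∈ K.fixingSubgroup ∧
      res M s = res M (σ ^ j * i) := by
  set A := placeAt l g
  have hA := placeAt_liesOverPrime l g
  obtain ⟨f, hf0, hf⟩ := exists_absNorm_eq hσ.liesOver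
  -- the action on the residue field of `M`
  set s' := g * s * g⁻¹ with hs'
  have hs'A : s' • padicPlace (l : ℕ) = padicPlace (l : ℕ) := by
    rw [hs', mul_smul, mul_smul, hsA, smul_inv_smul]
  obtain ⟨t, ht⟩ := (mem_range_toGlobal_iff (l : ℕ) M (res M s')).2 fun x hx => by
    rw [res_apply]; exact map_mem_of_mem_decomposition hs'A hx
  obtain ⟨⟨j₀, _⟩, hj₀⟩ := (FiniteField.bijective_frobeniusAlgEquivOfAlgebraic_pow (ZMod (l : ℕ))
    (ResField (E M l))).2 (resAut (E M l) t)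
  have hfrob : ∀ (i : ℕ) (c : ResField (E M l)),
      (FiniteField.frobeniusAlgEquivOfAlgebraic (ZMod (l : ℕ)) (ResField (E M l)) ^ i) c =
        c ^ (l : ℕ) ^ i := by
    intro i
    induction i with
    | zero => intro c; simp
    | succ i ih =>
      intro c
      rw [pow_succ', AlgEquiv.mul_apply, ih, FiniteField.coe_frobeniusAlgEquivOfAlgebraic,
        ZMod.card, pow_succ, pow_mul]
  have hcong : ∀ y : QBar, IsIntegral ℤ y → y ∈ M → s y - y ^ (l : ℕ) ^ j₀ ∈ A.nonunits := by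
    intro y hy hyM
    set y' : M := res M g ⟨y, hyM⟩
    have hy' : ((y' : M) : QBar) = g y := res_apply M g ⟨y, hyM⟩
    have h1 : ‖localEmb (l : ℕ) M y'‖ ≤ 1 := by
      rw [norm_localEmb, hy']
      exact norm_emb_le_one (hy.map (g.toAlgHom.restrictScalars ℤ)) l
    have h2 : resAut (E M l) t (resMap (E M l) ⟨_, h1⟩) =
        resMap (E M l) ⟨_, h1⟩ ^ (l : ℕ) ^ j₀ := by
      rw [← hj₀]; exact hfrob j₀ _
    rw [resAut_resMap, ← map_pow, resMap_eq_iff, coe_galInt] at h2
    rw [mem_nonunits_placeAt]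
    have h3 : ((t (localEmb (l : ℕ) M y') : E M l) : Ω l) = emb l (g (s y)) := by
      rw [← padicEmbedding_toGlobal, ht, res_apply, hy', hs']
      simp only [AlgEquiv.mul_apply, AlgEquiv.aut_inv, AlgEquiv.symm_apply_apply]
    have h4 : ‖((t (localEmb (l : ℕ) M y') : E M l) : Ω l) -
        (((localEmb (l : ℕ) M y') ^ (l : ℕ) ^ j₀ : E M l) : Ω l)‖ < 1 := h2
    rw [h3, SubmonoidClass.coe_pow, coe_localEmb, hy'] at h4
    rw [map_sub, map_pow, map_sub, map_pow]
    exact h4
  have hdvd : f ∣ j₀ := dvd_of_pow_sub_mem hσ.liesOver hf fun a => by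
    rw [hσ.liesOver]
    have h := hcong ((a : K) : QBar) (a.2.map ((IntermediateField.val K).restrictScalars ℤ))
      (hKM (a : K).2)
    rw [(IntermediateField.mem_fixingSubgroup_iff _ _).1 hs _ (a : K).2] at h
    simpa using nonunits_neg h
  obtain ⟨j, rfl⟩ := hdvd
  -- compare with the power of Frobenius
  have hjc := congr_pow_iterate hσ.congr j
  have hjA := (congr_pow_of_integral hA l.2 hjc).1
  rw [hf, ← pow_mul] at hjc
  haveI : IsGalois ℚ M := ⟨⟩
  haveI : M.fixingSubgroup.Normal := (InfiniteGalois.normal_iff_isGalois M).mpr ‹_›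
  obtain ⟨m, hm, hmi⟩ := exists_inertia_lift hA l.2 M.fixingSubgroup M.fixingSubgroup_isClosed
    ((σ ^ j)⁻¹ * s) fun x hx hfix => by
      have hxM : x ∈ M := by
        rw [← InfiniteGalois.fixedField_fixingSubgroup M, IntermediateField.mem_fixedField_iff]
        exact hfix
      have h : s x - (σ ^ j) x ∈ A.nonunits := by
        simpa using nonunits_sub (hcong x hx hxM) (hjc x hx)
      have h' := (smul_mem_nonunits_smul_iff (g := (σ ^ j)⁻¹) (A := A)).2 h
      rwa [show (σ ^ j)⁻¹ • A = A by rw [inv_smul_eq_iff, hjA], smul_sub,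
        ← AlgEquiv.smul_def (σ ^ j), inv_smul_smul, ← AlgEquiv.smul_def s, smul_smul] at h'
  refine ⟨j, m * ((σ ^ j)⁻¹ * s), hmi,
    mul_mem (IntermediateField.fixingSubgroup_antitone hKM hm)
      (mul_mem (inv_mem (pow_mem hσ.fixes j)) hs), ?_⟩
  rw [map_mul, map_mul, (res_eq_one_iff M).2 hm, one_mul, ← map_mul, mul_inv_cancel_left]

end Fermat.Agent.CFT.Reciprocity
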