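import Fermat.Agent.CFT.Reciprocity.Defs

/-!
# Places of `ℚ̄` over the primes of a number field inside `ℚ̄`

Existence, transitivity of `Gal(ℚ̄/K)`, and comparison of the valuations on `K`.
-/

set_option autoImplicit false

noncomputable section

namespace Fermat.Agent.CFT.Reciprocity

open Fermat.Agent.Arith
open IsDedekindDomain NumberField
open scoped Pointwise

variable {K : IntermediateField ℚ QBar} [NumberField K]

variable (K) in
/-- The inclusion of the integers of `K` in the algebraic integers. -/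
def toZBar : 𝓞 K →+* integralClosure ℤ QBar where
  toFun x := ⟨((x : K) : QBar), (x.2 : IsIntegral ℤ (x : K)).map (K.val.toRingHom.toIntAlgHom)⟩
  map_one' := Subtype.ext (by simp)
  map_mul' x y := Subtype.ext (by simp)
  map_zero' := Subtype.ext (by simp)
  map_add' x y := Subtype.ext (by simp)

theorem coe_toZBar (x : 𝓞 K) : ((toZBar K x : integralClosure ℤ QBar) : QBar) = ((x : K) : QBar) :=
  rfl

theorem toZBar_injective : Function.Injective (toZBar K) := fun x y h => by
  have h' : ((x : K) : QBar) = ((y : K) : QBar) := by rw [← coe_toZBar, h, coe_toZBar]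
  exact NumberField.RingOfIntegers.ext (Subtype.ext h')

theorem liesOver_iff {A : ValuationSubring QBar} {P : Prime K} :
    LiesOver A P ↔ (centre A).comap (toZBar K) = P.asIdeal := by
  refine ⟨fun h => ?_, fun h x => ?_⟩
  · ext x
    rw [Ideal.mem_comap, mem_centre, coe_toZBar, h x]
  · rw [← h, Ideal.mem_comap, mem_centre, coe_toZBar]

theorem liesOver_unique {A : ValuationSubring QBar} {P P' : Prime K} (h : LiesOver A P)
    (h' : LiesOver A P') : P = P' :=
  HeightOneSpectrum.ext ((liesOver_iff.1 h).symm.trans (liesOver_iff.1 h'))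

/-- Every place over a prime number lies over a prime of `K`. -/
theorem exists_prime_liesOver {A : ValuationSubring QBar} {ℓ : ℕ} (hA : A.LiesOverPrime ℓ)
    (hℓ : ℓ.Prime) : ∃ P : Prime K, LiesOver A P := by
  refine ⟨⟨(centre A).comap (toZBar K), Ideal.IsPrime.comap _, fun h => ?_⟩, liesOver_iff.2 rfl⟩
  have hmem : (ℓ : 𝓞 K) ∈ (centre A).comap (toZBar K) := by
    rw [Ideal.mem_comap, map_natCast, mem_centre]
    exact hA
  rw [h, Ideal.mem_bot, Nat.cast_eq_zero] at hmem
  exact hℓ.ne_zero hmem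

theorem natCast_mem_iff {A : ValuationSubring QBar} {P : Prime K} (h : LiesOver A P) (m : ℕ) :
    (m : 𝓞 K) ∈ P.asIdeal ↔ (m : QBar) ∈ A.nonunits := by
  rw [h]; simp

/-- The residue characteristic and degree. -/
theorem exists_prime_pow {A : ValuationSubring QBar} {P : Prime K} (h : LiesOver A P) :
    ∃ ℓ f : ℕ, ℓ.Prime ∧ A.LiesOverPrime ℓ ∧ 0 < f ∧ Ideal.absNorm P.asIdeal = ℓ ^ f := by
  haveI : P.asIdeal.IsMaximal := P.isMaximal
  obtain ⟨ℓ, f, hf, hmem, hℓ, hN⟩ := Ideal.exists_prime_and_absNorm_eq_pow P.asIdeal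
  exact ⟨ℓ, f, hℓ, (natCast_mem_iff h ℓ).1 hmem, hf, hN⟩

/-- Every prime of `K` has a place over it. -/
theorem exists_liesOver (P : Prime K) : ∃ A : ValuationSubring QBar, LiesOver A P := by
  letI := (toZBar K).toAlgebra
  haveI : IsScalarTower ℤ (𝓞 K) (integralClosure ℤ QBar) :=
    IsScalarTower.of_algebraMap_eq fun m => by
      show _ = toZBar K (algebraMap ℤ (𝓞 K) m)
      simp
  haveI : Algebra.IsIntegral ℤ (integralClosure ℤ QBar) :=
    Algebra.IsInvariant.isIntegral_of_profinite (G := GQ)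
  haveI : Algebra.IsIntegral (𝓞 K) (integralClosure ℤ QBar) := Algebra.IsIntegral.tower_top (R := ℤ)
  haveI : P.asIdeal.IsMaximal := P.isMaximal
  obtain ⟨Q, hQ, hQP⟩ := Ideal.exists_ideal_over_maximal_of_isIntegral
    (S := integralClosure ℤ QBar) P.asIdeal (by
      show RingHom.ker (toZBar K) ≤ _
      rw [(RingHom.injective_iff_ker_eq_bot _).1 toZBar_injective]
      exact bot_le)
  obtain ⟨ℓ, f, hf, hmem, hℓ, -⟩ := Ideal.exists_prime_and_absNorm_eq_pow P.asIdeal
  have hℓQ : (ℓ : integralClosure ℤ QBar) ∈ Q := by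
    rw [← hQP, Ideal.mem_comap, map_natCast] at hmem
    exact hmem
  obtain ⟨A₀, hA₀⟩ := exists_liesOverPrime hℓ
  have hu : Q.under ℤ = Ideal.span {(ℓ : ℤ)} := by
    haveI : (Ideal.span {(ℓ : ℤ)}).IsMaximal :=
      PrincipalIdealRing.isMaximal_of_irreducible (Nat.prime_iff_prime_int.mp hℓ).irreducible
    refine (Ideal.IsMaximal.eq_of_le inferInstance ?_ ?_).symm
    · exact Ideal.IsPrime.ne_top (Ideal.IsPrime.comap _)
    · rw [Ideal.span_le, Set.singleton_subset_iff, SetLike.mem_coe, Ideal.under_def,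
        Ideal.mem_comap]
      simpa using hℓQ
  obtain ⟨g, hg⟩ := Algebra.IsInvariant.exists_smul_of_under_eq_of_profinite (A := ℤ) (G := GQ)
    (centre A₀) Q ((centre_under hA₀ hℓ).trans hu.symm)
  refine ⟨g • A₀, liesOver_iff.2 ?_⟩
  rw [centre_smul, ← hg]
  exact hQP

variable (K) in
/-- The algebraic integers fixed by `Gal(ℚ̄/K)`. -/
abbrev fixedInts : Subalgebra ℤ (integralClosure ℤ QBar) :=
  FixedPoints.subalgebra ℤ (integralClosure ℤ QBar) K.fixingSubgroup

theorem toZBar_mem_fixedInts (x : 𝓞 K) : toZBar K x ∈ fixedInts K := fun g => by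
  refine Subtype.ext ?_
  show (g : GQ) ((x : K) : QBar) = ((x : K) : QBar)
  exact (IntermediateField.mem_fixingSubgroup_iff _ _).1 g.2 _ (x : K).2

theorem exists_toZBar_eq (r : fixedInts K) :
    ∃ x : 𝓞 K, toZBar K x = (r : integralClosure ℤ QBar) := by
  have hfix : ∀ g ∈ K.fixingSubgroup,
      g ((r : integralClosure ℤ QBar) : QBar) = ((r : integralClosure ℤ QBar) : QBar) :=
    fun g hg => congrArg Subtype.val (r.2 ⟨g, hg⟩)
  have hmem : ((r : integralClosure ℤ QBar) : QBar) ∈ K :=
    (SetLike.ext_iff.1 (InfiniteGalois.fixedField_fixingSubgroup K) _).1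
      ((IntermediateField.mem_fixedField_iff _ _).2 hfix)
  exact ⟨⟨⟨_, hmem⟩, (isIntegral_algHom_iff (K.val.toRingHom.toIntAlgHom)
    K.val.injective).1 (r : integralClosure ℤ QBar).2⟩, Subtype.ext rfl⟩

instance fixedInts_smulCommClass :
    SMulCommClass K.fixingSubgroup (fixedInts K) (integralClosure ℤ QBar) :=
  ⟨fun h r x => by
    show h • ((r : integralClosure ℤ QBar) * x) = (r : integralClosure ℤ QBar) * h • x
    rw [smul_mul', show h • (r : integralClosure ℤ QBar) = r from r.2 h]⟩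

instance fixedInts_isInvariant :
    Algebra.IsInvariant (fixedInts K) (integralClosure ℤ QBar) K.fixingSubgroup :=
  ⟨fun x hx => ⟨⟨x, hx⟩, rfl⟩⟩

instance fixingSubgroup_compact : CompactSpace K.fixingSubgroup :=
  isCompact_iff_compactSpace.mp (InfiniteGalois.fixingSubgroup_isClosed K).isCompact

/-- `Gal(ℚ̄/K)` acts transitively on the places over a prime of `K`. -/
theorem exists_smul_eq_of_liesOver {A B : ValuationSubring QBar} {P : Prime K}
    (hA : LiesOver A P) (hB : LiesOver B P) : ∃ g ∈ K.fixingSubgroup, g • A = B := by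
  obtain ⟨ℓ, f, hℓ, hAℓ, hf, hN⟩ := exists_prime_pow hA
  have hBℓ : B.LiesOverPrime ℓ := (natCast_mem_iff hB ℓ).1 ((natCast_mem_iff hA ℓ).2 hAℓ)
  have hu : (centre A).under (fixedInts K) = (centre B).under (fixedInts K) := by
    ext r
    obtain ⟨x, hx⟩ := exists_toZBar_eq r
    show (r : integralClosure ℤ QBar) ∈ centre A ↔ (r : integralClosure ℤ QBar) ∈ centre B
    rw [← hx, mem_centre, mem_centre, coe_toZBar, ← hA x, ← hB x]
  obtain ⟨g, hg⟩ := Algebra.IsInvariant.exists_smul_of_under_eq_of_profinite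
    (A := fixedInts K) (G := K.fixingSubgroup) (centre A) (centre B) hu
  exact ⟨g, g.2, eq_of_centre_eq (liesOverPrime_smul_iff.mpr hAℓ) hBℓ hℓ
    (centre_smul.trans hg.symm)⟩

theorem liesOver_smul {A : ValuationSubring QBar} {P : Prime K} (hA : LiesOver A P) {g : GQ}
    (hg : g ∈ K.fixingSubgroup) : LiesOver (g • A) P := fun x => by
  rw [hA x, ← smul_mem_nonunits_smul_iff (g := g)]
  rw [AlgEquiv.smul_def, (IntermediateField.mem_fixingSubgroup_iff _ _).1 hg _ (x : K).2]

theorem mem_iff_valuation_le_one {A : ValuationSubring QBar} {P : Prime K} (hA : LiesOver A P)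
    (x : K) : (x : QBar) ∈ A ↔ P.valuation K x ≤ 1 := by
  have key : ∀ y : K, P.valuation K y ≤ 1 →
      (y : QBar) ∈ A ∧ (P.valuation K y < 1 → (y : QBar) ∈ A.nonunits) := fun y hy => by
    obtain ⟨n, ⟨d, hd⟩, e⟩ := P.exists_primeCompl_mul_eq_of_integer y hy
    have hdA : ((d : K) : QBar) ∈ A := mem_of_isIntegral A
      ((d.2 : IsIntegral ℤ (d : K)).map (K.val.toRingHom.toIntAlgHom))
    obtain ⟨hd0, hdinv⟩ := (notMem_nonunits_iff hdA).1 fun hm => hd ((hA d).2 hm)
    have e' : (y : QBar) = ((n : K) : QBar) * ((d : K) : QBar)⁻¹ := by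
      rw [eq_mul_inv_iff_mul_eq₀ hd0]
      exact congrArg Subtype.val e
    refine ⟨e' ▸ mul_mem (mem_of_isIntegral A
      ((n.2 : IsIntegral ℤ (n : K)).map (K.val.toRingHom.toIntAlgHom))) hdinv, fun hlt => ?_⟩
    refine e' ▸ nonunits_mul_right ((hA n).1 ((P.valuation_lt_one_iff_mem (K := K) n).1 ?_)) hdinv
    show P.valuation K (algebraMap (𝓞 K) K n) < 1
    rw [← e, map_mul]
    exact mul_lt_one_of_nonneg_of_lt_one_left zero_le' hlt (P.valuation_le_one d)
  refine ⟨fun h => not_lt.1 fun hlt => ?_, fun h => (key x h).1⟩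
  have hx0 : x ≠ 0 := fun h0 => by rw [h0, map_zero] at hlt; exact absurd hlt (not_lt.2 zero_le')
  have hinv : P.valuation K x⁻¹ < 1 := by rw [map_inv₀]; exact inv_lt_one_of_one_lt₀ hlt
  have h2 := nonunits_mul_left h ((key x⁻¹ hinv.le).2 hinv)
  rw [IntermediateField.coe_inv, mul_inv_cancel₀ (fun h0 => hx0 (Subtype.ext h0))] at h2
  exact one_notMem_nonunits h2

/-- The valuation of `A` on `K` is equivalent to the one of the prime below. -/
theorem valuation_le_iff {A : ValuationSubring QBar} {P : Prime K} (hA : LiesOver A P) (x y : K) :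
    A.valuation (x : QBar) ≤ A.valuation (y : QBar) ↔ P.valuation K x ≤ P.valuation K y := by
  rcases eq_or_ne y 0 with rfl | hy
  · rw [map_zero, ZeroMemClass.coe_zero, map_zero, le_zero_iff, le_zero_iff, map_eq_zero,
      map_eq_zero, ZeroMemClass.coe_eq_zero]
  have hy' : (y : QBar) ≠ 0 := fun h => hy (Subtype.ext h)
  have h := mem_iff_valuation_le_one hA (x / y)
  rw [IntermediateField.coe_div, ← A.valuation_le_one_iff, map_div₀, map_div₀,
    div_le_one₀ (zero_lt_iff.2 ((map_ne_zero _).2 hy')),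
    div_le_one₀ (zero_lt_iff.2 ((map_ne_zero _).2 hy))] at h
  exact h

theorem valuation_lt_iff {A : ValuationSubring QBar} {P : Prime K} (hA : LiesOver A P) (x y : K) :
    A.valuation (x : QBar) < A.valuation (y : QBar) ↔ P.valuation K x < P.valuation K y := by
  rw [← not_le, ← not_le, valuation_le_iff hA]

theorem valuation_eq_one_iff {A : ValuationSubring QBar} {P : Prime K} (hA : LiesOver A P)
    (x : K) : A.valuation (x : QBar) = 1 ↔ P.valuation K x = 1 := by
  have h1 := valuation_le_iff hA x 1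
  have h2 := valuation_le_iff hA 1 x
  simp only [IntermediateField.coe_one, map_one] at h1 h2
  rw [le_antisymm_iff, le_antisymm_iff, h1, h2]

end Fermat.Agent.CFT.Reciprocity
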