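import Fermat.Agent.CFT.Reciprocity.Descent
import Mathlib.NumberTheory.NumberField.InfinitePlace.Embeddings
import Mathlib.RingTheory.Norm.Basic
import Mathlib.FieldTheory.IntermediateField.Adjoin.Basic

/-!
# Reciprocity for totally positive elements of an arbitrary number field

If `z = u - 1` is totally positive, `u` is the norm of `1 + √(-z)` from the totally complex field
`K(√(-z))`, so that the core statement applies.
-/

set_option autoImplicit false
set_option linter.style.haveILetI false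

noncomputable section

namespace Fermat.Agent.CFT.Reciprocity

open Fermat.Agent.Arith
open IsDedekindDomain NumberField
open scoped Polynomial

variable {K : IntermediateField ℚ QBar} [NumberField K]

theorem coe_sq_lt_imp {A : ValuationSubring QBar} {r s : QBar}
    (h : A.valuation (r ^ 2) < A.valuation (s ^ 2)) : A.valuation r < A.valuation s := by
  rw [map_pow, map_pow] at h
  exact lt_of_pow_lt_pow_left₀ 2 zero_le h

/-- The case of an element exceeding one at all real places, when a real place exists. -/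
theorem artinElem_eq_one_of_sub_one_pos (hcore : ReciprocityCore) {p k : ℕ} (hp : p = 2 ∨ p = 3)
    {χ : K.fixingSubgroup →* Multiplicative (ZMod (p ^ k))} (hχ : IsFiniteLevelChar χ)
    {S : Finset (Prime K)} (hS : ∀ P ∉ S, IsUnramifiedAt χ P)
    {v : Prime K → Multiplicative (ZMod (p ^ k))} (hv : IsArtinFun χ S v)
    (φ₀ : QBar →+* ℂ) (hφ₀ : ∀ x ∈ K, (φ₀ x).im = 0) {u : K} (hu : u ≠ 0)
    (hpos : IsTotallyPositive (u - 1))
    (hcong : ∀ P ∈ S, P.valuation K (u - 1) < P.valuation K (((p ^ k : ℕ) : K) ^ 6)) :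
    artinElem v u = 1 := by
  classical
  set z : K := u - 1 with hzdef
  obtain ⟨r, hr⟩ := IsAlgClosed.exists_pow_nat_eq (-(z : QBar)) two_pos
  have himag : ∀ φ : QBar →+* ℂ, (∀ x ∈ K, (φ x).im = 0) → (φ r).im ≠ 0 := fun φ hφ h0 => by
    have h1 : (φ r ^ 2).re = (-φ (z : QBar)).re := by rw [← map_pow, hr, map_neg]
    rw [sq, Complex.mul_re, Complex.neg_re, h0, mul_zero, sub_zero] at h1
    nlinarith [hpos φ hφ, mul_self_nonneg (φ r).re]
  set w : QBar := 1 + r with hwdef
  have hwK : w ∉ K := fun h => himag φ₀ hφ₀ (by simpa [hwdef] using hφ₀ w h)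
  have hwint : IsIntegral K w := Algebra.IsIntegral.isIntegral w
  -- the minimal polynomial
  let f : K[X] := Polynomial.X ^ 2 + (Polynomial.C (-2) * Polynomial.X + Polynomial.C u)
  have hfdeg : (Polynomial.C (-2 : K) * Polynomial.X + Polynomial.C u).degree < ((2 : ℕ) : WithBot ℕ) :=
    lt_of_le_of_lt Polynomial.degree_linear_le (by norm_num)
  have hfm : f.Monic := Polynomial.monic_X_pow_add hfdeg
  have hfn : f.natDegree = 2 :=
    Polynomial.natDegree_eq_of_degree_eq_some
      (by rw [Polynomial.degree_add_eq_left_of_degree_lt (by rwa [Polynomial.degree_X_pow]),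
        Polynomial.degree_X_pow])
  have hroot : Polynomial.aeval w f = 0 := by
    have hu' : algebraMap K QBar u = (u : QBar) := rfl
    simp only [f, map_add, map_mul, map_pow, Polynomial.aeval_X, Polynomial.aeval_C, map_neg,
      map_ofNat, hu', hwdef]
    have hz' : (z : QBar) = (u : QBar) - 1 := by rw [hzdef]; simp
    rw [hz'] at hr
    linear_combination hr
  have hmin : minpoly K w = f :=
    (Polynomial.eq_of_monic_of_dvd_of_natDegree_le (minpoly.monic hwint) hfm
      (minpoly.dvd K w hroot) (by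
        rw [hfn]
        exact (minpoly.two_le_natDegree_iff hwint).2 fun ⟨x, hx⟩ => hwK (hx ▸ x.2))).symm
  -- the extension
  haveI : FiniteDimensional K (IntermediateField.adjoin K {w}) :=
    IntermediateField.adjoin.finiteDimensional hwint
  have hnorm : Algebra.norm K (IntermediateField.AdjoinSimple.gen K w) = u := by
    have h := Algebra.PowerBasis.norm_gen_eq_coeff_zero_minpoly
      (IntermediateField.adjoin.powerBasis hwint)
    rw [IntermediateField.adjoin.powerBasis_gen, IntermediateField.adjoin.powerBasis_dim,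
      IntermediateField.minpoly_gen, hmin, hfn] at h
    refine h.trans ?_
    simp [f]
  have hx0 : IntermediateField.AdjoinSimple.gen K w ≠ 0 := fun h => hwK (by
    have : w = 0 := congrArg Subtype.val h
    rw [this]; exact zero_mem K)
  rw [← hnorm]
  refine artinElem_norm_eq_one_over hcore _ (fun φ => ?_) hp hχ hS hv hx0
    fun P hP A hA => coe_sq_lt_imp ?_
  · by_cases h : ∀ y ∈ K, (φ y).im = 0
    · exact ⟨w, IntermediateField.mem_adjoin_simple_self K w, by
        simpa [hwdef] using himag φ h⟩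
    · push Not at h
      obtain ⟨y, hy, hy'⟩ := h
      exact ⟨y, (IntermediateField.adjoin K {w}).algebraMap_mem ⟨y, hy⟩, hy'⟩
  have h := (valuation_lt_iff hA _ _).2 (hcong _ hP)
  rw [IntermediateField.AdjoinSimple.coe_gen, hwdef, add_sub_cancel_left, hr, Valuation.map_neg]
  convert h using 2
  simp [← pow_mul, mul_assoc]

theorem exists_valuation_natCast_lt (S : Finset (Prime K)) (a : Prime K → K)
    (ha : ∀ P ∈ S, a P ≠ 0) :
    ∃ M : ℕ, 0 < M ∧ ∀ P ∈ S, P.valuation K (M : K) < P.valuation K (a P) := by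
  classical
  let e : Prime K → ℕ := fun P => (WithZero.log (P.valuation K (a P))).natAbs + 1
  refine ⟨∏ P ∈ S, Ideal.absNorm P.asIdeal ^ e P, Finset.prod_pos fun P _ => pow_pos
    (Nat.pos_of_ne_zero (mt Ideal.absNorm_eq_zero_iff.1 P.ne_bot)) _, fun P hP => ?_⟩
  have hmem : ((∏ Q ∈ S, Ideal.absNorm Q.asIdeal ^ e Q : ℕ) : 𝓞 K) ∈ P.asIdeal ^ e P := by
    obtain ⟨c, hc⟩ := Finset.dvd_prod_of_mem (fun Q => Ideal.absNorm Q.asIdeal ^ e Q) hP
    rw [hc, Nat.cast_mul, Nat.cast_pow]
    exact Ideal.mul_mem_right _ _ (Ideal.pow_mem_pow (Ideal.absNorm_mem _) _)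
  have h1 : P.valuation K (algebraMap (𝓞 K) K ((∏ Q ∈ S, Ideal.absNorm Q.asIdeal ^ e Q : ℕ) : 𝓞 K))
      ≤ WithZero.exp (-(e P : ℤ)) := by
    rw [P.valuation_of_algebraMap]
    exact (P.intValuation_le_pow_iff_mem _ _).2 hmem
  rw [map_natCast] at h1
  refine h1.trans_lt ?_
  rw [← WithZero.exp_log ((map_ne_zero (P.valuation K)).2 (ha P hP)), WithZero.exp_lt_exp]
  simp only [e]
  omega

/-- Reciprocity for totally positive elements of every number field. -/
theorem reciprocityPositive_of_core (hcore : ReciprocityCore) : ReciprocityPositive := by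
  intro K _ p k hp χ hχ S hS v hv y hy hpos hcong
  classical
  have hn : ((p ^ k : ℕ) : K) ≠ 0 := by
    rcases hp with rfl | rfl <;> simp
  have hn1 : ∀ P : Prime K, P.valuation K ((p ^ k : ℕ) : K) ≤ 1 := fun P => by
    rw [← map_natCast (algebraMap (𝓞 K) K)]
    exact P.valuation_le_one _
  by_cases hcx : IsTotallyComplexIn K
  · refine hcore K hcx p k hp χ hχ S hS v hv y hy fun P hP => (hcong P hP).trans_le ?_
    rw [map_pow, map_pow]
    exact pow_le_pow_right_of_le_one' (hn1 P) (by norm_num)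
  · obtain ⟨φ₀, hφ₀⟩ : ∃ φ₀ : QBar →+* ℂ, ∀ x ∈ K, (φ₀ x).im = 0 := by
      simpa [IsTotallyComplexIn] using hcx
    obtain ⟨M, hM0, hM⟩ := exists_valuation_natCast_lt S (fun _ => ((p ^ k : ℕ) : K) ^ 6)
      fun P _ => pow_ne_zero _ hn
    obtain ⟨T, hT⟩ := exists_nat_gt (∑ ψ : K →+* ℂ, |((ψ y).re)⁻¹|)
    set c : ℕ := 1 + M * (T + 1) with hcdef
    have hc2 : 2 ≤ c := by rw [hcdef]; nlinarith
    have hcT : (T : ℝ) ≤ c := by
      have : T ≤ c := by rw [hcdef]; nlinarith
      exact_mod_cast this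
    have hc0 : (c : K) ≠ 0 := Nat.cast_ne_zero.2 (by omega)
    -- valuations
    have hvc : ∀ P ∈ S, P.valuation K ((c : K) ^ 2 - 1) < P.valuation K (((p ^ k : ℕ) : K) ^ 6) := by
      intro P hP
      have e : (c : K) ^ 2 - 1 = (M : K) * (((T + 1) * (2 + M * (T + 1)) : ℕ) : K) := by
        rw [hcdef]; push_cast; ring
      rw [e, map_mul]
      refine lt_of_le_of_lt (mul_le_of_le_one_right' ?_) (hM P hP)
      rw [← map_natCast (algebraMap (𝓞 K) K)]
      exact P.valuation_le_one _
    have hvy : ∀ P ∈ S, P.valuation K y ≤ 1 := fun P hP => by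
      have h := P.valuation K |>.map_add (y - 1) 1
      rw [sub_add_cancel, map_one] at h
      refine h.trans (max_le ((hcong P hP).le.trans ?_) le_rfl)
      rw [map_pow]
      exact pow_le_one' (hn1 P) _
    -- positivity
    have hreal : ∀ φ : QBar →+* ℂ, (∀ x ∈ K, (φ x).im = 0) →
        1 < (c : ℝ) ^ 2 * (φ (y : QBar)).re := fun φ hφ => by
      have hy0 := hpos φ hφ
      have h1 : ((φ (y : QBar)).re)⁻¹ < c := by
        refine lt_of_le_of_lt ?_ (hT.trans_le hcT)
        refine le_trans (le_abs_self _) ?_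
        exact Finset.single_le_sum (f := fun ψ : K →+* ℂ => |((ψ y).re)⁻¹|)
          (fun ψ _ => abs_nonneg _) (Finset.mem_univ (φ.comp (algebraMap K QBar)))
      have h2 : 1 < (c : ℝ) * (φ (y : QBar)).re := (inv_lt_iff_one_lt_mul₀ hy0).1 h1
      have hc1 : (1 : ℝ) ≤ c := by exact_mod_cast (by omega : 1 ≤ c)
      nlinarith
    have hp1 : IsTotallyPositive ((c : K) ^ 2 * y - 1) := fun φ hφ => by
      have e : φ (((c : K) ^ 2 * y - 1 : K) : QBar) = ((c : ℝ) ^ 2 : ℝ) * φ (y : QBar) - 1 := by
        push_cast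
        simp
      rw [e, Complex.sub_re, Complex.re_ofReal_mul, Complex.one_re]
      linarith [hreal φ hφ]
    have hp2 : IsTotallyPositive ((c : K) ^ 2 - 1) := fun φ hφ => by
      have e : φ (((c : K) ^ 2 - 1 : K) : QBar) = (((c : ℝ) ^ 2 - 1 : ℝ) : ℂ) := by
        push_cast
        simp
      rw [e, Complex.ofReal_re]
      have : (2 : ℝ) ≤ c := by exact_mod_cast hc2
      nlinarith
    have h1 := artinElem_eq_one_of_sub_one_pos hcore hp hχ hS hv φ₀ hφ₀
      (pow_ne_zero 2 hc0) hp2 hvc
    have h2 := artinElem_eq_one_of_sub_one_pos hcore hp hχ hS hv φ₀ hφ₀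
      (mul_ne_zero (pow_ne_zero 2 hc0) hy) hp1 fun P hP => by
        rw [show (c : K) ^ 2 * y - 1 = ((c : K) ^ 2 - 1) * y + (y - 1) by ring]
        refine Valuation.map_add_lt _ ?_ (hcong P hP)
        rw [map_mul]
        exact lt_of_le_of_lt (mul_le_of_le_one_right' (hvy P hP)) (hvc P hP)
    rwa [artinElem_mul v (pow_ne_zero 2 hc0) hy, h1, one_mul] at h2

end Fermat.Agent.CFT.Reciprocity
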