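import Fermat.Agent.CFT.Reciprocity.Level
import Fermat.Agent.CFT.Reciprocity.Ord
import Fermat.Agent.CFT.Reciprocity.Carry2
import Fermat.Agent.CFT.Form.LocalOrder

/-!
# The auxiliary character on the ideles of `K`

`psiK a f` is `psi a` of the norm of `f` to `ℚ`. It kills the ideles whose carry class at a Sylow
subgroup vanishes, and on an idele supported at one place it is minus the order times the residue
degree times the logarithm.
-/

set_option autoImplicit false
set_option synthInstance.maxHeartbeats 200000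
set_option linter.style.haveILetI false
set_option linter.unusedSectionVars false

noncomputable section

namespace Fermat.Agent.CFT.Reciprocity

open ExtCitation Fermat.Agent.Arith Fermat.Agent.CFT.Idele Fermat.Agent.CFT.Form IntermediateField
open IsDedekindDomain NumberField groupCohomology

local instance factPrimePsiK (q : Nat.Primes) : Fact (q : ℕ).Prime := ⟨q.2⟩

variable {n : ℕ} (a : Aux n)

/-- The character is trivial on principal rational ideles when the logarithm kills `-1`. -/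
theorem psi_prinBot_of_neg (hneg : a.log (-1) = 1) (r : ℚˣ) : psi a (prinBot r) = 1 := by
  have hm1 : psi a (prinBot (-1)) = 1 := by
    have hval : ∀ l : Nat.Primes, (botVal l (prinBot (-1)) : ℚ_[(l : ℕ)]) = -1 := fun l => by
      rw [botVal_prinBot]; simp
    rw [psi_of_units a fun l _ => by rw [hval, norm_neg, norm_one]]
    rw [show resUnit (botVal a.q (prinBot (-1))) = -1 from Units.ext ?_, hneg]
    rw [resUnit_intCast (m := (-1 : ℤ)) (by rw [hval]; simp)
      (fun hd => a.q.2.one_lt.ne' (by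
        have := Int.eq_one_of_dvd_one (by positivity) (dvd_neg.1 hd)
        exact_mod_cast this))]
    simp
  have hnat : ∀ m : ℕ, ∀ hm : (m : ℚ) ≠ 0, psi a (prinBot (Units.mk0 (m : ℚ) hm)) = 1 := by
    intro m
    induction m using Nat.recOnMul with
    | zero => intro hm; exact absurd Nat.cast_zero hm
    | one =>
      intro hm
      rw [show Units.mk0 ((1 : ℕ) : ℚ) hm = 1 from Units.ext Nat.cast_one, map_one, map_one]
    | prime l hl => intro hm; exact psi_prinBot_prime a ⟨l, hl⟩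
    | mul x y hx hy =>
      intro hm
      have hxy := mul_ne_zero_iff.1 (show (x : ℚ) * y ≠ 0 by exact_mod_cast hm)
      rw [show Units.mk0 ((x * y : ℕ) : ℚ) hm = Units.mk0 (x : ℚ) hxy.1 * Units.mk0 (y : ℚ) hxy.2
        from Units.ext (Nat.cast_mul x y), map_mul, map_mul, hx, hy, mul_one]
  have hd : ((r : ℚ).den : ℚ) ≠ 0 := by exact_mod_cast (r : ℚ).den_nz
  have hnum : (((r : ℚ).num.natAbs : ℕ) : ℚ) ≠ 0 := by simp [r.ne_zero]
  set u := Units.mk0 _ hnum / Units.mk0 _ hd with hu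
  have hpsi : psi a (prinBot u) = 1 := by rw [hu, map_div, map_div, hnat, hnat, div_one]
  have hru : (r : ℚ) = (u : ℚ) ∨ (r : ℚ) = -(u : ℚ) := by
    rw [hu, Units.val_div_eq_div_val, Units.val_mk0, Units.val_mk0]
    rcases Int.natAbs_eq (r : ℚ).num with h | h <;> [left; right] <;>
      conv_lhs => rw [← Rat.num_div_den (r : ℚ), h]
    · rw [Int.cast_natCast]
    · rw [Int.cast_neg, Int.cast_natCast, neg_div]
  rcases hru with h | h
  · rw [show r = u from Units.ext h]; exact hpsi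
  · rw [show r = -1 * u from Units.ext (by simp [h]), map_mul, map_mul, hm1, hpsi, mul_one]

variable {M : IntermediateField ℚ QBar} [FiniteDimensional ℚ M] [Normal ℚ M]

/-- An invariant idele whose class is a norm from the cyclic field has trivial character. -/
theorem psi_eq_one_of_class_neg (hneg : a.log (-1) = 1) (hF : a.fixedChi ≤ M) (N : J M)
    (hN : ∀ σ : M ≃ₐ[ℚ] M, σ • N = N) (W : C a.fixedChi)
    (hW : proj M N = Idele.inclC hF (∑ σ : a.fixedChi ≃ₐ[ℚ] a.fixedChi, σ • W)) :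
    psi a (toBot N hN) = 1 := by
  obtain ⟨Y, rfl⟩ := proj_surjective a.fixedChi W
  set S : J a.fixedChi := ∑ σ : a.fixedChi ≃ₐ[ℚ] a.fixedChi, σ • Y with hS
  have hS' : ∀ τ : a.fixedChi ≃ₐ[ℚ] a.fixedChi, τ • S = S := fun τ => by
    rw [hS, Finset.smul_sum]
    exact Fintype.sum_equiv (Equiv.mulLeft τ) _ _ fun σ => (mul_smul τ σ Y).symm
  rw [show (∑ σ : a.fixedChi ≃ₐ[ℚ] a.fixedChi, σ • proj a.fixedChi Y) = proj a.fixedChi S by
    rw [hS, map_sum]; exact Finset.sum_congr rfl fun σ _ => (proj_smul _ σ Y).symm,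
    ← proj_inclJ', ← sub_eq_zero, ← map_sub, proj_eq_zero_iff] at hW
  obtain ⟨c, hc⟩ := hW
  set x := Units.map M.val.toRingHom.toMonoidHom c
  have hc' : prin x = (N.toMul : PreIdele) / (S.toMul : PreIdele) := congrArg Subtype.val hc
  have hM : (S.toMul : PreIdele) ∈ idl (⊥ : IntermediateField ℚ QBar) :=
    mem_idl_bot_of_fixed fun σ => congrArg Additive.toMul (hS' σ)
  have hx : prin x ∈ idl (⊥ : IntermediateField ℚ QBar) := hc' ▸ div_mem (toBot N hN).2 hM
  have e : toBot N hN = ⟨prin x, hx⟩ * ⟨_, hM⟩ := Subtype.ext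
    (show (N.toMul : PreIdele) = prin x * (S.toMul : PreIdele) by rw [hc', div_mul_cancel])
  obtain ⟨r, hr⟩ := IntermediateField.mem_bot.1 (prin_mem_idl_iff.1 hx)
  have hr0 : r ≠ 0 := fun h => x.ne_zero (by rw [← hr, h, map_zero])
  have hp : (⟨prin x, hx⟩ : idl (⊥ : IntermediateField ℚ QBar)) = prinBot (Units.mk0 r hr0) :=
    Subtype.ext (congrArg prin (Units.ext hr.symm))
  rw [e, map_mul, hp, psi_prinBot_of_neg a hneg, one_mul]
  refine psi_norm a Y.toMul _ ?_
  show (S.toMul : PreIdele) = _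
  rw [hS, toMul_sum]
  rfl

variable {K : IntermediateField ℚ QBar}

local instance fintypeCosets : Fintype ((M ≃ₐ[ℚ] M) ⧸ imK M K) := Fintype.ofFinite _

theorem smul_sumQ_toJ (hKM : K ≤ M) (f : Additive (idl K)) (σ : M ≃ₐ[ℚ] M) :
    σ • sumQ (imK M K) (toJ hKM f) = sumQ (imK M K) (toJ hKM f) :=
  smul_sumQ (fun _ hk => smul_toJ hKM hk f) σ

/-- The norm of an idele of `K` to `ℚ`. -/
def normK (hKM : K ≤ M) (f : Additive (idl K)) : idl (⊥ : IntermediateField ℚ QBar) :=
  toBot (sumQ (imK M K) (toJ hKM f)) (smul_sumQ_toJ hKM f)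

theorem normK_add (hKM : K ≤ M) (f f' : Additive (idl K)) :
    normK hKM (f + f') = normK hKM f * normK hKM f' := by
  refine Subtype.ext ?_
  show ((sumQ (imK M K) (toJ hKM (f + f'))).toMul : PreIdele) =
    (((sumQ (imK M K) (toJ hKM f)) + sumQ (imK M K) (toJ hKM f')).toMul : PreIdele)
  congr 2
  simp only [sumQ, map_add, smul_add, Finset.sum_add_distrib]

/-- The components of the norm. -/
theorem emb_botVal_normK (hKM : K ≤ M) (f : Additive (idl K)) (l : Nat.Primes) :
    algebraMap ℚ_[(l : ℕ)] (Ω l) (botVal l (normK hKM f) : ℚ_[(l : ℕ)]) =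
      ∏ c : (M ≃ₐ[ℚ] M) ⧸ imK M K, (((f.toMul : PreIdele) l (lift M c.out) : (Ω l)ˣ) : Ω l) := by
  rw [botVal_spec l (normK hKM f) 1]
  show ((((sumQ (imK M K) (toJ hKM f)).toMul : idl M) : PreIdele) l 1 : Ω l) = _
  rw [← coe_val _ l (map_one (res M)), val_sumQ, Units.coe_prod, IntermediateField.coe_prod]
  refine Finset.prod_congr rfl fun c _ => ?_
  exact coe_val _ l (res_lift M _)

/-- The auxiliary character on the ideles of `K`. -/
def psiK (hKM : K ≤ M) : Additive (idl K) →+ ZMod n :=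
  AddMonoidHom.mk' (fun f => Multiplicative.toAdd (psi a (normK hKM f))) fun f f' => by
    rw [normK_add, map_mul, toAdd_mul]

/-- An idele of `K` supported at one place. -/
structure IsSingle (l : Nat.Primes) (g : GQ) (y : (Ω l)ˣ) (f : idl K) : Prop where
  val_self : (f : PreIdele) l g = y
  other : ∀ q, q ≠ l → (f : PreIdele) q = 1
  off : ∀ g', (∀ τ, ∀ s ∈ K.fixingSubgroup, g' ≠ loc l τ * g * s) → (f : PreIdele) l g' = 1

theorem exists_isSingle {l : Nat.Primes} {g : GQ} (y : (Ω l)ˣ)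
    (hy : (y : Ω l) ∈ fieldAt l K g) : ∃ f : idl K, IsSingle l g y f := by
  obtain ⟨f, hf, h1, h2, h3⟩ := exists_idl_single g y hy
  exact ⟨⟨f, hf⟩, h1, h2, h3⟩

variable [NumberField K]

/-- The embeddings of `K` are the cosets of its group. -/
theorem prod_cosets_eq_norm (hKM : K ≤ M) (x : K) :
    ∏ c : (M ≃ₐ[ℚ] M) ⧸ imK M K, lift M c.out (x : QBar) =
      algebraMap ℚ QBar (Algebra.norm ℚ x) := by
  classical
  rw [Algebra.norm_eq_prod_embeddings]
  refine Fintype.prod_bijective (fun c => (lift M c.out).toAlgHom.comp K.val) ⟨fun c c' h => ?_,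
    fun φ => ?_⟩ _ _ fun _ => rfl
  · rw [← QuotientGroup.out_eq' c, ← QuotientGroup.out_eq' c', QuotientGroup.eq]
    refine ⟨(lift M c.out)⁻¹ * lift M c'.out, (IntermediateField.mem_fixingSubgroup_iff _ _).2
      fun z hz => ?_, by simp [res_lift]⟩
    have h1 : lift M c.out z = lift M c'.out z := DFunLike.congr_fun h ⟨z, hz⟩
    rw [AlgEquiv.mul_apply, ← h1]
    exact (lift M c.out).symm_apply_apply z
  · let σ : GQ := (Algebra.IsAlgebraic.algEquivEquivAlgHom ℚ QBar).symm
      (φ.liftNormal QBar)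
    refine ⟨QuotientGroup.mk (res M σ), AlgHom.ext fun z => ?_⟩
    obtain ⟨⟨k, hk⟩, e⟩ := QuotientGroup.mk_out_eq_mul (imK M K) (res M σ)
    show lift M _ (z : QBar) = φ z
    rw [← res_apply M (lift M _) (⟨z, hKM z.2⟩ : M), res_lift, e]
    obtain ⟨s, hs, rfl⟩ := hk
    rw [← map_mul, res_apply, AlgEquiv.mul_apply,
      (IntermediateField.mem_fixingSubgroup_iff _ _).1 hs _ z.2]
    exact φ.liftNormal_commutes QBar z

variable {l : Nat.Primes} {g : GQ} {P : Prime K}

/-- The character of an idele supported at one place. -/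
theorem psiK_single (hKM : K ≤ M) (hP : LiesOver (placeAt l g) P) {d : ℕ}
    (hd : Ideal.absNorm P.asIdeal = (l : ℕ) ^ d) (hl : l ≠ a.q) {x : K} (hx : x ≠ 0) {y : (Ω l)ˣ}
    (hy : ‖(y : Ω l)‖ = ‖emb l (g (x : QBar))‖) {f : idl K} (hf : IsSingle l g y f) :
    psiK a hKM (Additive.ofMul f) =
      -(((d : ℤ) * ordAt P x) • Multiplicative.toAdd (a.log (a.unitOf (a.not_dvd_of_ne hl)))) := by
  classical
  set N := normK hKM (Additive.ofMul f)
  have hne : ∀ q, q ≠ l → botVal q N = 1 := fun q hq => by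
    refine Units.ext ((algebraMap ℚ_[(q : ℕ)] (Ω q)).injective ?_)
    rw [emb_botVal_normK, Units.val_one, map_one]
    exact Finset.prod_eq_one fun c _ => by simp [hf.other q hq]
  obtain ⟨ϖ, hϖ, hu⟩ := exists_uniformizer_at P l
  have hnorm : ∀ h : GQ, ‖(((f : PreIdele) l h : (Ω l)ˣ) : Ω l)‖ =
      ‖emb l (h ((ϖ : K) : QBar))‖ ^ ordAt P x := by
    intro h
    by_cases hc : ∃ τ, ∃ s ∈ K.fixingSubgroup, h = loc l τ * g * s
    · obtain ⟨τ, s, hs, rfl⟩ := hc
      rw [apply_eq_of_rep f.2 l τ g hs, norm_algEquiv_Ω, hf.val_self, hy,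
        norm_emb_eq_zpow hP hϖ hx, AlgEquiv.mul_apply,
        (IntermediateField.mem_fixingSubgroup_iff _ _).1 hs _ (ϖ : K).2, AlgEquiv.mul_apply,
        emb_loc, norm_algEquiv_Ω]
    · push Not at hc
      rw [hf.off h hc, Units.val_one, norm_one]
      obtain ⟨Q, hQ⟩ := exists_prime_placeAt (K := K) l h
      have hQP : Q ≠ P := fun e => by
        obtain ⟨τ, s, hs, e'⟩ := exists_loc_mul hP (e ▸ hQ) hKM
        exact hc τ s hs e'
      rw [norm_emb_eq_one_of_notMem hQ (hu Q hQP hQ.natCast_mem), one_zpow]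
  obtain ⟨m, hm, hnm⟩ := exists_absNorm_span_eq (l := l) hϖ hu
  have hbot : ‖(botVal l N : ℚ_[(l : ℕ)])‖ = ((l : ℕ) : ℝ) ^ (-((d : ℤ) * ordAt P x)) := by
    rw [← norm_algebraMap' (Ω l), emb_botVal_normK, norm_prod]
    simp only [toMul_ofMul, hnorm]
    rw [Finset.prod_zpow, ← norm_prod, ← map_prod, prod_cosets_eq_norm hKM (ϖ : K),
      ← Algebra.coe_norm_int, map_intCast, map_intCast, ← map_intCast (algebraMap ℚ_[(l : ℕ)] (Ω l)),
      norm_algebraMap', show ‖((Algebra.norm ℤ ϖ : ℤ) : ℚ_[(l : ℕ)])‖ =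
        ‖(((Algebra.norm ℤ ϖ).natAbs : ℕ) : ℚ_[(l : ℕ)])‖ by
        rcases Int.natAbs_eq (Algebra.norm ℤ ϖ) with h | h
        · conv_lhs => rw [h, Int.cast_natCast]
        · conv_lhs => rw [h, Int.cast_neg, Int.cast_natCast, norm_neg],
      hnm, hd, Nat.cast_mul, norm_mul, Nat.cast_pow, norm_pow, Padic.norm_p,
      show ‖((m : ℕ) : ℚ_[(l : ℕ)])‖ = 1 from Padic.norm_natCast_eq_one_iff.2
        ((Nat.Prime.coprime_iff_not_dvd l.2).2 hm), mul_one, ← zpow_natCast, ← zpow_mul,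
      inv_zpow', neg_mul_eq_neg_mul]
  have hval : (botVal l N : ℚ_[(l : ℕ)]).valuation = (d : ℤ) * ordAt P x := by
    rw [Padic.norm_eq_zpow_neg_valuation (Units.ne_zero _)] at hbot
    exact neg_injective (Local.zpow_inj_q (q := (l : ℕ)) hbot)
  show Multiplicative.toAdd (psi a N) = _
  rw [psi_of_single a hl (by rw [hne _ (Ne.symm hl), map_one]) fun q hq => by
      rw [hne q hq, Units.val_one, norm_one], hval, toAdd_inv, toAdd_zpow]

/-- The character kills the ideles with trivial carry class at a Sylow subgroup. -/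
theorem psiK_eq_zero_of_carryCls {p t : ℕ} [hp : Fact p.Prime] (b : Aux (p ^ t))
    (hneg : b.log (-1) = 1) (hKM : K ≤ M) (hF : b.fixedChi ≤ M) {S : Subgroup (M ≃ₐ[ℚ] M)}
    (hS : S ≤ imK M K) (hSp : IsPGroup p S) (hcop : p.Coprime (S.relIndex (imK M K)))
    (hA : CFT.StepAxioms p S (C M)) {γ : S}
    (hγ : chiGlob b hF γ = Multiplicative.ofAdd 1) {f : Additive (idl K)}
    (h : carryCls ((chiGlob b hF).comp S.subtype) (toC hKM f) = 0) : psiK b hKM f = 0 := by
  rcases Nat.eq_zero_or_pos t with rfl | ht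
  · haveI : Subsingleton (ZMod (p ^ 0)) := by rw [pow_zero]; infer_instance
    exact Subsingleton.elim _ _
  set ε := (chiGlob b hF).comp S.subtype
  obtain ⟨w, hw, hwx⟩ := exists_eq_norm_of_carryN (χ := ε) (γ := γ)
    (Nat.one_lt_pow ht.ne' hp.out.one_lt) hγ (hA.h1Zero ε.ker (hSp.to_subgroup _))
    (carryCls_eq_zero_iff.1 h)
  set K₀ := ε.ker.map S.subtype
  set E₀ := (chiGlob b hF).ker
  have hwK : ∀ σ ∈ K₀, σ • w = w := by rintro _ ⟨σ, hσ, rfl⟩; exact hw σ hσ
  have hle : K₀ ≤ E₀ := by rintro _ ⟨σ, hσ, rfl⟩; exact hσ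
  set x := toJ hKM f
  have hxS : ∀ σ ∈ S, σ • x = x := fun σ hσ => smul_toJ hKM (hS hσ) f
  have e1 : sumQ K₀ w = sumQ S (proj M x) := by
    rw [show proj M x = ∑ i ∈ Finset.range (p ^ t), γ ^ i • w from hwx]
    exact sumQ_cyclic ε hγ hw
  obtain ⟨W, hW⟩ := Idele.exists_inclC_eq hF (x := sumQ (K₀.subgroupOf E₀) w) fun σ hσ => by
    rw [← ker_chiGlob b hF] at hσ
    exact smul_sumQ (G := E₀) (fun k hk => hwK (k : M ≃ₐ[ℚ] M) hk) ⟨σ, hσ⟩
  have hN : ∀ σ : M ≃ₐ[ℚ] M, σ • sumQ S x = sumQ S x := smul_sumQ hxS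
  have hproj : proj M (sumQ S x) =
      Idele.inclC hF (∑ σ : b.fixedChi ≃ₐ[ℚ] b.fixedChi, σ • W) := by
    rw [← inclC_norm, hW, ← sumQ_subgroupOf hle hwK, e1, sumQ, sumQ, map_sum]
    exact Finset.sum_congr rfl fun c _ => proj_smul M _ _
  have h1 := psi_eq_one_of_class_neg b hneg hF _ hN W hproj
  set r := S.relIndex (imK M K)
  have hr : sumQ S x = r • sumQ (imK M K) x := by
    rw [sumQ_subgroupOf hS hxS]
    have hin : sumQ (S.subgroupOf (imK M K)) x = r • x := by
      letI := Fintype.ofFinite (imK M K ⧸ S.subgroupOf (imK M K))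
      rw [sumQ, Finset.sum_congr rfl fun c _ => smul_toJ hKM (c.out : imK M K).2 f, Finset.sum_const,
        Finset.card_univ, ← Nat.card_eq_fintype_card]
      rfl
    rw [hin, sumQ, sumQ, Finset.smul_sum]
    exact Finset.sum_congr rfl fun c _ => smul_comm _ _ _
  have h2 : psi b (normK hKM f) ^ r = 1 := by
    rw [← map_pow, ← h1]
    refine congrArg _ (Subtype.ext ?_)
    show ((sumQ (imK M K) x).toMul : PreIdele) ^ r = ((sumQ S x).toMul : PreIdele)
    rw [hr, toMul_nsmul, SubmonoidClass.coe_pow]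
  have h3 : psi b (normK hKM f) ^ (p ^ t) = 1 := by
    rw [← ofAdd_toAdd (psi b (normK hKM f)), ← ofAdd_nsmul, nsmul_eq_mul, ZMod.natCast_self,
      zero_mul]; rfl
  have h4 := (pow_gcd_eq_one (m := p ^ t) (n := r)).2 ⟨h3, h2⟩
  rw [(hcop.pow_left t).gcd_eq_one, pow_one] at h4
  show Multiplicative.toAdd (psi b (normK hKM f)) = 0
  rw [h4, toAdd_one]

end Fermat.Agent.CFT.Reciprocity
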