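import Fermat.Agent.CFT.Reciprocity.PsiK
import Fermat.Agent.CFT.Idele.FirstInequality

/-!
# Ideles with trivial classes

An idele supported at a place is a norm for a character killing the decomposition group there, and
an idele of units which is trivial at the ramified primes is a norm at the level of the character.
-/

set_option autoImplicit false
set_option synthInstance.maxHeartbeats 200000
set_option linter.style.haveILetI false
set_option linter.unusedSectionVars false

noncomputable section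

namespace Fermat.Agent.CFT.Reciprocity

open ExtCitation Fermat.Agent.Arith Fermat.Agent.CFT.Idele Fermat.Agent.CFT.Form IntermediateField
open Fermat.Agent.CFT.Local
open IsDedekindDomain NumberField groupCohomology
open scoped Pointwise

local instance factPrimeSingle (q : Nat.Primes) : Fact (q : ℕ).Prime := ⟨q.2⟩

variable {n : ℕ} [NeZero n] {K M : IntermediateField ℚ QBar} [FiniteDimensional ℚ M] [Normal ℚ M]

/-- A local automorphism of the place of `g` stabilises it. -/
theorem conj_loc_smul_placeAt (l : Nat.Primes) (g : GQ) (τ : Ω l ≃ₐ[ℚ_[(l : ℕ)]] Ω l) :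
    (g⁻¹ * loc l τ * g) • placeAt l g = placeAt l g := by
  rw [placeAt, mul_smul, smul_inv_smul, mul_smul]
  congr 1
  exact MulAction.mem_stabilizer_iff.1 (localGaloisToGlobal_mem_decompositionSubgroup (l : ℕ) τ)

/-- A character killing the decomposition group kills the ideles supported there. -/
theorem carryCls_single_eq_zero (hKM : K ≤ M) {δ : imK M K →* Multiplicative (ZMod n)}
    {l : Nat.Primes} {g : GQ}
    (hδ : ∀ s (hs : s ∈ K.fixingSubgroup), s • placeAt l g = placeAt l g →
      δ ⟨res M s, ⟨s, hs, rfl⟩⟩ = 1)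
    {y : (Ω l)ˣ} (hy : (y : Ω l) ∈ fieldAt l K g) {f : idl K} (hf : IsSingle l g y f) :
    carryCls δ (toC hKM (Additive.ofMul f)) = 0 := by
  classical
  set D := δ.ker.map (imK M K).subtype
  set K' := fixedQ M D
  have hKK' : K ≤ K' := fun x hx => (mem_fixedQ (⟨x, hKM hx⟩ : M)).2 (by
    rintro _ ⟨σ, -, rfl⟩
    obtain ⟨s, hs, e⟩ := σ.2
    refine Subtype.ext ?_
    rw [Subgroup.coe_subtype, ← e, res_apply]
    exact (IntermediateField.mem_fixingSubgroup_iff _ _).1 hs x hx)
  obtain ⟨f', hf'⟩ := exists_isSingle (K := K') y (fieldAt_mono hKK' g hy)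
  set F : J M := Additive.ofMul ⟨(f' : PreIdele), idl_mono (fixedQ_le D) f'.2⟩
  have hFfix : ∀ σ ∈ δ.ker, σ • F = F := fun σ hσ => by
    have h := (mem_fixedBy_idl_iff (K := K') M
      ⟨(f' : PreIdele), idl_mono (fixedQ_le D) f'.2⟩).2 f'.2
    rw [map_fixingSubgroup_fixedQ] at h
    exact congrArg Additive.ofMul (h _ ⟨σ, hσ, rfl⟩)
  have hK' : ∀ u (hu : u ∈ K.fixingSubgroup),
      u ∈ K'.fixingSubgroup ↔ δ ⟨res M u, ⟨u, hu, rfl⟩⟩ = 1 := fun u hu => by
    rw [mem_fixingSubgroup_fixedQ]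
    refine ⟨fun ⟨σ, hσ, e⟩ => ?_, fun h => ⟨_, MonoidHom.mem_ker.2 h, rfl⟩⟩
    rw [show (⟨res M u, ⟨u, hu, rfl⟩⟩ : imK M K) = σ from Subtype.ext e.symm]
    exact hσ
  -- the values of the translates
  have hval : ∀ u (hu : u ∈ K.fixingSubgroup), (f' : PreIdele) l (g * u) =
      if δ ⟨res M u, ⟨u, hu, rfl⟩⟩ = 1 then y else 1 := fun u hu => by
    split_ifs with h
    · rw [← hf'.val_self]
      exact congrFun (congrFun ((mem_idl.1 f'.2).2.2 u ((hK' u hu).2 h)) l) g
    · refine hf'.off _ fun τ s hs e => h ?_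
      have hsK : s ∈ K.fixingSubgroup := IntermediateField.fixingSubgroup_antitone hKK' hs
      have hd : g⁻¹ * loc l τ * g ∈ K.fixingSubgroup := by
        have : g⁻¹ * loc l τ * g = u * s⁻¹ := by
          rw [eq_mul_inv_iff_mul_eq, mul_assoc, mul_assoc, ← mul_assoc (loc l τ), ← e,
            inv_mul_cancel_left]
        rw [this]
        exact mul_mem hu (inv_mem hsK)
      have e' : u = (g⁻¹ * loc l τ * g) * s := by
        rw [mul_assoc, mul_assoc, ← mul_assoc (loc l τ), ← e, inv_mul_cancel_left]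
      rw [show (⟨res M u, ⟨u, hu, rfl⟩⟩ : imK M K) =
          ⟨res M (g⁻¹ * loc l τ * g), ⟨_, hd, rfl⟩⟩ * ⟨res M s, ⟨s, hsK, rfl⟩⟩ from
        Subtype.ext ((congrArg (res M) e').trans (map_mul _ _ _)), map_mul, hδ _ hd (conj_loc_smul_placeAt l g τ),
        one_mul]
      exact (hK' s hsK).1 hs
  letI := Fintype.ofFinite (imK M K ⧸ δ.ker)
  have hsum : sumQ δ.ker F = toJ hKM (Additive.ofMul f) := by
    refine Additive.toMul.injective (Subtype.ext ?_)
    rw [sumQ, toMul_sum, SubmonoidClass.coe_finsetProd]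
    funext q g'
    rw [Finset.prod_apply, Finset.prod_apply]
    have hterm : ∀ c : imK M K ⧸ δ.ker,
        (((c.out • F).toMul : idl M) : PreIdele) q g' =
          (f' : PreIdele) q (g' * lift M (c.out : M ≃ₐ[ℚ] M)) := fun c =>
      congrFun (congrFun (coe_smul_idl M _ _ (res_lift M (c.out : M ≃ₐ[ℚ] M))) q) g'
    rw [Finset.prod_congr rfl fun c _ => hterm c]
    show _ = (f : PreIdele) q g'
    rcases eq_or_ne q l with rfl | hq
    swap
    · rw [hf.other q hq, Finset.prod_eq_one fun c _ => by rw [hf'.other q hq]; rfl]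
      rfl
    by_cases hc : ∃ τ, ∃ s ∈ K.fixingSubgroup, g' = loc q τ * g * s
    · obtain ⟨τ, s, hs, rfl⟩ := hc
      set σs : imK M K := ⟨res M s, ⟨s, hs, rfl⟩⟩
      have hL : ∀ c : imK M K ⧸ δ.ker, lift M (c.out : M ≃ₐ[ℚ] M) ∈ K.fixingSubgroup :=
        fun c => lift_mem_fixingSubgroup hKM c.out.2
      have hv : ∀ c : imK M K ⧸ δ.ker,
          (((f' : PreIdele) q (loc q τ * g * s * lift M (c.out : M ≃ₐ[ℚ] M)) : (Ω q)ˣ) : Ω q) =
            τ (((if δ (σs * c.out) = 1 then y else 1 : (Ω q)ˣ)) : Ω q) := fun c => by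
        rw [show loc q τ * g * s * lift M (c.out : M ≃ₐ[ℚ] M) =
            loc q τ * (g * (s * lift M (c.out : M ≃ₐ[ℚ] M))) by simp only [mul_assoc],
          (mem_idl.1 f'.2).1, hval _ (mul_mem hs (hL c))]
        rw [show (⟨res M (s * lift M (c.out : M ≃ₐ[ℚ] M)), ⟨_, mul_mem hs (hL c), rfl⟩⟩ : imK M K) =
          σs * c.out from Subtype.ext ((map_mul _ _ _).trans (congrArg (res M s * ·) (res_lift M _)))]
      refine Units.ext ?_
      rw [Units.coe_prod, apply_eq_of_rep f.2 q τ g hs, hf.val_self,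
        Finset.prod_congr rfl fun c _ => hv c, Finset.prod_eq_single (QuotientGroup.mk σs⁻¹)]
      · obtain ⟨k, hk⟩ := QuotientGroup.mk_out_eq_mul δ.ker σs⁻¹
        rw [if_pos (by rw [hk, mul_inv_cancel_left]; exact k.2)]
      · intro c _ hne
        rw [if_neg fun h => hne ?_, Units.val_one, map_one]
        rw [← QuotientGroup.out_eq' c]
        refine QuotientGroup.eq.2 (MonoidHom.mem_ker.2 ?_)
        rw [← mul_inv_rev, map_inv, h, inv_one]
      · exact fun h => absurd (Finset.mem_univ _) h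
    · push Not at hc
      rw [hf.off g' hc]
      refine Finset.prod_eq_one fun c _ => hf'.off _ fun τ s hs e => hc τ
        (s * (lift M (c.out : M ≃ₐ[ℚ] M))⁻¹)
        (mul_mem (IntermediateField.fixingSubgroup_antitone hKK' hs)
          (inv_mem (lift_mem_fixingSubgroup hKM c.out.2))) ?_
      rw [← mul_assoc, ← e, mul_inv_cancel_right]
  refine carryCls_eq_zero_iff.2 ?_
  have e : toC hKM (Additive.ofMul f) = sumQ δ.ker (proj M F) := by
    rw [toC, AddMonoidHom.comp_apply, ← hsum, sumQ, sumQ, map_sum]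
    exact Finset.sum_congr rfl fun c _ => proj_smul M _ _
  rw [e]
  refine isCoboundary₂_carryN_sumQ δ le_rfl fun σ hσ => ?_
  show (σ : M ≃ₐ[ℚ] M) • proj M F = proj M F
  rw [← proj_smul]
  exact congrArg (proj M) (hFfix σ hσ)

/-- An idele of units, trivial at the ramified primes, is a norm at the level of the character. -/
theorem carryCls_units_eq_zero {L : IntermediateField ℚ QBar} [FiniteDimensional ℚ L] [Normal ℚ L]
    (hKL : K ≤ L) (hLM : L ≤ M) (hKM : K ≤ M) (χ : imK L K →* Multiplicative (ZMod n))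
    (χ' : imK M K →* Multiplicative (ZMod n))
    (hχ : ∀ s (hs : s ∈ K.fixingSubgroup),
      χ' ⟨res M s, ⟨s, hs, rfl⟩⟩ = χ ⟨res L s, ⟨s, hs, rfl⟩⟩)
    (T : Finset Nat.Primes) (hT : ∀ q ∉ T, inertia (E L q) = ⊥) {f : idl K}
    (h1 : ∀ q ∈ T, ∀ g, (f : PreIdele) q g = 1)
    (h2 : ∀ q ∉ T, ∀ g, ‖(((f : PreIdele) q g : (Ω q)ˣ) : Ω q)‖ = 1) :
    carryCls χ' (toC hKM (Additive.ofMul f)) = 0 := by
  classical
  set F : idl L := ⟨(f : PreIdele), idl_mono hKL f.2⟩
  have hFfix : ∀ h : imK L K, (h : L ≃ₐ[ℚ] L) • F = F := fun h =>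
    (mem_fixedBy_idl_iff (K := K) L F).2 f.2 h h.2
  have hFt : F ∈ trivIdl L := fun q σ => by
    by_cases hq : q ∈ T
    · rw [show val F q σ = 1 from Units.ext (Subtype.ext (by
        rw [coe_val F q (res_lift L σ)]
        show (((f : PreIdele) q (lift L σ) : (Ω q)ˣ) : Ω q) = 1
        rw [h1 q hq]; rfl))]
      exact one_mem _
    · unfold trivUnits
      rw [(exists_trivial_units L q).choose_spec.2.2.2.2 (hT q hq)]
      refine (mem_unitGroup _).2 ?_
      rw [norm_val F q (res_lift L σ)]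
      exact h2 q hq _
  letI := Fintype.ofFinite (imK L K)
  obtain ⟨z, -, hz⟩ := (normOK_trivIdl (imK L K)).surj F hFt hFfix
  have h0 : carryCls χ (proj L (Additive.ofMul F)) = 0 := by
    refine carryCls_eq_zero_iff.2 ?_
    have e : proj L (Additive.ofMul F) = normSum (imK L K) (C L) (proj L (Additive.ofMul z)) := by
      rw [normSum, ← hz, ofMul_prod, map_sum]
      exact Finset.sum_congr rfl fun h _ => proj_smul L _ _
    rw [e]
    exact isCoboundary₂_carryN_normSum χ _
  let φ : imK M K →* imK L K :=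
    ((Duality.levelRes hLM).comp (imK M K).subtype).codRestrict (imK L K) fun σ => by
      obtain ⟨s, hs, e⟩ := σ.2
      exact ⟨s, hs, by rw [MonoidHom.comp_apply, Subgroup.coe_subtype, ← e,
        Duality.levelRes_res]⟩
  have h := carryCls_comp_eq_zero h0 φ (Duality.inclC hLM) fun σ c =>
    Duality.smul_inclC hLM _ c
  have eχ : χ.comp φ = χ' := MonoidHom.ext fun ⟨σ, hσ⟩ => by
    obtain ⟨s, hs, rfl⟩ := hσ
    rw [hχ s hs]
    exact congrArg χ (Subtype.ext (Duality.levelRes_res hLM s))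
  rw [eχ] at h
  exact h

end Fermat.Agent.CFT.Reciprocity
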